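/-
S24, layer (R), chunk (2) (owner: helper12): Laurent expansion at `i∞` in `q_h = exp(2πiτ/h)` of
`h`-periodic holomorphic functions on `ℍ` that are meromorphic at `i∞`.  Mathlib only.
-/
import Mathlib

set_option autoImplicit false

noncomputable section

namespace Fermat.Agent.S24

open UpperHalfPlane Function
open scoped Manifold

/-- `q_h^m` as a function on `ℍ` -/
def qpow (h : ℕ) (m : ℕ) : ℍ → ℂ := fun τ => Periodic.qParam (h : ℝ) (τ : ℂ) ^ m

/-- holomorphic on `ℍ`, `h`-periodic, bounded at `i∞` -/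
structure IsBddPer (h : ℕ) (g : ℍ → ℂ) : Prop where
  hol : MDiff g
  per : ∀ τ : ℍ, g ((h : ℝ) +ᵥ τ) = g τ
  bdd : IsBoundedAtImInfty g

/-- holomorphic on `ℍ`, `h`-periodic, meromorphic at `i∞` -/
def IsMeroAtInfty (h : ℕ) (f : ℍ → ℂ) : Prop :=
  MDiff f ∧ (∀ τ : ℍ, f ((h : ℝ) +ᵥ τ) = f τ) ∧
    ∃ m : ℕ, IsBoundedAtImInfty (fun τ : ℍ => Periodic.qParam (h : ℝ) (τ : ℂ) ^ m * f τ)

/-- the candidate Laurent series attached to the exponent `m` -/
def laurentOf (h : ℕ) (m : ℕ) (f : ℍ → ℂ) : LaurentSeries ℂ :=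
  HahnSeries.single (-(m : ℤ)) (1 : ℂ) *
    HahnSeries.ofPowerSeries ℤ ℂ (qExpansion (h : ℝ) (qpow h m * f))

open Classical in
/-- the Laurent expansion of `f` at `i∞` in the parameter `q_h` (junk value `0` if `f` is not
meromorphic at `i∞`) -/
def laurentInfty (h : ℕ) (f : ℍ → ℂ) : LaurentSeries ℂ :=
  if hf : ∃ m : ℕ, IsBoundedAtImInfty (fun τ : ℍ => Periodic.qParam (h : ℝ) (τ : ℂ) ^ m * f τ) then
    laurentOf h (Nat.find hf) f
  else 0

/-! ### periodic bounded holomorphic functions -/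

theorem periodic_comp_ofComplex_of_vadd {h : ℝ} {g : ℍ → ℂ} (hper : ∀ τ : ℍ, g (h +ᵥ τ) = g τ) :
    Periodic (g ∘ ofComplex) h := by
  intro w
  by_cases hw : 0 < Complex.im w
  · have hw2 : 0 < Complex.im (w + h) := by simp [hw]
    simp only [comp_apply, ofComplex_apply_of_im_pos hw2, ofComplex_apply_of_im_pos hw]
    rw [← hper ⟨w, hw⟩]
    congr 1
    ext
    simp [add_comm]
  · have hw' : Complex.im w ≤ 0 := not_lt.mp hw
    have hw2 : Complex.im (w + h) ≤ 0 := by simpa using hw'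
    simp [ofComplex_apply_of_im_nonpos hw2, ofComplex_apply_of_im_nonpos hw']

namespace IsBddPer

variable {h : ℕ} {f g : ℍ → ℂ}

theorem periodic (hg : IsBddPer h g) : Periodic (g ∘ ofComplex) (h : ℝ) :=
  periodic_comp_ofComplex_of_vadd hg.per

theorem analytic [NeZero h] (hg : IsBddPer h g) : AnalyticAt ℂ (cuspFunction (h : ℝ) g) 0 :=
  analyticAt_cuspFunction_zero (Nat.cast_pos.mpr (NeZero.pos h)) hg.periodic hg.hol hg.bdd

theorem const (h : ℕ) (c : ℂ) : IsBddPer h (fun _ => c) where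
  hol := mdifferentiable_const
  per := fun _ => rfl
  bdd := Filter.const_boundedAtFilter _ c

theorem add (hf : IsBddPer h f) (hg : IsBddPer h g) : IsBddPer h (f + g) where
  hol := hf.hol.add hg.hol
  per := fun τ => by simp only [Pi.add_apply, hf.per τ, hg.per τ]
  bdd := hf.bdd.add hg.bdd

theorem mul (hf : IsBddPer h f) (hg : IsBddPer h g) : IsBddPer h (f * g) where
  hol := hf.hol.mul hg.hol
  per := fun τ => by simp only [Pi.mul_apply, hf.per τ, hg.per τ]
  bdd := hf.bdd.mul hg.bdd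

theorem neg (hf : IsBddPer h f) : IsBddPer h (-f) where
  hol := hf.hol.neg
  per := fun τ => by simp only [Pi.neg_apply, hf.per τ]
  bdd := hf.bdd.neg

end IsBddPer

theorem qpow_apply (h m : ℕ) (τ : ℍ) : qpow h m τ = Periodic.qParam (h : ℝ) (τ : ℂ) ^ m := rfl

theorem qpow_zero (h : ℕ) : qpow h 0 = 1 := by
  funext τ; simp [qpow]

theorem qpow_add (h m k : ℕ) : qpow h (m + k) = qpow h m * qpow h k := by
  funext τ; simp [qpow, pow_add]

theorem qpow_ne_zero (h m : ℕ) (τ : ℍ) : qpow h m τ ≠ 0 :=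
  pow_ne_zero _ (Periodic.qParam_ne_zero _)

theorem isBddPer_qpow (h m : ℕ) : IsBddPer h (qpow h m) where
  hol := by
    rw [mdifferentiable_iff]
    have h1 : DifferentiableOn ℂ (fun z : ℂ => Periodic.qParam (h : ℝ) z ^ m) {z | 0 < z.im} :=
      ((Periodic.differentiable_qParam (h := (h : ℝ))).pow m).differentiableOn
    refine h1.congr ?_
    intro z hz
    simp only [comp_apply, qpow, ofComplex_apply_of_im_pos hz]
  per := fun τ => by
    simp only [qpow]
    congr 1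
    rcases Nat.eq_zero_or_pos h with rfl | hpos
    · simp [Periodic.qParam]
    · have hh : ((h : ℝ) : ℂ) ≠ 0 := by exact_mod_cast hpos.ne'
      simp only [Periodic.qParam, coe_vadd]
      rw [show 2 * (Real.pi : ℂ) * Complex.I * (((h : ℝ) : ℂ) + (τ : ℂ)) / ((h : ℝ) : ℂ) =
        2 * (Real.pi : ℂ) * Complex.I * (τ : ℂ) / ((h : ℝ) : ℂ) + 2 * (Real.pi : ℂ) * Complex.I by
          field_simp; ring]
      rw [Complex.exp_add, Complex.exp_two_pi_mul_I, mul_one]
  bdd := by
    rw [UpperHalfPlane.isBoundedAtImInfty_iff]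
    refine ⟨1, 0, fun τ _ => ?_⟩
    simp only [qpow, norm_pow]
    refine pow_le_one₀ (norm_nonneg _) ?_
    rw [Periodic.norm_qParam]
    rw [Real.exp_le_one_iff]
    rcases Nat.eq_zero_or_pos h with rfl | hpos
    · simp
    · have hh : (0 : ℝ) < h := by exact_mod_cast hpos
      have : 0 ≤ 2 * Real.pi * (τ : ℂ).im / h := by
        have := τ.im_pos
        positivity
      have h2 : -2 * Real.pi * (τ : ℂ).im / h = -(2 * Real.pi * (τ : ℂ).im / h) := by ring
      rw [h2]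
      linarith

/-! ### `q`-expansions of the powers of `q_h` -/

/-- `UpperHalfPlane.qExpansion_coeff_unique` for plain functions -/
theorem qExpansion_coeff_unique_fun {h : ℝ} {g : ℍ → ℂ} (hcont : Continuous g) {c : ℕ → ℂ}
    (hh : 0 < h) (hg : AnalyticAt ℂ (cuspFunction h g) 0)
    (hs : ∀ τ : ℍ, HasSum (fun m => c m • Periodic.qParam h (τ : ℂ) ^ m) (g τ)) (m : ℕ) :
    c m = (qExpansion h g).coeff m :=
  UpperHalfPlane.qExpansion_coeff_unique (ContinuousMap.mk g hcont) hh hg hs m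

theorem qExpansion_qpow (h : ℕ) [NeZero h] (m : ℕ) :
    qExpansion (h : ℝ) (qpow h m) = PowerSeries.X ^ m := by
  have hh : (0 : ℝ) < h := Nat.cast_pos.mpr (NeZero.pos h)
  have hsum : ∀ τ : ℍ, HasSum (fun k : ℕ => (fun k => if k = m then (1 : ℂ) else 0) k •
      Periodic.qParam (h : ℝ) (τ : ℂ) ^ k) (qpow h m τ) := by
    intro τ
    have h2 : (fun k : ℕ => (fun k => if k = m then (1 : ℂ) else 0) k •
        Periodic.qParam (h : ℝ) (τ : ℂ) ^ k) = fun k => if k = m then qpow h m τ else 0 := by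
      funext k
      simp only
      split_ifs with hk
      · subst hk; simp [qpow]
      · simp
    rw [h2]
    exact hasSum_ite_eq m _
  refine PowerSeries.ext fun n => ?_
  have key := qExpansion_coeff_unique_fun (isBddPer_qpow h m).hol.continuous hh
    (isBddPer_qpow h m).analytic hsum n
  rw [PowerSeries.coeff_X_pow]
  exact key.symm

theorem qExpansion_qpow_mul (h : ℕ) [NeZero h] (k : ℕ) {g : ℍ → ℂ} (hg : IsBddPer h g) :
    qExpansion (h : ℝ) (qpow h k * g) = PowerSeries.X ^ k * qExpansion (h : ℝ) g := by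
  rw [qExpansion_mul (isBddPer_qpow h k).analytic hg.analytic, qExpansion_qpow]

/-! ### independence of the exponent -/

theorem laurentOf_add_right (h : ℕ) [NeZero h] (m k : ℕ) {f : ℍ → ℂ}
    (hf : IsBddPer h (qpow h m * f)) : laurentOf h (m + k) f = laurentOf h m f := by
  unfold laurentOf
  have h1 : qpow h (m + k) * f = qpow h k * (qpow h m * f) := by rw [qpow_add]; ring
  rw [h1, qExpansion_qpow_mul h k hf, map_mul, HahnSeries.ofPowerSeries_X_pow, ← mul_assoc,
    HahnSeries.single_mul_single]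
  rw [show (-((m + k : ℕ) : ℤ) + (k : ℤ)) = -(m : ℤ) by push_cast; ring, mul_one]

namespace IsMeroAtInfty

variable {h : ℕ} {f g : ℍ → ℂ}

theorem isBddPer (hf : IsMeroAtInfty h f) {m : ℕ}
    (hm : IsBoundedAtImInfty (fun τ : ℍ => Periodic.qParam (h : ℝ) (τ : ℂ) ^ m * f τ)) :
    IsBddPer h (qpow h m * f) where
  hol := (isBddPer_qpow h m).hol.mul hf.1
  per := fun τ => by simp only [Pi.mul_apply, (isBddPer_qpow h m).per τ, hf.2.1 τ]
  bdd := hm

theorem isBddPer_of_le (hf : IsMeroAtInfty h f) {m n : ℕ} (hmn : m ≤ n)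
    (hm : IsBoundedAtImInfty (fun τ : ℍ => Periodic.qParam (h : ℝ) (τ : ℂ) ^ m * f τ)) :
    IsBddPer h (qpow h n * f) := by
  obtain ⟨k, rfl⟩ := Nat.exists_eq_add_of_le hmn
  have h1 : qpow h (m + k) * f = qpow h k * (qpow h m * f) := by rw [qpow_add]; ring
  rw [h1]
  exact (isBddPer_qpow h k).mul (hf.isBddPer hm)

theorem of_isBddPer (hf : IsBddPer h f) : IsMeroAtInfty h f :=
  ⟨hf.hol, hf.per, 0, by simpa using hf.bdd⟩

end IsMeroAtInfty

theorem laurentInfty_eq {h : ℕ} [NeZero h] {f : ℍ → ℂ} (hf : IsMeroAtInfty h f) {m : ℕ}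
    (hm : IsBoundedAtImInfty (fun τ : ℍ => Periodic.qParam (h : ℝ) (τ : ℂ) ^ m * f τ)) :
    laurentInfty h f = laurentOf h m f := by
  classical
  unfold laurentInfty
  have hex : ∃ m : ℕ,
      IsBoundedAtImInfty (fun τ : ℍ => Periodic.qParam (h : ℝ) (τ : ℂ) ^ m * f τ) := ⟨m, hm⟩
  rw [dif_pos hex]
  have hle : Nat.find hex ≤ m := Nat.find_min' hex hm
  obtain ⟨k, hk⟩ := Nat.exists_eq_add_of_le hle
  conv_rhs => rw [hk]
  exact (laurentOf_add_right h _ k (hf.isBddPer (Nat.find_spec hex))).symm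

theorem isBoundedAtImInfty_qpow_mul_iff (h m : ℕ) (f : ℍ → ℂ) :
    IsBoundedAtImInfty (fun τ : ℍ => Periodic.qParam (h : ℝ) (τ : ℂ) ^ m * f τ) ↔
      IsBoundedAtImInfty (qpow h m * f) := Iff.rfl

/-- a version of `laurentInfty_eq` in terms of `IsBddPer` -/
theorem laurentInfty_eq' {h : ℕ} [NeZero h] {f : ℍ → ℂ} {m : ℕ}
    (hm : IsBddPer h (qpow h m * f)) (hf : IsMeroAtInfty h f) :
    laurentInfty h f = laurentOf h m f :=
  laurentInfty_eq hf hm.bdd

/-! ### closure properties -/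

namespace IsMeroAtInfty

variable {h : ℕ} {f g : ℍ → ℂ}

theorem const (h : ℕ) (c : ℂ) : IsMeroAtInfty h (fun _ => c) := of_isBddPer (IsBddPer.const h c)

theorem exists_isBddPer (hf : IsMeroAtInfty h f) : ∃ m : ℕ, IsBddPer h (qpow h m * f) := by
  obtain ⟨m, hm⟩ := hf.2.2
  exact ⟨m, hf.isBddPer hm⟩

theorem of_isBddPer_qpow_mul (hf1 : MDiff f) (hf2 : ∀ τ : ℍ, f ((h : ℝ) +ᵥ τ) = f τ) {m : ℕ}
    (hm : IsBddPer h (qpow h m * f)) : IsMeroAtInfty h f :=
  ⟨hf1, hf2, m, hm.bdd⟩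

theorem add (hf : IsMeroAtInfty h f) (hg : IsMeroAtInfty h g) : IsMeroAtInfty h (f + g) := by
  obtain ⟨m1, hm1⟩ := hf.2.2
  obtain ⟨m2, hm2⟩ := hg.2.2
  have A := hf.isBddPer_of_le (Nat.le_add_right m1 m2) hm1
  have B := hg.isBddPer_of_le (Nat.le_add_left m2 m1) hm2
  refine ⟨hf.1.add hg.1, fun τ => by simp only [Pi.add_apply, hf.2.1 τ, hg.2.1 τ], m1 + m2, ?_⟩
  rw [isBoundedAtImInfty_qpow_mul_iff, mul_add]
  exact (A.add B).bdd

theorem mul (hf : IsMeroAtInfty h f) (hg : IsMeroAtInfty h g) : IsMeroAtInfty h (f * g) := by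
  obtain ⟨m1, hm1⟩ := hf.2.2
  obtain ⟨m2, hm2⟩ := hg.2.2
  have A := hf.isBddPer hm1
  have B := hg.isBddPer hm2
  refine ⟨hf.1.mul hg.1, fun τ => by simp only [Pi.mul_apply, hf.2.1 τ, hg.2.1 τ], m1 + m2, ?_⟩
  rw [isBoundedAtImInfty_qpow_mul_iff]
  have h1 : qpow h (m1 + m2) * (f * g) = (qpow h m1 * f) * (qpow h m2 * g) := by
    rw [qpow_add]; ring
  rw [h1]
  exact (A.mul B).bdd

theorem neg (hf : IsMeroAtInfty h f) : IsMeroAtInfty h (-f) := by
  obtain ⟨m, hm⟩ := hf.2.2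
  have A := hf.isBddPer hm
  refine ⟨hf.1.neg, fun τ => by simp only [Pi.neg_apply, hf.2.1 τ], m, ?_⟩
  rw [isBoundedAtImInfty_qpow_mul_iff, mul_neg]
  exact A.neg.bdd

theorem sub (hf : IsMeroAtInfty h f) (hg : IsMeroAtInfty h g) : IsMeroAtInfty h (f - g) := by
  rw [sub_eq_add_neg]
  exact hf.add hg.neg

end IsMeroAtInfty

/-! ### ring homomorphism properties of `laurentInfty` -/

section ring

variable {h : ℕ} [NeZero h] {f g : ℍ → ℂ}

theorem laurentInfty_of_bounded (hf : IsBddPer h f) :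
    laurentInfty h f = HahnSeries.ofPowerSeries ℤ ℂ (qExpansion (h : ℝ) f) := by
  have h0 : IsBddPer h (qpow h 0 * f) := by rw [qpow_zero, one_mul]; exact hf
  rw [laurentInfty_eq' h0 (IsMeroAtInfty.of_isBddPer hf)]
  unfold laurentOf
  rw [qpow_zero, one_mul]
  simp

theorem laurentInfty_const (c : ℂ) :
    laurentInfty h (fun _ : ℍ => c) = HahnSeries.C c := by
  rw [laurentInfty_of_bounded (IsBddPer.const h c)]
  have h1 : (fun _ : ℍ => c) = c • (1 : ℍ → ℂ) := by
    funext τ; simp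
  have h2 : AnalyticAt ℂ (cuspFunction (h : ℝ) (1 : ℍ → ℂ)) 0 :=
    (IsBddPer.const h 1).analytic
  rw [h1, qExpansion_smul h2, qExpansion_one, PowerSeries.smul_eq_C_mul, mul_one,
    HahnSeries.ofPowerSeries_C]

theorem laurentInfty_zero : laurentInfty h (0 : ℍ → ℂ) = 0 := by
  have := laurentInfty_const (h := h) 0
  rw [map_zero] at this
  exact this

theorem laurentInfty_one : laurentInfty h (1 : ℍ → ℂ) = 1 := by
  have := laurentInfty_const (h := h) 1
  rw [map_one] at this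
  exact this

theorem laurentInfty_add (hf : IsMeroAtInfty h f) (hg : IsMeroAtInfty h g) :
    laurentInfty h (f + g) = laurentInfty h f + laurentInfty h g := by
  obtain ⟨m1, hm1⟩ := hf.2.2
  obtain ⟨m2, hm2⟩ := hg.2.2
  have A := hf.isBddPer_of_le (Nat.le_add_right m1 m2) hm1
  have B := hg.isBddPer_of_le (Nat.le_add_left m2 m1) hm2
  have AB : IsBddPer h (qpow h (m1 + m2) * (f + g)) := by rw [mul_add]; exact A.add B
  rw [laurentInfty_eq' AB (hf.add hg), laurentInfty_eq' A hf, laurentInfty_eq' B hg]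
  unfold laurentOf
  rw [mul_add (qpow h (m1 + m2)), qExpansion_add A.analytic B.analytic, map_add, mul_add]

theorem laurentInfty_mul (hf : IsMeroAtInfty h f) (hg : IsMeroAtInfty h g) :
    laurentInfty h (f * g) = laurentInfty h f * laurentInfty h g := by
  obtain ⟨m1, hm1⟩ := hf.2.2
  obtain ⟨m2, hm2⟩ := hg.2.2
  have A := hf.isBddPer hm1
  have B := hg.isBddPer hm2
  have h1 : qpow h (m1 + m2) * (f * g) = (qpow h m1 * f) * (qpow h m2 * g) := by
    rw [qpow_add]; ring
  have AB : IsBddPer h (qpow h (m1 + m2) * (f * g)) := by rw [h1]; exact A.mul B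
  rw [laurentInfty_eq' AB (hf.mul hg), laurentInfty_eq' A hf, laurentInfty_eq' B hg]
  unfold laurentOf
  rw [h1, qExpansion_mul A.analytic B.analytic, map_mul, mul_mul_mul_comm,
    HahnSeries.single_mul_single]
  rw [show (-((m1 : ℤ)) + -(m2 : ℤ)) = -((m1 + m2 : ℕ) : ℤ) by push_cast; ring, mul_one]

theorem laurentInfty_neg (hf : IsMeroAtInfty h f) :
    laurentInfty h (-f) = -laurentInfty h f := by
  have h1 : -f = (fun _ : ℍ => (-1 : ℂ)) * f := by
    funext τ; simp
  rw [h1, laurentInfty_mul (IsMeroAtInfty.const h (-1)) hf, laurentInfty_const, map_neg, map_one]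
  ring

theorem laurentInfty_sub (hf : IsMeroAtInfty h f) (hg : IsMeroAtInfty h g) :
    laurentInfty h (f - g) = laurentInfty h f - laurentInfty h g := by
  rw [sub_eq_add_neg, laurentInfty_add hf hg.neg, laurentInfty_neg hg, sub_eq_add_neg]

theorem laurentInfty_eq_zero_iff (hf : IsMeroAtInfty h f) : laurentInfty h f = 0 ↔ f = 0 := by
  have hh : (0 : ℝ) < h := Nat.cast_pos.mpr (NeZero.pos h)
  constructor
  · intro h0
    obtain ⟨m, hm⟩ := hf.2.2
    have A := hf.isBddPer hm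
    rw [laurentInfty_eq' A hf] at h0
    unfold laurentOf at h0
    rcases mul_eq_zero.mp h0 with h1 | h1
    · exact absurd h1 (HahnSeries.single_ne_zero one_ne_zero)
    · have h2 : qExpansion (h : ℝ) (qpow h m * f) = 0 := by
        apply HahnSeries.ofPowerSeries_injective (Γ := ℤ)
        rw [h1, map_zero]
      have h3 := (qExpansion_eq_zero_iff hh A.periodic A.hol A.bdd).mp h2
      funext τ
      have h4 := congrFun h3 τ
      simp only [Pi.mul_apply, Pi.zero_apply, mul_eq_zero] at h4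
      rcases h4 with h4 | h4
      · exact absurd h4 (qpow_ne_zero h m τ)
      · exact h4
  · rintro rfl
    exact laurentInfty_zero

/-- recognising the Laurent expansion from a convergent expansion of `q_h^m * f` -/
theorem laurentInfty_eq_of_hasSum (hf1 : MDiff f) (hf2 : ∀ τ : ℍ, f ((h : ℝ) +ᵥ τ) = f τ)
    (m : ℕ) (c : ℕ → ℂ)
    (hs : ∀ τ : ℍ, HasSum (fun n : ℕ => c n * Periodic.qParam (h : ℝ) (τ : ℂ) ^ n)
      (Periodic.qParam (h : ℝ) (τ : ℂ) ^ m * f τ)) :
    IsMeroAtInfty h f ∧ laurentInfty h f =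
      HahnSeries.single (-(m : ℤ)) (1 : ℂ) * HahnSeries.ofPowerSeries ℤ ℂ (PowerSeries.mk c) := by
  have hh : (0 : ℝ) < h := Nat.cast_pos.mpr (NeZero.pos h)
  have hs' : ∀ τ : ℍ, HasSum (fun n : ℕ => c n • Periodic.qParam (h : ℝ) (τ : ℂ) ^ n)
      ((qpow h m * f) τ) := fun τ => by
    have := hs τ
    simp only [smul_eq_mul]
    exact this
  have hbdd : IsBoundedAtImInfty (qpow h m * f) :=
    isBoundedAtImInfty_of_hasSum_qExpansion hh hs'
  have hmero : IsMeroAtInfty h f := ⟨hf1, hf2, m, hbdd⟩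
  have A : IsBddPer h (qpow h m * f) := hmero.isBddPer hbdd
  refine ⟨hmero, ?_⟩
  rw [laurentInfty_eq' A hmero]
  unfold laurentOf
  congr 2
  ext n
  rw [PowerSeries.coeff_mk]
  exact (qExpansion_coeff_unique_fun A.hol.continuous hh A.analytic hs' n).symm

end ring

end Fermat.Agent.S24
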