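import Fermat.Agent.S24.Real.Stabiliser
import Fermat.Agent.S24.Real.LaurentInfty
import Fermat.Agent.S24.NormPoly

set_option autoImplicit false

/-!
# S24, layer (R): the translates `τ ↦ J(d (γ τ))` are meromorphic at `i∞`

For `γ ∈ SL(2,ℤ)` and `d ≥ 1`: `τ ↦ Jd d (γ • τ)` has at most polar growth at `i∞`
(`polarAtInfty_Jd_smul`, in the sense of `NormPoly.lean`), and for `d ∣ N` it is `N`-periodic and
meromorphic at `i∞` in the sense of `Real/LaurentInfty.lean` (`isMeroAtInfty_Jd_smul`).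
-/

open UpperHalfPlane ModularForm ModularFormClass EisensteinSeries CongruenceSubgroup Filter Topology
  Asymptotics
open scoped Manifold MatrixGroups ComplexConjugate

noncomputable section

namespace Fermat.Agent.S24

local notation "𝕢" => Function.Periodic.qParam

/-- Core growth bound: `e^{-2π c Im τ} |j((Aτ+B)/D)|` is bounded at `i∞` as soon as `c ≥ A/D`. -/
theorem isBigO_exp_mul_jFun_upperGL (A B D : ℤ) (hA : 0 < A) (hD : 0 < D) {c : ℝ}
    (hc : (A : ℝ) / D ≤ c) :
    (fun τ : ℍ => Real.exp (-2 * Real.pi * c * τ.im) * ‖jFun (upperGL A B D hA hD • τ)‖)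
      =O[atImInfty] (fun _ => (1 : ℝ)) := by
  have h1 : Tendsto (fun τ : ℍ => 𝕢 1 ↑(upperGL A B D hA hD • τ) *
      jFun (upperGL A B D hA hD • τ)) atImInfty (𝓝 1) :=
    tendsto_qParam_mul_jFun.comp
      (tendsto_smul_atImInfty (g := upperGL A B D hA hD) (by simp [upperGL]))
  have h2 := h1.isBigO_one ℝ
  refine IsBigO.trans (IsBigO.of_bound' ?_) h2
  filter_upwards with τ
  rw [norm_qParam_mul_jFun, im_upperGL_smul, Real.norm_eq_abs, abs_of_nonneg (by positivity)]
  refine mul_le_mul_of_nonneg_right (Real.exp_le_exp.mpr ?_) (norm_nonneg _)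
  have hy : 0 < τ.im := τ.im_pos
  have h3 : (A : ℝ) / D * τ.im ≤ c * τ.im := mul_le_mul_of_nonneg_right hc hy.le
  nlinarith [Real.pi_pos]

/-- `τ ↦ J(d (γ τ))` has at most polar growth at `i∞`. -/
theorem polarAtInfty_Jd_smul (d : ℕ) (hd : 0 < d) (γ : SL(2, ℤ)) :
    PolarAtInfty (fun τ => Jd d (γ • τ)) := by
  obtain ⟨A, B, D, hA, hD, -, -, hJ⟩ := Jd_smul_eq_hermite γ d hd
  refine ⟨A.toNat, ?_⟩
  have hAn : ((A.toNat : ℕ) : ℝ) = A := by
    have : ((A.toNat : ℕ) : ℤ) = A := Int.toNat_of_nonneg hA.le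
    exact_mod_cast this
  have hDR : (1 : ℝ) ≤ D := by exact_mod_cast hD
  have hAR : (0 : ℝ) < A := by exact_mod_cast hA
  have hcore := isBigO_exp_mul_jFun_upperGL A B D hA hD (c := A)
    (div_le_self hAR.le hDR)
  have hΔ : (ModularForm.discriminant : ℍ → ℂ) =O[atImInfty]
      fun τ => Real.exp (-2 * Real.pi * τ.im / 1) :=
    CuspFormClass.exp_decay_atImInfty CuspForm.discriminant one_pos one_mem_strictPeriods_SL
  have hΔm := hΔ.pow A.toNat
  have hmul : ((fun τ => Jd d (γ • τ)) * (ModularForm.discriminant : ℍ → ℂ) ^ A.toNat)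
      =O[atImInfty] fun τ : ℍ => ‖jFun (upperGL A B D hA hD • τ)‖ *
        Real.exp (-2 * Real.pi * τ.im / 1) ^ A.toNat := by
    refine IsBigO.mul ?_ hΔm
    refine IsBigO.of_bound' ?_
    filter_upwards with τ
    rw [hJ τ, ← upperGL_smul_eq_ofComplex A B D hA hD, norm_norm]
  refine hmul.trans (IsBigO.trans (IsBigO.of_bound' ?_) hcore)
  filter_upwards with τ
  rw [div_one, ← Real.exp_nat_mul, hAn, mul_comm]
  apply le_of_eq
  congr 2
  ring_nf

/-- `τ ↦ J(d (γ τ))` is holomorphic, `N`-periodic and meromorphic at `i∞` for `d ∣ N`. -/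
theorem isMeroAtInfty_Jd_smul {N d : ℕ} [NeZero N] (hd : d ∣ N) (γ : SL(2, ℤ)) :
    IsMeroAtInfty N (fun τ => Jd d (γ • τ)) := by
  have hN : 0 < N := Nat.pos_of_ne_zero (NeZero.ne N)
  have hd0 : 0 < d := Nat.pos_of_dvd_of_pos hd hN
  refine ⟨?_, fun τ => Jd_smul_vadd hd γ τ, ?_⟩
  · exact (Jd_mdiff d).comp
      (mdifferentiable_smul (g := Matrix.SpecialLinearGroup.mapGL ℝ γ) (by simp))
  · obtain ⟨A, B, D, hA, hD, -, -, hJ⟩ := Jd_smul_eq_hermite γ d hd0
    refine ⟨N * A.toNat, ?_⟩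
    have hAn : ((A.toNat : ℕ) : ℝ) = A := by
      have : ((A.toNat : ℕ) : ℤ) = A := Int.toNat_of_nonneg hA.le
      exact_mod_cast this
    have hDR : (1 : ℝ) ≤ D := by exact_mod_cast hD
    have hAR : (0 : ℝ) < A := by exact_mod_cast hA
    have hNR : (0 : ℝ) < N := by exact_mod_cast hN
    have hcore := isBigO_exp_mul_jFun_upperGL A B D hA hD (c := A)
      (div_le_self hAR.le hDR)
    refine IsBigO.trans (IsBigO.of_bound' ?_) hcore
    filter_upwards with τ
    rw [norm_mul, norm_pow, Function.Periodic.norm_qParam, hJ τ,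
      ← upperGL_smul_eq_ofComplex A B D hA hD,
      ← Real.exp_nat_mul, Real.norm_eq_abs, abs_of_nonneg (by positivity)]
    apply le_of_eq
    congr 2
    push_cast
    rw [hAn, UpperHalfPlane.coe_im]
    field_simp

end Fermat.Agent.S24
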