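import Mathlib
import Fermat.Statements.S24

set_option autoImplicit false

/-!
# S24, layer (R-d): generators of the modular function field and the universal property of a
generated field

* `jqBar L d`: the formal `j(q^d)` with coefficients in `L`;
* `laurentBaseChange_eq_adjoin`: `F_L = L(j(q^d) : d ∣ N)`;
* `exists_ringHom_of_ker`: a ring hom out of a polynomial ring with the same kernel as evaluation at
  the generators descends to the generated field;
* `ringHom_ext_adjoin`: ring homs out of a generated field are determined by constants and generators.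
-/

open ModularCurve

noncomputable section

namespace Fermat.Agent.S24

/-- the formal `j(q^d)` over `L` (value `0` if `d = 0`). -/
def jqBar (L : Type) [Field L] [Algebra ℚ L] (d : ℕ) : LaurentSeries L :=
  if h : d = 0 then 0 else coeffEmb L (@qExpand ℚ _ d ⟨h⟩ jq)

/-- index type for the generators `j(q^d)`, `d ∣ N`. -/
abbrev Gen (N : ℕ) := {d : ℕ // d ∈ N.divisors}

theorem jqBar_of_ne_zero (L : Type) [Field L] [Algebra ℚ L] (d : ℕ) [hd : NeZero d] :
    jqBar L d = coeffEmb L (qExpand ℚ d jq) := by
  have h : d ≠ 0 := NeZero.ne d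
  rw [jqBar, dif_neg h]

section Generation

variable (L : Type) [Field L] [Algebra ℚ L] (N : ℕ) [NeZero N]

omit [NeZero N] in
theorem jqBar_mem (d : Gen N) :
    jqBar L d.1 ∈ laurentBaseChange L (modularFunctionFieldFull N) := by
  have hd0 : d.1 ≠ 0 := (Nat.pos_of_mem_divisors d.2).ne'
  have : NeZero d.1 := ⟨hd0⟩
  rw [jqBar_of_ne_zero]
  exact coeffEmb_mem_laurentBaseChange L (jqd_mem_full N (Nat.dvd_of_mem_divisors d.2))

theorem coeffEmb_mem_adjoin_of_mem_full {y : LaurentSeries ℚ}
    (hy : y ∈ modularFunctionFieldFull N) :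
    coeffEmb L y ∈ IntermediateField.adjoin L (Set.range fun d : Gen N => jqBar L d.1) := by
  set T := IntermediateField.adjoin L (Set.range fun d : Gen N => jqBar L d.1) with hT
  have hy' : y ∈ Subfield.closure
      (Set.range (algebraMap ℚ (LaurentSeries ℚ)) ∪ divisorExpansions N) := hy
  clear hy
  induction hy' using Subfield.closure_induction with
  | mem z hz =>
      rcases hz with ⟨c, rfl⟩ | ⟨d, hne, hdvd, rfl⟩
      · have : coeffEmb L (algebraMap ℚ (LaurentSeries ℚ) c)
            = algebraMap L (LaurentSeries L) (algebraMap ℚ L c) := by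
          rw [algebraMap_apply_eq_single, algebraMap_laurentSeries_eq_single, coeffEmb,
            coeffMap_single]
        rw [this]
        exact T.algebraMap_mem _
      · have := hne
        have hmem : d ∈ N.divisors := Nat.mem_divisors.mpr ⟨hdvd, NeZero.ne N⟩
        have : coeffEmb L (qExpand ℚ d jq) = jqBar L (⟨d, hmem⟩ : Gen N).1 := by
          rw [jqBar_of_ne_zero]
        rw [this]
        exact IntermediateField.subset_adjoin L _ ⟨⟨d, hmem⟩, rfl⟩
  | one => rw [map_one]; exact T.one_mem
  | add a b _ _ ha hb => rw [map_add]; exact T.add_mem ha hb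
  | neg a _ ha => rw [map_neg]; exact T.neg_mem ha
  | inv a _ ha => rw [map_inv₀]; exact T.inv_mem ha
  | mul a b _ _ ha hb => rw [map_mul]; exact T.mul_mem ha hb

/-- `F_L = L(j(q^d) : d ∣ N)`. -/
theorem laurentBaseChange_eq_adjoin :
    laurentBaseChange L (modularFunctionFieldFull N) =
      IntermediateField.adjoin L (Set.range fun d : Gen N => jqBar L d.1) := by
  apply le_antisymm
  · rw [laurentBaseChange, IntermediateField.adjoin_le_iff]
    rintro _ ⟨y, hy, rfl⟩
    exact coeffEmb_mem_adjoin_of_mem_full L N hy
  · rw [IntermediateField.adjoin_le_iff]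
    rintro _ ⟨d, rfl⟩
    exact jqBar_mem L N d

/-- the coordinate function `x = j(q) ∈ F_L`. -/
def xGen : laurentBaseChange L (modularFunctionFieldFull N) :=
  ⟨jqBar L 1, jqBar_mem L N ⟨1, Nat.one_mem_divisors.mpr (NeZero.ne N)⟩⟩

end Generation

section Universal

open IntermediateField
open scoped IntermediateField.algebraAdjoinAdjoin

variable {K E M : Type*} [Field K] [Field E] [Algebra K E] [Field M] {σ : Type*} (s : σ → E)

theorem aeval_mem_algebra_adjoin (P : MvPolynomial σ K) :
    MvPolynomial.aeval s P ∈ Algebra.adjoin K (Set.range s) := by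
  rw [Algebra.adjoin_range_eq_range_aeval]
  exact ⟨P, rfl⟩

theorem aeval_mem_adjoin (P : MvPolynomial σ K) :
    MvPolynomial.aeval s P ∈ IntermediateField.adjoin K (Set.range s) :=
  IntermediateField.algebra_adjoin_le_adjoin K _ (aeval_mem_algebra_adjoin s P)

/-- a ring hom out of a polynomial ring with the same kernel as evaluation at the generators descends
to the generated field. -/
theorem exists_ringHom_of_ker (ψ : MvPolynomial σ K →+* M)
    (hker : ∀ P, ψ P = 0 ↔ MvPolynomial.aeval s P = 0) :
    ∃ φ : IntermediateField.adjoin K (Set.range s) →+* M,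
      ∀ (P : MvPolynomial σ K)
        (h : MvPolynomial.aeval s P ∈ IntermediateField.adjoin K (Set.range s)),
        φ ⟨MvPolynomial.aeval s P, h⟩ = ψ P := by
  classical
  -- the subalgebra generated by `s`
  let B := Algebra.adjoin K (Set.range s)
  -- evaluation as a surjective ring hom onto `B`
  let ev : MvPolynomial σ K →+* B :=
    ((MvPolynomial.aeval s).codRestrict B (aeval_mem_algebra_adjoin s) : MvPolynomial σ K →ₐ[K] B)
  have hev : ∀ P, ((ev P : B) : E) = MvPolynomial.aeval s P := fun P => rfl
  have hsurj : Function.Surjective ev := by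
    rintro ⟨b, hb⟩
    have hb' : b ∈ Algebra.adjoin K (Set.range s) := hb
    rw [Algebra.adjoin_range_eq_range_aeval] at hb'
    obtain ⟨P, hP⟩ := hb'
    exact ⟨P, Subtype.ext hP⟩
  have hle : RingHom.ker ev ≤ RingHom.ker ψ := by
    intro P hP
    rw [RingHom.mem_ker] at hP ⊢
    rw [hker]
    have := congrArg (fun b : B => (b : E)) hP
    simpa [hev] using this
  let ψB : B →+* M := ev.liftOfSurjective hsurj ⟨ψ, hle⟩
  have hψB : ∀ P, ψB (ev P) = ψ P := fun P =>
    RingHom.liftOfSurjective_comp_apply ev hsurj ⟨ψ, hle⟩ P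
  have hinj : Function.Injective ψB := by
    rw [injective_iff_map_eq_zero]
    intro b hb
    obtain ⟨P, rfl⟩ := hsurj b
    rw [hψB, hker] at hb
    exact Subtype.ext (by rw [hev, hb]; rfl)
  let φ : IntermediateField.adjoin K (Set.range s) →+* M :=
    IsFractionRing.lift (A := B) (K := IntermediateField.adjoin K (Set.range s)) hinj
  refine ⟨φ, fun P h => ?_⟩
  have h1 : (⟨MvPolynomial.aeval s P, h⟩ : IntermediateField.adjoin K (Set.range s))
      = algebraMap B (IntermediateField.adjoin K (Set.range s)) (ev P) := by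
    apply Subtype.ext
    rfl
  rw [h1, IsFractionRing.lift_algebraMap, hψB]

/-- ring homs out of a generated field are determined on constants and generators. -/
theorem ringHom_ext_adjoin (φ₁ φ₂ : IntermediateField.adjoin K (Set.range s) →+* M)
    (hK : ∀ c : K, φ₁ (algebraMap K _ c) = φ₂ (algebraMap K _ c))
    (hs : ∀ (i : σ) (h : s i ∈ IntermediateField.adjoin K (Set.range s)),
      φ₁ ⟨s i, h⟩ = φ₂ ⟨s i, h⟩) :
    φ₁ = φ₂ := by
  -- the equaliser is a subfield containing `K` and the generators
  have key : ∀ y : E, ∀ hy : y ∈ IntermediateField.adjoin K (Set.range s),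
      φ₁ ⟨y, hy⟩ = φ₂ ⟨y, hy⟩ := by
    intro y hy
    induction hy using IntermediateField.adjoin_induction with
    | mem x hx =>
        obtain ⟨i, rfl⟩ := hx
        exact hs i _
    | algebraMap c => exact hK c
    | add x y hx hy h1 h2 =>
        have : (⟨x + y, add_mem hx hy⟩ : IntermediateField.adjoin K (Set.range s))
            = ⟨x, hx⟩ + ⟨y, hy⟩ := rfl
        rw [this, map_add, map_add, h1, h2]
    | inv x hx h1 =>
        have : (⟨x⁻¹, inv_mem hx⟩ : IntermediateField.adjoin K (Set.range s))
            = (⟨x, hx⟩ : IntermediateField.adjoin K (Set.range s))⁻¹ := rfl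
        rw [this, map_inv₀, map_inv₀, h1]
    | mul x y hx hy h1 h2 =>
        have : (⟨x * y, mul_mem hx hy⟩ : IntermediateField.adjoin K (Set.range s))
            = ⟨x, hx⟩ * ⟨y, hy⟩ := rfl
        rw [this, map_mul, map_mul, h1, h2]
  exact RingHom.ext fun ⟨y, hy⟩ => key y hy

end Universal

end Fermat.Agent.S24
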