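import Mathlib
import Fermat.Agent.S24.Basic
import Fermat.Agent.S24.Rot
import Fermat.Agent.S24.JOrder
import Fermat.Agent.S24.Real.Generators

set_option autoImplicit false

/-!
# S24, layer (R): basic analytic objects

On top of `S24/JOrder.lean` (`jFun = E₄³/Δ`, `rhoPt`, local orders of `jFun`), `S24/Basic.lean`
(`Kbar`, `iotaBar`) and `S24/Rot.lean` (`rot`):

* `scaleMat d = [[d,0],[0,1]]`, `Jd d τ = jFun (dτ)`;
* the inverse Cayley transform `cayleyInv τ₀`, `inDisc τ₀ f` (`f` read in the Cayley coordinate),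
  the Taylor expansion `taylorAt τ₀ f` in the Cayley coordinate, `taylorL` (same as a Laurent series);
* the rotation factor `rotFactor σ τ₀` of an element of the stabiliser of `τ₀` in the Cayley
  coordinate.
-/

open UpperHalfPlane ModularForm EisensteinSeries
open scoped Manifold MatrixGroups ComplexConjugate

noncomputable section

namespace Fermat.Agent.S24

/-- the matrix `[[d,0],[0,1]]` as an element of `GL(2,ℝ)` (`1` if `d = 0`). -/
def scaleMat (d : ℕ) : GL (Fin 2) ℝ :=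
  if h : d = 0 then 1 else
    Matrix.GeneralLinearGroup.mkOfDetNeZero !![(d : ℝ), 0; 0, 1] (by simp [h])

/-- `τ ↦ J(dτ)`. -/
def Jd (d : ℕ) : ℍ → ℂ := fun τ => jFun (scaleMat d • τ)

theorem Jd_apply (d : ℕ) (τ : ℍ) : Jd d τ = jFun (scaleMat d • τ) := rfl

/-- the inverse Cayley transform centred at `τ₀`: `w ↦ (τ₀ - conj τ₀ * w) / (1 - w)`, sending the
unit disc to `ℍ` and `0` to `τ₀`. -/
def cayleyInv (τ₀ : ℍ) (w : ℂ) : ℂ := ((τ₀ : ℂ) - conj (τ₀ : ℂ) * w) / (1 - w)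

/-- `f` read in the Cayley coordinate centred at `τ₀`. -/
def inDisc (τ₀ : ℍ) (f : ℍ → ℂ) (w : ℂ) : ℂ := f (ofComplex (cayleyInv τ₀ w))

/-- Taylor expansion at `τ₀` in the Cayley coordinate `w = (τ - τ₀)/(τ - conj τ₀)`. -/
def taylorAt (τ₀ : ℍ) (f : ℍ → ℂ) : PowerSeries ℂ :=
  PowerSeries.mk fun n => iteratedDeriv n (inDisc τ₀ f) 0 / (n.factorial : ℂ)

theorem coeff_taylorAt (τ₀ : ℍ) (f : ℍ → ℂ) (n : ℕ) :
    PowerSeries.coeff n (taylorAt τ₀ f) =
      iteratedDeriv n (fun w => f (ofComplex (cayleyInv τ₀ w))) 0 / (n.factorial : ℂ) := by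
  rw [taylorAt, PowerSeries.coeff_mk]
  rfl

/-- the same as a Laurent series. -/
def taylorL (τ₀ : ℍ) (f : ℍ → ℂ) : LaurentSeries ℂ :=
  HahnSeries.ofPowerSeries ℤ ℂ (taylorAt τ₀ f)

/-- the rotation factor of `σ ∈ Stab(τ₀)` in the Cayley coordinate:
`w(σ τ) = rotFactor σ τ₀ * w(τ)`. -/
def rotFactor (σ : SL(2, ℤ)) (τ₀ : ℍ) : ℂ :=
  conj (denom (σ : GL (Fin 2) ℝ) τ₀) / denom (σ : GL (Fin 2) ℝ) τ₀

end Fermat.Agent.S24
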