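import Mathlib

set_option autoImplicit false

/-!
# S24, layer (R), chunk (3): Hermite decomposition `(n 0; 0 1) γ = γ₂ (A B; 0 D)`
-/

namespace Fermat.Agent.S24

open Matrix MatrixGroups UpperHalfPlane
open scoped Manifold

/-- Hermite decomposition, scalar form. -/
theorem hermite_int (a b c d : ℤ) (hdet : a * d - b * c = 1) (n : ℤ) (hn : 0 < n) :
    ∃ p q r s A B D : ℤ, p * s - q * r = 1 ∧ 0 < A ∧ 0 < D ∧ A * D = n ∧ (D = 1 ↔ n ∣ c) ∧
      n * a = p * A ∧ n * b = p * B + q * D ∧ c = r * A ∧ d = r * B + s * D := by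
  -- `g = gcd (n a, c)`
  obtain ⟨g, hg⟩ : ∃ g : ℤ, g = (Int.gcd (n * a) c : ℤ) := ⟨_, rfl⟩
  have hg_pos : 0 < g := by
    have h0 : Int.gcd (n * a) c ≠ 0 := by
      intro h0
      rw [Int.gcd_eq_zero_iff] at h0
      obtain ⟨h1, h2⟩ := h0
      have ha0 : a = 0 := by
        rcases mul_eq_zero.1 h1 with h | h
        · exact absurd h hn.ne'
        · exact h
      rw [ha0, h2] at hdet
      simp at hdet
    have h1 : 0 < Int.gcd (n * a) c := Nat.pos_of_ne_zero h0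
    rw [hg]
    exact_mod_cast h1
  have hbez : g = (n * a) * Int.gcdA (n * a) c + c * Int.gcdB (n * a) c := by
    rw [hg]; exact Int.gcd_eq_gcd_ab _ _
  obtain ⟨p, hp⟩ : g ∣ n * a := by rw [hg]; exact Int.gcd_dvd_left _ _
  obtain ⟨r, hr⟩ : g ∣ c := by rw [hg]; exact Int.gcd_dvd_right _ _
  obtain ⟨x, hx⟩ : ∃ x : ℤ, x = Int.gcdA (n * a) c := ⟨_, rfl⟩
  obtain ⟨y, hy⟩ : ∃ y : ℤ, y = Int.gcdB (n * a) c := ⟨_, rfl⟩
  rw [← hx, ← hy] at hbez
  -- `x p + y r = 1`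
  have hxy : x * p + y * r = 1 := by
    have h2 : g * (x * p + y * r) = g * 1 := by
      rw [mul_one]
      calc g * (x * p + y * r) = (g * p) * x + (g * r) * y := by ring
        _ = (n * a) * x + c * y := by rw [← hp, ← hr]
        _ = g := hbez.symm
    exact mul_left_cancel₀ hg_pos.ne' h2
  -- `D = p d - r n b`, and `g * D = n`
  have hgD : g * (p * d - r * n * b) = n := by
    calc g * (p * d - r * n * b) = (g * p) * d - (g * r) * n * b := by ring
      _ = (n * a) * d - c * n * b := by rw [← hp, ← hr]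
      _ = n * (a * d - b * c) := by ring
      _ = n := by rw [hdet, mul_one]
  have hD_pos : 0 < p * d - r * n * b := by
    by_contra hneg
    push Not at hneg
    have h1 : g * (p * d - r * n * b) ≤ 0 := mul_nonpos_of_nonneg_of_nonpos hg_pos.le hneg
    omega
  refine ⟨p, -y, r, x, g, x * n * b + y * d, p * d - r * n * b, ?_, hg_pos, hD_pos, hgD, ?_,
    ?_, ?_, ?_, ?_⟩
  · linear_combination hxy
  · constructor
    · intro hD1
      rw [hD1, mul_one] at hgD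
      rw [← hgD]
      exact ⟨r, hr⟩
    · intro hdvd
      have hng : n ∣ g := by
        rw [hg]
        exact Int.dvd_coe_gcd (Dvd.intro _ rfl) hdvd
      obtain ⟨t, ht⟩ := hng
      have h1 : n * (t * (p * d - r * n * b)) = n * 1 := by
        rw [mul_one]
        calc n * (t * (p * d - r * n * b)) = (n * t) * (p * d - r * n * b) := by ring
          _ = n := by rw [← ht, hgD]
      have h2 := mul_left_cancel₀ hn.ne' h1
      have ht_pos : 0 < t := by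
        by_contra hneg
        push Not at hneg
        have h3 : g ≤ 0 := by rw [ht]; exact mul_nonpos_of_nonneg_of_nonpos hn.le hneg
        omega
      exact Int.eq_one_of_mul_eq_one_left hD_pos.le h2
  · rw [hp]; ring
  · linear_combination (-n * b) * hxy
  · rw [hr]; ring
  · linear_combination (-d) * hxy

/-- **Hermite decomposition** (integer matrix form).  For `γ ∈ SL(2, ℤ)` and `n ≥ 1` there are
`γ₂ ∈ SL(2, ℤ)` and integers `A, D > 0`, `B` with `A * D = n` and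
`(n 0; 0 1) γ = γ₂ (A B; 0 D)`; moreover `D = 1` iff `n ∣ γ 1 0`. -/
theorem hermite_decomp (γ : SL(2, ℤ)) (n : ℕ) (hn : 0 < n) :
    ∃ (γ₂ : SL(2, ℤ)) (A B D : ℤ), 0 < A ∧ 0 < D ∧ A * D = n ∧ (D = 1 ↔ (n : ℤ) ∣ γ 1 0) ∧
      (!![(n : ℤ), 0; 0, 1] * (γ : Matrix (Fin 2) (Fin 2) ℤ) =
        (γ₂ : Matrix (Fin 2) (Fin 2) ℤ) * !![A, B; 0, D]) := by
  have hdet : γ 0 0 * γ 1 1 - γ 0 1 * γ 1 0 = 1 := by
    have h := γ.det_coe
    rw [Matrix.det_fin_two] at h
    exact h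
  have hn' : (0 : ℤ) < n := by exact_mod_cast hn
  obtain ⟨p, q, r, s, A, B, D, hpqrs, hA, hD, hAD, hD1, h00, h01, h10, h11⟩ :=
    hermite_int (γ 0 0) (γ 0 1) (γ 1 0) (γ 1 1) hdet n hn'
  have hdet2 : (!![p, q; r, s] : Matrix (Fin 2) (Fin 2) ℤ).det = 1 := by
    rw [Matrix.det_fin_two_of]
    exact hpqrs
  refine ⟨⟨!![p, q; r, s], hdet2⟩, A, B, D, hA, hD, hAD, hD1, ?_⟩
  ext i j
  fin_cases i <;> fin_cases j
  · simpa [Matrix.mul_apply, Fin.sum_univ_two] using h00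
  · simpa [Matrix.mul_apply, Fin.sum_univ_two] using h01
  · simpa [Matrix.mul_apply, Fin.sum_univ_two] using h10
  · simpa [Matrix.mul_apply, Fin.sum_univ_two] using h11

/-- The upper triangular matrix `(A B; 0 D)` as an element of `GL(2, ℝ)`. -/
noncomputable def upperGL (A B D : ℤ) (hA : 0 < A) (hD : 0 < D) : GL (Fin 2) ℝ :=
  Matrix.GeneralLinearGroup.mkOfDetNeZero !![(A : ℝ), (B : ℝ); 0, (D : ℝ)] (by
    rw [Matrix.det_fin_two_of]
    have h1 : (0 : ℝ) < A := by exact_mod_cast hA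
    have h2 : (0 : ℝ) < D := by exact_mod_cast hD
    simp [h1.ne', h2.ne'])

theorem coe_upperGL_smul (A B D : ℤ) (hA : 0 < A) (hD : 0 < D) (τ : ℍ) :
    ((upperGL A B D hA hD • τ : ℍ) : ℂ) = ((A : ℂ) * τ + B) / D := by
  have h1 : (0 : ℝ) < A := by exact_mod_cast hA
  have h2 : (0 : ℝ) < D := by exact_mod_cast hD
  rw [coe_smul_of_det_pos]
  · simp [num, denom, upperGL]
  · simp [upperGL, Matrix.det_fin_two_of]
    positivity

theorem hermite_smul (γ : SL(2, ℤ)) (n : ℕ) (hn : 0 < n) :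
    ∃ (γ₂ : SL(2, ℤ)) (A B D : ℤ) (hA : 0 < A) (hD : 0 < D), A * D = n ∧
      (D = 1 ↔ (n : ℤ) ∣ γ 1 0) ∧
      ∀ τ : ℍ, upperGL n 0 1 (by exact_mod_cast hn) one_pos • (γ • τ) =
        γ₂ • (upperGL A B D hA hD • τ) := by
  have hdet : γ 0 0 * γ 1 1 - γ 0 1 * γ 1 0 = 1 := by
    have h := γ.det_coe
    rw [Matrix.det_fin_two] at h
    exact h
  have hn' : (0 : ℤ) < n := by exact_mod_cast hn
  obtain ⟨p, q, r, s, A, B, D, hpqrs, hA, hD, hAD, hD1, h00, h01, h10, h11⟩ :=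
    hermite_int (γ 0 0) (γ 0 1) (γ 1 0) (γ 1 1) hdet n hn'
  have hdet2 : (!![p, q; r, s] : Matrix (Fin 2) (Fin 2) ℤ).det = 1 := by
    rw [Matrix.det_fin_two_of]
    exact hpqrs
  let γ₂ : SL(2, ℤ) := ⟨!![p, q; r, s], hdet2⟩
  have g00 : (γ₂ 0 0 : ℤ) = p := rfl
  have g01 : (γ₂ 0 1 : ℤ) = q := rfl
  have g10 : (γ₂ 1 0 : ℤ) = r := rfl
  have g11 : (γ₂ 1 1 : ℤ) = s := rfl
  refine ⟨γ₂, A, B, D, hA, hD, hAD, hD1, ?_⟩
  intro τ
  rw [ModularGroup.sl_moeb, ModularGroup.sl_moeb, ← mul_smul, ← mul_smul]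
  congr 1
  ext i j
  fin_cases i <;> fin_cases j
  · simp [upperGL, Matrix.mul_apply, Fin.sum_univ_two, g00, g01]
    exact_mod_cast h00
  · simp [upperGL, Matrix.mul_apply, Fin.sum_univ_two, g00, g01]
    exact_mod_cast h01
  · simp [upperGL, Matrix.mul_apply, Fin.sum_univ_two, g10, g11]
    exact_mod_cast h10
  · simp [upperGL, Matrix.mul_apply, Fin.sum_univ_two, g10, g11]
    exact_mod_cast h11

theorem upperGL_det_pos (A B D : ℤ) (hA : 0 < A) (hD : 0 < D) :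
    0 < (upperGL A B D hA hD).det.val := by
  have h1 : (0 : ℝ) < A := by exact_mod_cast hA
  have h2 : (0 : ℝ) < D := by exact_mod_cast hD
  simp [upperGL, Matrix.det_fin_two_of]
  positivity

theorem upperGL_smul_eq_ofComplex (A B D : ℤ) (hA : 0 < A) (hD : 0 < D) (τ : ℍ) :
    upperGL A B D hA hD • τ = ofComplex (((A : ℂ) * τ + B) / D) := by
  rw [← coe_upperGL_smul A B D hA hD τ, ofComplex_apply]

theorem mdifferentiable_upperGL_smul (A B D : ℤ) (hA : 0 < A) (hD : 0 < D) :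
    MDiff (fun τ : ℍ => upperGL A B D hA hD • τ) :=
  mdifferentiable_smul (upperGL_det_pos A B D hA hD)

/-- Consequence for `SL(2, ℤ)`-invariant functions: `J (n • γ τ) = J ((A τ + B) / D)`. -/
theorem hermite_invariant {X : Type*} (J : ℍ → X) (hJ : ∀ (γ : SL(2, ℤ)) (τ : ℍ), J (γ • τ) = J τ)
    (γ : SL(2, ℤ)) (n : ℕ) (hn : 0 < n) :
    ∃ (A B D : ℤ), 0 < A ∧ 0 < D ∧ A * D = n ∧ (D = 1 ↔ (n : ℤ) ∣ γ 1 0) ∧
      ∀ τ : ℍ, J (upperGL n 0 1 (by exact_mod_cast hn) one_pos • (γ • τ)) =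
        J (ofComplex (((A : ℂ) * τ + B) / D)) := by
  obtain ⟨γ₂, A, B, D, hA, hD, hAD, hD1, h⟩ := hermite_smul γ n hn
  refine ⟨A, B, D, hA, hD, hAD, hD1, fun τ => ?_⟩
  rw [h τ, hJ, upperGL_smul_eq_ofComplex]

end Fermat.Agent.S24
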