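import Fermat.Agent.S24.Real.Defs
import Fermat.Agent.S24.Real.Hermite

set_option autoImplicit false

/-!
# S24, layer (R), chunk (3), part 2: `J(dτ)` under `SL(2, ℤ)`

* `Jd_smul_eq_hermite`: `Jd d (γ • τ) = jFun ((A τ + B) / D)` with `A D = d`;
* `Jd_mdiff`, `Jd_one`;
* `Jd_smul_of_mem_Gamma0`: `J(dτ)` is `Γ₀(N)`-invariant for `d ∣ N`;
* `Jd_smul_vadd`: `τ ↦ Jd d (γ • τ)` is `N`-periodic for `d ∣ N`.
-/

open UpperHalfPlane ModularForm EisensteinSeries CongruenceSubgroup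
open scoped Manifold MatrixGroups ComplexConjugate

namespace Fermat.Agent.S24

theorem scaleMat_eq_upperGL (n : ℕ) (hn : 0 < n) :
    scaleMat n = upperGL n 0 1 (by exact_mod_cast hn) one_pos := by
  unfold scaleMat upperGL
  rw [dif_neg hn.ne']
  ext i j
  fin_cases i <;> fin_cases j <;> simp

theorem scaleMat_det_pos (n : ℕ) : 0 < (scaleMat n).det.val := by
  rcases Nat.eq_zero_or_pos n with h | h
  · subst h
    simp [scaleMat]
  · rw [scaleMat_eq_upperGL n h]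
    exact upperGL_det_pos _ _ _ _ _

theorem coe_scaleMat_smul (n : ℕ) (hn : 0 < n) (τ : ℍ) :
    ((scaleMat n • τ : ℍ) : ℂ) = (n : ℂ) * τ := by
  rw [scaleMat_eq_upperGL n hn, coe_upperGL_smul]
  simp

/-- `J(d γτ) = J((Aτ + B)/D)` with `A D = d`, `A, D > 0`, and `D = 1` iff `d ∣ γ 1 0`. -/
theorem Jd_smul_eq_hermite (γ : SL(2, ℤ)) (d : ℕ) (hd : 0 < d) :
    ∃ (A B D : ℤ), 0 < A ∧ 0 < D ∧ A * D = d ∧ (D = 1 ↔ (d : ℤ) ∣ γ 1 0) ∧
      ∀ τ : ℍ, Jd d (γ • τ) = jFun (ofComplex (((A : ℂ) * τ + B) / D)) := by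
  obtain ⟨A, B, D, hA, hD, hAD, hD1, h⟩ := hermite_invariant jFun jFun_smul γ d hd
  refine ⟨A, B, D, hA, hD, hAD, hD1, fun τ => ?_⟩
  rw [Jd_apply, scaleMat_eq_upperGL d hd, h τ]

theorem Jd_mdiff (d : ℕ) : MDiff (Jd d) :=
  mdiff_jFun.comp (mdifferentiable_smul (scaleMat_det_pos d))

theorem Jd_zero : Jd 0 = jFun := by
  funext τ
  simp [Jd_apply, scaleMat]

theorem Jd_one : Jd 1 = jFun := by
  funext τ
  rw [Jd_apply]
  congr 1
  apply UpperHalfPlane.ext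
  rw [coe_scaleMat_smul 1 one_pos]
  simp

/-- `J(dτ)` is `Γ₀(N)`-invariant for `d ∣ N`. -/
theorem Jd_smul_of_mem_Gamma0 {N d : ℕ} (hd : d ∣ N) {γ : SL(2, ℤ)} (hγ : γ ∈ Gamma0 N)
    (τ : ℍ) : Jd d (γ • τ) = Jd d τ := by
  rcases Nat.eq_zero_or_pos d with h0 | hpos
  · subst h0
    rw [Jd_zero, jFun_smul]
  -- `d ∣ γ 1 0`
  have hc : (d : ℤ) ∣ γ 1 0 := by
    rw [Gamma0_mem, ZMod.intCast_zmod_eq_zero_iff_dvd] at hγ
    exact dvd_trans (by exact_mod_cast hd) hγ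
  obtain ⟨c', hc'⟩ := hc
  have hdet : γ 0 0 * γ 1 1 - γ 0 1 * γ 1 0 = 1 := by
    have h := γ.det_coe
    rw [Matrix.det_fin_two] at h
    exact h
  have hdet2 : (!![γ 0 0, (d : ℤ) * γ 0 1; c', γ 1 1] : Matrix (Fin 2) (Fin 2) ℤ).det = 1 := by
    rw [Matrix.det_fin_two_of]
    rw [hc'] at hdet
    linear_combination hdet
  let γ' : SL(2, ℤ) := ⟨!![γ 0 0, (d : ℤ) * γ 0 1; c', γ 1 1], hdet2⟩
  have g00 : (γ' 0 0 : ℤ) = γ 0 0 := rfl
  have g01 : (γ' 0 1 : ℤ) = (d : ℤ) * γ 0 1 := rfl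
  have g10 : (γ' 1 0 : ℤ) = c' := rfl
  have g11 : (γ' 1 1 : ℤ) = γ 1 1 := rfl
  have key : scaleMat d • (γ • τ) = γ' • (scaleMat d • τ) := by
    rw [ModularGroup.sl_moeb, ModularGroup.sl_moeb, ← mul_smul, ← mul_smul]
    congr 1
    rw [scaleMat_eq_upperGL d hpos]
    ext i j
    fin_cases i <;> fin_cases j
    · simp [upperGL, Matrix.mul_apply, Fin.sum_univ_two, g00, g01]
      ring
    · simp [upperGL, Matrix.mul_apply, Fin.sum_univ_two, g00, g01]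
    · simp [upperGL, Matrix.mul_apply, Fin.sum_univ_two, g10, g11]
      rw [hc']
      push_cast
      ring
    · simp [upperGL, Matrix.mul_apply, Fin.sum_univ_two, g10, g11]
  rw [Jd_apply, Jd_apply, key, jFun_smul]

/-- `τ ↦ J(d γτ)` is `N`-periodic for `d ∣ N`. -/
theorem Jd_smul_vadd {N d : ℕ} (hd : d ∣ N) (γ : SL(2, ℤ)) (τ : ℍ) :
    Jd d (γ • ((N : ℝ) +ᵥ τ)) = Jd d (γ • τ) := by
  have h1 : ((N : ℝ) +ᵥ τ) = ModularGroup.T ^ (N : ℤ) • τ := by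
    rw [UpperHalfPlane.modular_T_zpow_smul]
    simp
  have hmem : γ * ModularGroup.T ^ (N : ℤ) * γ⁻¹ ∈ Gamma0 N := by
    have hT : ModularGroup.T ^ (N : ℤ) ∈ Gamma N := by
      have := ModularGroup_T_pow_mem_Gamma (N : ℤ) (N : ℤ) dvd_rfl
      simpa using this
    have hG : γ * ModularGroup.T ^ (N : ℤ) * γ⁻¹ ∈ Gamma N :=
      (Gamma_normal N).conj_mem _ hT γ
    rw [Gamma_mem] at hG
    rw [Gamma0_mem]
    exact hG.2.2.1
  have h2 : γ • (ModularGroup.T ^ (N : ℤ) • τ) =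
      (γ * ModularGroup.T ^ (N : ℤ) * γ⁻¹) • (γ • τ) := by
    rw [← mul_smul, ← mul_smul, inv_mul_cancel_right]
  rw [h1, h2, Jd_smul_of_mem_Gamma0 hd hmem]

end Fermat.Agent.S24
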