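import Mathlib
import Fermat.Agent.S24.JDict
import Fermat.Agent.S24.Real.Defs
import Fermat.Agent.S24.Real.JdHermite

set_option autoImplicit false

/-!
# S24, layer (R-c): the `q`-dictionary

A polynomial relation between the formal `j(q^d)` (`d ∣ N`, coefficients in `L`) holds iff it holds
between the analytic functions `τ ↦ j(dτ)` (after embedding `L` into `ℂ`).
-/

namespace Fermat.Agent.S24

open UpperHalfPlane ModularCurve Filter Topology

noncomputable section

local notation "𝕢" => Function.Periodic.qParam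

variable {L : Type} [Field L]

/-- The formal Laurent series `u` (with coefficients in `L`) is the `q`-expansion of the function
`h` on the upper half plane: for some `m`, the function `qᵐ h` extends holomorphically over the unit
disc with Taylor series `qᵐ ι(u)`. -/
def QRep (ι : L →+* ℂ) (u : LaurentSeries L) (h : ℍ → ℂ) : Prop :=
  ∃ (m : ℕ) (g : ℂ → ℂ), DifferentiableOn ℂ g (Metric.ball 0 1) ∧
    (∀ τ : ℍ, g (𝕢 1 τ) = 𝕢 1 τ ^ m * h τ) ∧
    HahnSeries.ofPowerSeries ℤ ℂ (taylor0 g) = HahnSeries.single (m : ℤ) (1 : ℂ) * coeffMap ι u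

theorem qrep_analyticAt {g : ℂ → ℂ} (hg : DifferentiableOn ℂ g (Metric.ball 0 1)) :
    AnalyticAt ℂ g 0 :=
  hg.analyticAt (Metric.ball_mem_nhds 0 one_pos)

theorem taylor0_id_pow (m : ℕ) : taylor0 ((fun q : ℂ => q) ^ m) = PowerSeries.X ^ m := by
  have hid : AnalyticAt ℂ (fun q : ℂ => q) 0 := analyticAt_id
  rw [taylor0_pow hid, taylor0_id]

theorem QRep.const (ι : L →+* ℂ) (c : L) :
    QRep ι (algebraMap L (LaurentSeries L) c) (fun _ => ι c) := by
  refine ⟨0, fun _ => ι c, differentiableOn_const _, fun τ => by simp, ?_⟩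
  rw [taylor0_const, HahnSeries.ofPowerSeries_C, algebraMap_laurentSeries_eq_single, coeffMap_single]
  simp

theorem QRep.add {ι : L →+* ℂ} {u u' : LaurentSeries L} {h h' : ℍ → ℂ} (H : QRep ι u h)
    (H' : QRep ι u' h') : QRep ι (u + u') (h + h') := by
  obtain ⟨m, g, hg, hgh, hgt⟩ := H
  obtain ⟨m', g', hg', hgh', hgt'⟩ := H'
  have hid : AnalyticAt ℂ (fun q : ℂ => q) 0 := analyticAt_id
  refine ⟨m + m', (fun q : ℂ => q) ^ m' * g + (fun q : ℂ => q) ^ m * g', ?_, ?_, ?_⟩
  · exact ((differentiableOn_id.pow m').mul hg).add ((differentiableOn_id.pow m).mul hg')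
  · intro τ
    simp only [Pi.add_apply, Pi.mul_apply, Pi.pow_apply, hgh, hgh']
    ring
  · rw [taylor0_add ((hid.pow m').mul (qrep_analyticAt hg)) ((hid.pow m).mul (qrep_analyticAt hg')),
      taylor0_mul (hid.pow m') (qrep_analyticAt hg), taylor0_mul (hid.pow m) (qrep_analyticAt hg'),
      taylor0_id_pow, taylor0_id_pow, map_add, map_mul, map_mul, hgt, hgt',
      HahnSeries.ofPowerSeries_X_pow, HahnSeries.ofPowerSeries_X_pow, map_add]
    have hs : HahnSeries.single ((m + m' : ℕ) : ℤ) (1 : ℂ) =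
        HahnSeries.single (m' : ℤ) (1 : ℂ) * HahnSeries.single (m : ℤ) (1 : ℂ) := by
      rw [HahnSeries.single_mul_single]; simp [add_comm]
    rw [hs]
    ring

theorem QRep.mul {ι : L →+* ℂ} {u u' : LaurentSeries L} {h h' : ℍ → ℂ} (H : QRep ι u h)
    (H' : QRep ι u' h') : QRep ι (u * u') (h * h') := by
  obtain ⟨m, g, hg, hgh, hgt⟩ := H
  obtain ⟨m', g', hg', hgh', hgt'⟩ := H'
  refine ⟨m + m', g * g', hg.mul hg', ?_, ?_⟩
  · intro τ
    simp only [Pi.mul_apply, hgh, hgh']
    ring
  · rw [taylor0_mul (qrep_analyticAt hg) (qrep_analyticAt hg'), map_mul, hgt, hgt', map_mul]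
    have hs : HahnSeries.single ((m + m' : ℕ) : ℤ) (1 : ℂ) =
        HahnSeries.single (m : ℤ) (1 : ℂ) * HahnSeries.single (m' : ℤ) (1 : ℂ) := by
      rw [HahnSeries.single_mul_single]; simp
    rw [hs]
    ring

/-! ### The generators -/

theorem qParam_scaleMat_smul (d : ℕ) (hd : 0 < d) (τ : ℍ) :
    𝕢 1 ((scaleMat d • τ : ℍ) : ℂ) = 𝕢 1 (τ : ℂ) ^ d := by
  rw [coe_scaleMat_smul d hd, Function.Periodic.qParam, Function.Periodic.qParam, ← Complex.exp_nat_mul]
  congr 1
  simp only [Complex.ofReal_one, div_one]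
  ring

/-- The Taylor coefficients of `q ↦ qjFun (q ^ d)`. -/
theorem taylor0_qjFun_comp_pow (d : ℕ) (hd : 0 < d) :
    taylor0 (fun q : ℂ => qjFun (q ^ d)) =
      PowerSeries.mk fun n => if d ∣ n then ((PowerSeries.coeff (n / d) jNum : ℤ) : ℂ) else 0 := by
  refine taylor0_eq_of_hasSum one_pos fun q hq => ?_
  have hqd : q ^ d ∈ Metric.ball (0 : ℂ) 1 := by
    rw [mem_ball_zero_iff, norm_pow]
    exact pow_lt_one₀ (norm_nonneg q) hq hd.ne'
  have h1 := hasSum_taylor0 differentiableOn_qjFun hqd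
  rw [taylor0_qjFun] at h1
  have hinj : Function.Injective fun k : ℕ => d * k := fun a b hab =>
    Nat.eq_of_mul_eq_mul_left hd hab
  refine (Function.Injective.hasSum_iff hinj ?_).mp ?_
  · intro n hn
    have hnd : ¬ d ∣ n := fun ⟨k, hk⟩ => hn ⟨k, hk.symm⟩
    simp [hnd]
  · refine h1.congr_fun fun k => ?_
    simp only [Function.comp_apply, dvd_mul_right, if_true, Nat.mul_div_cancel_left k hd,
      PowerSeries.coeff_map, eq_intCast, pow_mul]

theorem coeff_jq_eq (i : ℤ) :
    jq.coeff i = (HahnSeries.ofPowerSeries ℤ ℚ jNumQ).coeff (i + 1) := by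
  rw [jq, HahnSeries.coeff_single_mul, one_mul, sub_neg_eq_add]

theorem QRep.gen (ι : L →+* ℂ) [Algebra ℚ L] (d : ℕ) (hd : 0 < d) : QRep ι (jqBar L d) (Jd d) := by
  have : NeZero d := ⟨hd.ne'⟩
  refine ⟨d, fun q => qjFun (q ^ d), ?_, ?_, ?_⟩
  · refine differentiableOn_qjFun.comp (differentiable_pow d).differentiableOn fun q hq => ?_
    rw [mem_ball_zero_iff, norm_pow]
    exact pow_lt_one₀ (norm_nonneg q) (by simpa using hq) hd.ne'
  · intro τ
    show qjFun (𝕢 1 (τ : ℂ) ^ d) = _
    rw [← qParam_scaleMat_smul d hd, qjFun_qParam, Jd_apply]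
  · rw [taylor0_qjFun_comp_pow d hd, jqBar_of_ne_zero]
    ext k
    rw [HahnSeries.coeff_single_mul, one_mul, coeffMap_coeff, coeffEmb_coeff]
    by_cases hk : (d : ℤ) ∣ k
    · obtain ⟨i, rfl⟩ := hk
      rw [show (d : ℤ) * i - d = (d : ℤ) * (i - 1) by ring, qExpand_coeff_mul, coeff_jq_eq,
        sub_add_cancel]
      rcases lt_or_ge i 0 with hi | hi
      · rw [ofPowerSeries_coeff_of_neg _ hi, map_zero, map_zero]
        refine ofPowerSeries_coeff_of_neg _ ?_
        exact mul_neg_of_pos_of_neg (by exact_mod_cast hd) hi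
      · lift i to ℕ using hi
        rw [HahnSeries.ofPowerSeries_apply_coeff, show (d : ℤ) * (i : ℤ) = ((d * i : ℕ) : ℤ) by
          push_cast; ring, HahnSeries.ofPowerSeries_apply_coeff, PowerSeries.coeff_mk,
          if_pos (dvd_mul_right d i), Nat.mul_div_cancel_left i hd, jNumQ, PowerSeries.coeff_map]
        simp
    · rw [qExpand_coeff_of_not_dvd d jq (k := k - d) (fun h => hk (by
        have := dvd_add h (dvd_refl (d : ℤ)); simpa using this)), map_zero, map_zero]
      rcases lt_or_ge k 0 with hk0 | hk0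
      · exact ofPowerSeries_coeff_of_neg _ hk0
      · lift k to ℕ using hk0
        rw [HahnSeries.ofPowerSeries_apply_coeff, PowerSeries.coeff_mk, if_neg]
        intro h
        exact hk (by exact_mod_cast h)

/-! ### The dictionary -/

/-- Every polynomial expression in the generators is represented. -/
theorem QRep.aeval (ι : L →+* ℂ) [Algebra ℚ L] (N : ℕ) [NeZero N] (P : MvPolynomial (Gen N) L) :
    QRep ι (MvPolynomial.aeval (fun d : Gen N => jqBar L d.1) P)
      (fun τ => MvPolynomial.eval₂ ι (fun d : Gen N => Jd d.1 τ) P) := by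
  induction P using MvPolynomial.induction_on with
  | C c =>
    have h1 : (fun τ : ℍ => MvPolynomial.eval₂ ι (fun d : Gen N => Jd d.1 τ) (MvPolynomial.C c)) =
        fun _ => ι c := by funext τ; simp
    rw [h1, MvPolynomial.aeval_C]
    exact QRep.const ι c
  | add p p' hp hp' =>
    have h1 : (fun τ : ℍ => MvPolynomial.eval₂ ι (fun d : Gen N => Jd d.1 τ) (p + p')) =
        (fun τ => MvPolynomial.eval₂ ι (fun d : Gen N => Jd d.1 τ) p) +
        (fun τ => MvPolynomial.eval₂ ι (fun d : Gen N => Jd d.1 τ) p') := by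
      funext τ; simp [MvPolynomial.eval₂_add]
    rw [h1, map_add]
    exact hp.add hp'
  | mul_X p d hp =>
    have h1 : (fun τ : ℍ => MvPolynomial.eval₂ ι (fun d : Gen N => Jd d.1 τ)
        (p * MvPolynomial.X d)) =
        (fun τ => MvPolynomial.eval₂ ι (fun d : Gen N => Jd d.1 τ) p) * Jd d.1 := by
      funext τ; simp [MvPolynomial.eval₂_mul]
    rw [h1, map_mul, MvPolynomial.aeval_X]
    exact hp.mul (QRep.gen ι d.1 (Nat.pos_of_mem_divisors d.2))

theorem coeffMap_injective (ι : L →+* ℂ) : Function.Injective (coeffMap ι) := by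
  intro u v huv
  ext k
  have := congrArg (fun w : LaurentSeries ℂ => w.coeff k) huv
  simp only [coeffMap_coeff] at this
  exact ι.injective this

/-- A represented pair: the formal series vanishes iff the function does. -/
theorem QRep.eq_zero_iff {ι : L →+* ℂ} {u : LaurentSeries L} {h : ℍ → ℂ} (H : QRep ι u h) :
    u = 0 ↔ ∀ τ, h τ = 0 := by
  obtain ⟨m, g, hg, hgh, hgt⟩ := H
  have hsingle : HahnSeries.single (m : ℤ) (1 : ℂ) ≠ 0 := by
    simp
  constructor
  · intro hu τ
    rw [hu, map_zero, mul_zero] at hgt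
    have ht0 : taylor0 g = 0 := by
      have := (HahnSeries.ofPowerSeries_injective (Γ := ℤ) (R := ℂ))
      exact this (by rw [hgt, map_zero])
    have hq : (𝕢 1 (τ : ℂ)) ∈ Metric.ball (0 : ℂ) 1 := by
      simpa using (show ‖𝕢 1 (τ : ℂ)‖ < 1 by exact_mod_cast norm_qParam_lt_one 1 τ)
    have hsum := hasSum_taylor0 hg hq
    rw [ht0] at hsum
    simp only [map_zero, zero_mul] at hsum
    have hg0 : g (𝕢 1 (τ : ℂ)) = 0 := hsum.unique hasSum_zero
    rw [hgh τ] at hg0
    rcases mul_eq_zero.mp hg0 with h0 | h0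
    · exact absurd (pow_eq_zero_iff (by
        rintro rfl
        simp at h0) |>.mp h0) (Function.Periodic.qParam_ne_zero _)
    · exact h0
  · intro hh
    have hg0 : ∀ q : ℂ, q ∈ Metric.ball (0 : ℂ) 1 → q ≠ 0 → g q = 0 := by
      intro q hq hq0
      have hq1 : ‖q‖ < 1 := by simpa using hq
      have him := Function.Periodic.im_invQParam_pos_of_norm_lt_one one_pos hq1 hq0
      have := hgh ⟨Function.Periodic.invQParam 1 q, him⟩
      rw [hh, mul_zero] at this
      rwa [show (((⟨Function.Periodic.invQParam 1 q, him⟩ : ℍ) : ℂ)) =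
        Function.Periodic.invQParam 1 q from rfl,
        Function.Periodic.qParam_right_inv one_ne_zero hq0] at this
    have hev : g =ᶠ[𝓝 0] fun _ => (0 : ℂ) := by
      have hcont : ContinuousAt g 0 := (qrep_analyticAt hg).continuousAt
      have h1 : g =ᶠ[𝓝[≠] 0] fun _ => (0 : ℂ) := by
        filter_upwards [nhdsWithin_le_nhds (Metric.ball_mem_nhds (0 : ℂ) one_pos),
          self_mem_nhdsWithin] with q hq hq0 using hg0 q hq hq0
      have h2 : g 0 = 0 := by
        have := hcont.tendsto.mono_left (nhdsWithin_le_nhds (s := {0}ᶜ))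
        exact tendsto_nhds_unique (this.congr' h1) tendsto_const_nhds
      filter_upwards [Metric.ball_mem_nhds (0 : ℂ) one_pos] with q hq
      rcases eq_or_ne q 0 with rfl | hq0
      · exact h2
      · exact hg0 q hq hq0
    have ht0 : taylor0 g = 0 := by
      rw [taylor0_congr hev, taylor0_const, map_zero]
    rw [ht0, map_zero] at hgt
    have hcm : coeffMap ι u = 0 := (mul_eq_zero.mp hgt.symm).resolve_left hsingle
    exact coeffMap_injective ι (by rw [hcm, map_zero])

/-- **The `q`-dictionary.** -/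
theorem qDictionary (L : Type) [Field L] [Algebra ℚ L] (ι : L →+* ℂ) (N : ℕ) [NeZero N]
    (P : MvPolynomial (Gen N) L) :
    MvPolynomial.aeval (fun d : Gen N => jqBar L d.1) P = 0 ↔
      ∀ τ : ℍ, MvPolynomial.eval₂ ι (fun d : Gen N => Jd d.1 τ) P = 0 :=
  (QRep.aeval ι N P).eq_zero_iff

end

end Fermat.Agent.S24
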