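import Mathlib
import Fermat.Agent.S24.JDict
import Fermat.Agent.S24.Real.Defs
import Fermat.Agent.S24.Real.Hermite
import Fermat.Agent.S24.Real.JdHermite

set_option autoImplicit false

/-!
# S24, layer (R), chunk (C'): level structure — invariance and stabiliser of `J(Nτ)`

* `tendsto_qParam_mul_jFun` : `q · j(τ) → 1` as `Im τ → ∞`;
* `mem_Gamma0_of_Jd_smul` : the stabiliser of `τ ↦ J(Nτ)` in `SL(2,ℤ)` is `Γ₀(N)`.
-/

open UpperHalfPlane ModularForm ModularFormClass EisensteinSeries CongruenceSubgroup Filter Topology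
open scoped Manifold MatrixGroups ComplexConjugate

noncomputable section

namespace Fermat.Agent.S24

local notation "𝕢" => Function.Periodic.qParam

/-! ### growth of `j` at `i∞` -/

theorem qjFun_zero : qjFun 0 = 1 := by
  have h1 : cuspFunction 1 E₄ 0 = 1 := by
    have h := E_qExpansion_coeff_zero (by norm_num : 3 ≤ 4) (by decide : Even 4)
    rw [qExpansion_coeff] at h
    simpa using h
  have h2 : eulerProd 0 = 1 := by
    simp [eulerProd]
  rw [qjFun, h1, h2]
  simp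

/-- `q · j(τ) → 1` as `Im τ → ∞`. -/
theorem tendsto_qParam_mul_jFun :
    Tendsto (fun τ : ℍ => 𝕢 1 τ * jFun τ) atImInfty (𝓝 1) := by
  have hcont : ContinuousAt qjFun 0 :=
    (differentiableOn_qjFun.differentiableAt
      (Metric.ball_mem_nhds 0 one_pos)).continuousAt
  have h1 : Tendsto (fun τ : ℍ => qjFun (𝕢 1 τ)) atImInfty (𝓝 (qjFun 0)) :=
    hcont.tendsto.comp (qParam_tendsto_atImInfty one_pos)
  rw [qjFun_zero] at h1
  refine h1.congr fun τ => ?_
  exact qjFun_qParam τ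

/-- `‖q · j(τ)‖ = e^{-2π Im τ} ‖j(τ)‖`. -/
theorem norm_qParam_mul_jFun (τ : ℍ) :
    ‖𝕢 1 τ * jFun τ‖ = Real.exp (-2 * Real.pi * τ.im) * ‖jFun τ‖ := by
  rw [norm_mul, Function.Periodic.norm_qParam]
  simp

/-! ### imaginary parts -/

theorem im_scaleMat_smul {d : ℕ} (hd : 0 < d) (τ : ℍ) : (scaleMat d • τ).im = d * τ.im := by
  have h := congrArg Complex.im (coe_scaleMat_smul d hd τ)
  simpa using h

theorem im_upperGL_smul (A B D : ℤ) (hA : 0 < A) (hD : 0 < D) (τ : ℍ) :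
    (upperGL A B D hA hD • τ).im = (A : ℝ) / D * τ.im := by
  have h := congrArg Complex.im (coe_upperGL_smul A B D hA hD τ)
  have hD' : (D : ℝ) ≠ 0 := by exact_mod_cast hD.ne'
  rw [UpperHalfPlane.coe_im] at h
  rw [h]
  have : (((A : ℂ) * τ + B) / D) = (((A : ℝ) / D * τ.re + (B : ℝ) / D : ℝ) : ℂ) +
      ((A : ℝ) / D * τ.im : ℝ) * Complex.I := by
    apply Complex.ext <;> simp <;> field_simp
  rw [this]
  simp

/-! ### the stabiliser of `J(Nτ)` -/

theorem map_im_atImInfty : Filter.map UpperHalfPlane.im atImInfty = atTop := by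
  unfold atImInfty
  apply Filter.map_comap_of_mem
  refine Filter.mem_of_superset (Ioi_mem_atTop 0) ?_
  intro y hy
  exact ⟨⟨⟨0, y⟩, hy⟩, rfl⟩

/-- If `e^{2π c y} → 1` as `y → ∞` then `c = 0`. -/
theorem eq_zero_of_tendsto_exp_mul {c : ℝ}
    (h : Tendsto (fun y : ℝ => Real.exp (2 * Real.pi * c * y)) atTop (𝓝 1)) : c = 0 := by
  rcases lt_trichotomy c 0 with hneg | h0 | hpos
  · exfalso
    have hlt : 2 * Real.pi * c < 0 := by nlinarith [Real.pi_pos]
    have : Tendsto (fun y : ℝ => Real.exp (2 * Real.pi * c * y)) atTop (𝓝 0) :=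
      Real.tendsto_exp_atBot.comp (tendsto_id.const_mul_atTop_of_neg hlt)
    exact zero_ne_one (tendsto_nhds_unique this h)
  · exact h0
  · exfalso
    have hgt : 0 < 2 * Real.pi * c := by positivity
    have : Tendsto (fun y : ℝ => Real.exp (2 * Real.pi * c * y)) atTop atTop :=
      Real.tendsto_exp_atTop.comp (tendsto_id.const_mul_atTop hgt)
    exact not_tendsto_nhds_of_tendsto_atTop this 1 h

/-- the stabiliser of `J(Nτ)` in `SL(2,ℤ)` is exactly `Γ₀(N)`. -/
theorem mem_Gamma0_of_Jd_smul {N : ℕ} [NeZero N] {γ : SL(2, ℤ)}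
    (h : ∀ τ : ℍ, Jd N (γ • τ) = Jd N τ) : γ ∈ Gamma0 N := by
  have hN : 0 < N := Nat.pos_of_ne_zero (NeZero.ne N)
  obtain ⟨A, B, D, hA, hD, hAD, hD1, hJ⟩ := hermite_invariant jFun jFun_smul γ N hN
  have key : ∀ τ : ℍ, jFun (upperGL A B D hA hD • τ) = jFun (scaleMat N • τ) := by
    intro τ
    rw [upperGL_smul_eq_ofComplex, ← hJ τ, ← scaleMat_eq_upperGL N hN]
    exact h τ
  suffices hD' : D = 1 by
    rw [Gamma0_mem]
    exact (ZMod.intCast_zmod_eq_zero_iff_dvd _ _).mpr (hD1.mp hD')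
  have hf1 : Tendsto (fun τ : ℍ => ‖𝕢 1 ↑(upperGL A B D hA hD • τ) *
      jFun (upperGL A B D hA hD • τ)‖) atImInfty (𝓝 1) := by
    have h1 := (tendsto_qParam_mul_jFun.comp
      (tendsto_smul_atImInfty (g := upperGL A B D hA hD) (by simp [upperGL]))).norm
    rw [norm_one] at h1
    exact h1
  have hf2 : Tendsto (fun τ : ℍ => ‖𝕢 1 ↑(scaleMat N • τ) * jFun (scaleMat N • τ)‖)
      atImInfty (𝓝 1) := by
    have h1 := (tendsto_qParam_mul_jFun.comp
      (tendsto_smul_atImInfty (g := scaleMat N) (by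
        rw [scaleMat_eq_upperGL N hN]; simp [upperGL]))).norm
    rw [norm_one] at h1
    exact h1
  set c : ℝ := (N : ℝ) - A / D with hc
  have hid : ∀ τ : ℍ, ‖𝕢 1 ↑(upperGL A B D hA hD • τ) * jFun (upperGL A B D hA hD • τ)‖ =
      ‖𝕢 1 ↑(scaleMat N • τ) * jFun (scaleMat N • τ)‖ *
        Real.exp (2 * Real.pi * c * τ.im) := by
    intro τ
    rw [norm_qParam_mul_jFun, norm_qParam_mul_jFun, key τ, im_upperGL_smul,
      im_scaleMat_smul hN]
    have hexp : Real.exp (-2 * Real.pi * ((A : ℝ) / D * τ.im)) =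
        Real.exp (-2 * Real.pi * ((N : ℝ) * τ.im)) * Real.exp (2 * Real.pi * c * τ.im) := by
      rw [← Real.exp_add]
      congr 1
      rw [hc]
      ring
    rw [hexp]
    ring
  have hexp : Tendsto (fun τ : ℍ => Real.exp (2 * Real.pi * c * τ.im)) atImInfty (𝓝 1) := by
    have hdiv := hf1.div hf2 one_ne_zero
    rw [div_one] at hdiv
    refine hdiv.congr' ?_
    have hev : ∀ᶠ τ : ℍ in atImInfty,
        ‖𝕢 1 ((scaleMat N • τ : ℍ) : ℂ) * jFun (scaleMat N • τ)‖ ≠ 0 :=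
      hf2.eventually_ne one_ne_zero
    filter_upwards [hev] with τ hτ
    simp only [Pi.div_apply]
    rw [hid τ, mul_div_cancel_left₀ _ hτ]
  have hexp' : Tendsto (fun y : ℝ => Real.exp (2 * Real.pi * c * y)) atTop (𝓝 1) := by
    rw [← map_im_atImInfty]
    exact tendsto_map'_iff.mpr hexp
  have hc0 : c = 0 := eq_zero_of_tendsto_exp_mul hexp'
  -- arithmetic
  have hDR : (0 : ℝ) < D := by exact_mod_cast hD
  have h1 : (N : ℝ) * D = A := by
    rw [hc, sub_eq_zero] at hc0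
    rw [hc0]
    field_simp
  have h2 : (N : ℤ) * D = A := by exact_mod_cast h1
  have h3 : (N : ℤ) * (D * D) = N * 1 := by
    rw [mul_one, ← mul_assoc, h2, hAD]
  have hNZ : (N : ℤ) ≠ 0 := by exact_mod_cast hN.ne'
  have h4 : D * D = 1 := mul_left_cancel₀ hNZ h3
  nlinarith

end Fermat.Agent.S24
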