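/-
S24 layer (C''): the degree bound `[F_L : L(j)] ≤ [SL(2,ℤ) : Γ₀(N)]`.
-/
import Fermat.Agent.S24.NormPoly
import Fermat.Agent.S24.Descent
import Fermat.Agent.S24.DegreeAlg
import Fermat.Agent.S24.Real.QDict
import Fermat.Agent.S24.Real.Stabiliser
import Fermat.Agent.S24.Real.JdGrowth
import Fermat.Agent.S24.CombTransfer

set_option autoImplicit false

namespace Fermat.Agent.S24

open UpperHalfPlane ModularForm MatrixGroups Filter EisensteinSeries CongruenceSubgroup ModularCurve
  Asymptotics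
open scoped Manifold Topology Real

local notation "Δ" => ModularForm.discriminant
local notation "𝕢" => Function.Periodic.qParam

/-! ### The algebra of modular functions of level `Γ₀(N)` with polar growth at all cusps -/

/-- Holomorphic `Γ₀(N)`-invariant functions all of whose `SL(2,ℤ)`-translates have at most polar
growth at `i∞`. -/
def modFunSubalgebra (N : ℕ) : Subalgebra ℂ (ℍ → ℂ) where
  carrier := {f | MDiff f ∧ (∀ γ ∈ Gamma0 N, ∀ τ, f (γ • τ) = f τ) ∧
    ∀ g : SL(2, ℤ), PolarAtInfty (fun τ => f (g • τ))}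
  mul_mem' := by
    rintro f f' ⟨h1, h2, h3⟩ ⟨h1', h2', h3'⟩
    refine ⟨h1.mul h1', fun γ hγ τ => ?_, fun g => (h3 g).mul (h3' g)⟩
    simp only [Pi.mul_apply]
    rw [h2 γ hγ, h2' γ hγ]
  add_mem' := by
    rintro f f' ⟨h1, h2, h3⟩ ⟨h1', h2', h3'⟩
    refine ⟨h1.add h1', fun γ hγ τ => ?_, fun g => (h3 g).add (h3' g)⟩
    simp only [Pi.add_apply]
    rw [h2 γ hγ, h2' γ hγ]
  algebraMap_mem' := fun c => ⟨mdifferentiable_const, fun _ _ _ => rfl, fun _ => PolarAtInfty.const c⟩

theorem Jd_mem_modFunSubalgebra (N : ℕ) (d : Gen N) : Jd d.1 ∈ modFunSubalgebra N :=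
  ⟨Jd_mdiff d.1, fun _ hγ τ => Jd_smul_of_mem_Gamma0 (Nat.dvd_of_mem_divisors d.2) hγ τ,
    fun g => polarAtInfty_Jd_smul d.1 (Nat.pos_of_mem_divisors d.2) g⟩

theorem aeval_Jd_mem (N : ℕ) (P : MvPolynomial (Gen N) ℂ) :
    MvPolynomial.aeval (fun d : Gen N => Jd d.1) P ∈ modFunSubalgebra N := by
  have h1 : MvPolynomial.aeval (fun d : Gen N => Jd d.1) P ∈
      (MvPolynomial.aeval (R := ℂ) (fun d : Gen N => Jd d.1)).range := ⟨P, rfl⟩
  rw [← Algebra.adjoin_range_eq_range_aeval] at h1
  refine Algebra.adjoin_le ?_ h1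
  rintro _ ⟨d, rfl⟩
  exact Jd_mem_modFunSubalgebra N d

theorem aeval_Jd_apply (N : ℕ) (P : MvPolynomial (Gen N) ℂ) (τ : ℍ) :
    MvPolynomial.aeval (fun d : Gen N => Jd d.1) P τ =
      MvPolynomial.aeval (fun d : Gen N => Jd d.1 τ) P := by
  have := MvPolynomial.comp_aeval_apply (R := ℂ) (fun d : Gen N => Jd d.1)
    (Pi.evalAlgHom ℂ (fun _ : ℍ => ℂ) τ) P
  simpa using this


/-! ### Bivariate evaluation and algebra homomorphisms -/

section AevalAeval

open Polynomial
open scoped Polynomial.Bivariate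

variable {K A B : Type*} [CommRing K] [CommRing A] [CommRing B] [Algebra K A] [Algebra K B]

theorem algHom_aevalAeval (φ : A →ₐ[K] B) (x y : A) (R : K[X][Y]) :
    φ (aevalAeval x y R) = aevalAeval (φ x) (φ y) R := by
  induction R using Polynomial.induction_on' with
  | add p q hp hq => rw [map_add, map_add, map_add, hp, hq]
  | monomial n a =>
    rw [← C_mul_X_pow_eq_monomial, map_mul, map_pow, aevalAeval_C, aevalAeval_Y, map_mul, map_pow,
      map_mul, map_pow, aevalAeval_C, aevalAeval_Y, aeval_algHom_apply]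

theorem aevalAeval_self_eq (a b : K) (R : K[X][Y]) :
    aevalAeval a b R = (R.map (evalRingHom a)).eval b := by
  induction R using Polynomial.induction_on' with
  | add p q hp hq => rw [map_add, Polynomial.map_add, eval_add, hp, hq]
  | monomial n c =>
    rw [← C_mul_X_pow_eq_monomial, map_mul, map_pow, aevalAeval_C, aevalAeval_Y, Polynomial.map_mul,
      Polynomial.map_pow, map_C, map_X, eval_mul, eval_pow, eval_C, eval_X, coe_evalRingHom,
      coe_aeval_eq_eval]

end AevalAeval

/-! ### The relation over `ℂ` -/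

open Polynomial in
open scoped Polynomial.Bivariate in
/-- Every polynomial expression in the `j(q^d)` (`d ∣ N`) with complex coefficients is a root of a
monic polynomial of degree `[SL(2,ℤ) : Γ₀(N)]` over `ℂ[j]`, formally in `ℂ((q))`. -/
theorem exists_relation_complex (N : ℕ) [NeZero N] (P : MvPolynomial (Gen N) ℂ) :
    ∃ R : ℂ[X][Y], R.Monic ∧ R.natDegree = Nat.card (SL(2, ℤ) ⧸ Gamma0 N) ∧
      aevalAeval (jqBar ℂ 1) (MvPolynomial.aeval (fun d : Gen N => jqBar ℂ d.1) P) R = 0 := by
  have : Fintype (SL(2, ℤ) ⧸ Gamma0 N) := Fintype.ofFinite _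
  obtain ⟨hhol, hinv, hpolar⟩ := aeval_Jd_mem N P
  obtain ⟨R, hmonic, hdeg, hroot⟩ := exists_monic_poly_J (H := Gamma0 N) hhol hinv hpolar
  refine ⟨R, hmonic, by rw [hdeg, Nat.card_eq_fintype_card], ?_⟩
  set one : Gen N := ⟨1, Nat.one_mem_divisors.mpr (NeZero.ne N)⟩ with hone
  set Q : MvPolynomial (Gen N) ℂ := aevalAeval (MvPolynomial.X one) P R with hQ
  have key : ∀ τ : ℍ, MvPolynomial.eval₂ (RingHom.id ℂ) (fun d : Gen N => Jd d.1 τ) Q = 0 := by
    intro τ
    have h1 : MvPolynomial.eval₂ (RingHom.id ℂ) (fun d : Gen N => Jd d.1 τ) Q =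
        MvPolynomial.aeval (fun d : Gen N => Jd d.1 τ) Q := by
      rw [MvPolynomial.aeval_def]
      rfl
    rw [h1, hQ, algHom_aevalAeval, MvPolynomial.aeval_X, aevalAeval_self_eq, ← aeval_Jd_apply]
    have h2 : Jd one.1 τ = E₄ τ ^ 3 / Δ τ := by
      rw [hone]
      change Jd 1 τ = _
      rw [Jd_one]
      rfl
    rw [h2]
    exact hroot τ
  have h3 := (qDictionary ℂ (RingHom.id ℂ) N Q).mpr key
  rw [hQ, algHom_aevalAeval, MvPolynomial.aeval_X] at h3
  exact h3


/-! ### Descent to a subfield `L` of `ℂ` -/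

section DescentL

variable (L : Type) [Field L] [Algebra ℚ L] (ι : L →+* ℂ)

theorem coeffMap_jqBar (d : ℕ) : coeffMap ι (jqBar L d) = jqBar ℂ d := by
  unfold jqBar
  split_ifs with h
  · simp
  · rw [coeffEmb, coeffEmb, coeffMap_coeffMap]
    exact coeffMap_congr (Subsingleton.elim _ _) _

omit [Algebra ℚ L] in
theorem coeffMap_comp_algebraMap :
    (coeffMap ι).comp (algebraMap L (LaurentSeries L)) =
      (algebraMap ℂ (LaurentSeries ℂ)).comp ι := by
  ext c : 1
  simp only [RingHom.comp_apply]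
  rw [algebraMap_laurentSeries_eq_single, algebraMap_laurentSeries_eq_single, coeffMap_single]

theorem coeffMap_aeval_jqBar (N : ℕ) (P : MvPolynomial (Gen N) L) :
    coeffMap ι (MvPolynomial.aeval (fun d : Gen N => jqBar L d.1) P) =
      MvPolynomial.aeval (fun d : Gen N => jqBar ℂ d.1) (MvPolynomial.map ι P) := by
  rw [MvPolynomial.aeval_def, MvPolynomial.aeval_def, MvPolynomial.eval₂_map,
    MvPolynomial.eval₂_comp_left, coeffMap_comp_algebraMap]
  congr 1
  funext d
  exact coeffMap_jqBar L ι d.1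

include ι in
open Polynomial in
open scoped Polynomial.Bivariate in
/-- Every polynomial expression in the `j(q^d)` (`d ∣ N`) with coefficients in `L` satisfies a
nonzero relation of `Y`-degree `≤ [SL(2,ℤ) : Γ₀(N)]` over `L[j]`. -/
theorem exists_relation (N : ℕ) [NeZero N] (P : MvPolynomial (Gen N) L) :
    ∃ R : L[X][Y], R ≠ 0 ∧ R.natDegree ≤ Nat.card (SL(2, ℤ) ⧸ Gamma0 N) ∧
      aevalAeval (jqBar L 1) (MvPolynomial.aeval (fun d : Gen N => jqBar L d.1) P) R = 0 := by
  obtain ⟨Rc, hmonic, hdeg, hroot⟩ := exists_relation_complex N (MvPolynomial.map ι P)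
  refine exists_poly_descent ι _ _ _ Rc hmonic.ne_zero hdeg.le ?_
  rw [coeffMap_jqBar, coeffMap_aeval_jqBar]
  exact hroot

end DescentL


/-! ### Transcendence of `j` and the degree bound -/

section Final

open IntermediateField

theorem adjoin_range_subtype_eq_top {K M : Type*} [Field K] [Field M] [Algebra K M] {σ : Type*}
    (g : σ → M) (F : IntermediateField K M) (hF : F = adjoin K (Set.range g))
    (hg : ∀ i, g i ∈ F) :
    adjoin K (Set.range fun i => (⟨g i, hg i⟩ : F)) = ⊤ := by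
  subst hF
  have key : ∀ z : M, ∀ hz : z ∈ adjoin K (Set.range g),
      (⟨z, hz⟩ : adjoin K (Set.range g)) ∈
        adjoin K (Set.range fun i => (⟨g i, hg i⟩ : adjoin K (Set.range g))) := by
    intro z hz
    induction hz using IntermediateField.adjoin_induction with
    | mem x hx =>
      obtain ⟨i, rfl⟩ := hx
      exact subset_adjoin K _ ⟨i, rfl⟩
    | algebraMap c => exact IntermediateField.algebraMap_mem _ c
    | add x y hx hy h1 h2 => exact add_mem h1 h2
    | inv x hx h1 => exact inv_mem h1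
    | mul x y hx hy h1 h2 => exact mul_mem h1 h2
  rw [eq_top_iff]
  rintro ⟨z, hz⟩ -
  exact key z hz

variable (L : Type) [Field L] [Algebra ℚ L]

theorem jqBar_one_eq : jqBar L 1 = coeffEmb L jq := by
  rw [jqBar_of_ne_zero, qExpand_one_apply]

theorem coeff_jqBar_one_pow_self (k : ℕ) : (jqBar L 1 ^ k).coeff (-(k : ℤ)) = 1 := by
  rw [jqBar_one_eq, ← map_pow, coeffEmb_coeff, coeff_jq_pow_self, map_one]

theorem coeff_jqBar_one_pow_of_lt {k : ℕ} {m : ℤ} (hm : m < -(k : ℤ)) :
    (jqBar L 1 ^ k).coeff m = 0 := by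
  rw [jqBar_one_eq, ← map_pow, coeffEmb_coeff, coeff_jq_pow_of_lt hm, map_zero]

/-- `j(q)` is transcendental over the constants. -/
theorem jqBar_one_transcendental : Transcendental L (jqBar L 1) := by
  rintro ⟨p, hp0, hp⟩
  have hlead : p.leadingCoeff ≠ 0 := Polynomial.leadingCoeff_ne_zero.mpr hp0
  apply hlead
  have h1 := congrArg (fun v : LaurentSeries L => v.coeff (-(p.natDegree : ℤ))) hp
  simp only [HahnSeries.coeff_zero] at h1
  rw [Polynomial.aeval_eq_sum_range, HahnSeries.coeff_sum] at h1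
  rw [Finset.sum_eq_single p.natDegree] at h1
  · rw [Algebra.smul_def, coeff_algebraMap_mul, coeff_jqBar_one_pow_self, mul_one] at h1
    exact h1
  · intro k hk hkn
    have hlt : k < p.natDegree :=
      lt_of_le_of_ne (Nat.le_of_lt_succ (Finset.mem_range.mp hk)) hkn
    have hm : -(p.natDegree : ℤ) < -(k : ℤ) := by
      have : (k : ℤ) < (p.natDegree : ℤ) := by exact_mod_cast hlt
      linarith
    rw [Algebra.smul_def, coeff_algebraMap_mul, coeff_jqBar_one_pow_of_lt L hm, mul_zero]
  · intro h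
    exact absurd (Finset.mem_range.mpr (Nat.lt_succ_self _)) h

variable (N : ℕ) [NeZero N]

theorem xGen_transcendental : Transcendental L (xGen L N) := by
  intro h
  exact jqBar_one_transcendental L
    ((IntermediateField.isAlgebraic_iff
      (S := laurentBaseChange L (modularFunctionFieldFull N))).mp h)

open Polynomial in
open scoped Polynomial.Bivariate in
/-- **Degree bound**: `F_L` is algebraic and finite over `L(j)`, of degree at most
`[SL(2,ℤ) : Γ₀(N)]`. -/
theorem finrank_le_card_aux (ι : L →+* ℂ) :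
    Algebra.IsAlgebraic L⟮xGen L N⟯ (laurentBaseChange L (modularFunctionFieldFull N)) ∧
    FiniteDimensional L⟮xGen L N⟯ (laurentBaseChange L (modularFunctionFieldFull N)) ∧
    Module.finrank L⟮xGen L N⟯ (laurentBaseChange L (modularFunctionFieldFull N)) ≤
      Nat.card (SL(2, ℤ) ⧸ Gamma0 N) := by
  have : CharZero L := algebraRat.charZero L
  set F := laurentBaseChange L (modularFunctionFieldFull N) with hF
  let s : Gen N → F := fun d => ⟨jqBar L d.1, jqBar_mem L N d⟩
  have hs : adjoin L (Set.range s) = ⊤ :=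
    adjoin_range_subtype_eq_top (fun d : Gen N => jqBar L d.1) F
      (laurentBaseChange_eq_adjoin L N) (jqBar_mem L N)
  set one : Gen N := ⟨1, Nat.one_mem_divisors.mpr (NeZero.ne N)⟩ with hone
  have hxs : xGen L N = s one := rfl
  have hx : xGen L N ∈ Algebra.adjoin L (Set.range s) := by
    rw [hxs]
    exact Algebra.subset_adjoin ⟨one, rfl⟩
  refine finrank_le_of_forall_exists_relation s hs (xGen L N) hx (xGen_transcendental L N) _ ?_
  intro y hy
  rw [Algebra.adjoin_range_eq_range_aeval] at hy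
  obtain ⟨P, rfl⟩ := hy
  change ∃ R : L[X][Y], R ≠ 0 ∧ R.natDegree ≤ Nat.card (SL(2, ℤ) ⧸ Gamma0 N) ∧
    aevalAeval (xGen L N) (MvPolynomial.aeval s P) R = 0
  obtain ⟨R, hR0, hRdeg, hroot⟩ := exists_relation L ι N P
  refine ⟨R, hR0, hRdeg, ?_⟩
  have h1 : F.val (MvPolynomial.aeval s P) =
      MvPolynomial.aeval (fun d : Gen N => jqBar L d.1) P :=
    MvPolynomial.comp_aeval_apply (R := L) s F.val P
  have h2 : F.val (aevalAeval (xGen L N) (MvPolynomial.aeval s P) R) = 0 := by
    rw [algHom_aevalAeval, h1]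
    exact hroot
  exact Subtype.ext h2

theorem isAlgebraic_over_xGen (ι : L →+* ℂ) :
    Algebra.IsAlgebraic L⟮xGen L N⟯ (laurentBaseChange L (modularFunctionFieldFull N)) :=
  (finrank_le_card_aux L N ι).1

theorem finiteDimensional_over_xGen (ι : L →+* ℂ) :
    FiniteDimensional L⟮xGen L N⟯ (laurentBaseChange L (modularFunctionFieldFull N)) :=
  (finrank_le_card_aux L N ι).2.1

/-- `[F_L : L(j)] ≤ [SL(2,ℤ) : Γ₀(N)]`. -/
theorem finrank_le_card (ι : L →+* ℂ) :
    Module.finrank L⟮xGen L N⟯ (laurentBaseChange L (modularFunctionFieldFull N)) ≤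
      Nat.card (SL(2, ℤ) ⧸ Gamma0 N) :=
  (finrank_le_card_aux L N ι).2.2

/-- `[F_L : L(j)] ≤ ψ(N)`. -/
theorem finrank_le_dedekindPsi (ι : L →+* ℂ) :
    Module.finrank L⟮xGen L N⟯ (laurentBaseChange L (modularFunctionFieldFull N)) ≤
      ModularCurve.dedekindPsi N :=
  (finrank_le_card L N ι).trans (card_quotient_gamma0 N).le

end Final

end Fermat.Agent.S24
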