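import Mathlib
import Fermat.Agent.S24.Real.Defs
import Fermat.Agent.S24.Real.JdHermite
import Fermat.Agent.S24.Real.Stabiliser

set_option autoImplicit false

/-!
# S24, layer (R): abstract construction of expansion embeddings

Let `A` be a `ℂ`-subalgebra of the algebra of functions `ℍ → ℂ` and `E : A →ₐ[ℂ] ℂ((t))` an injective
"expansion" map (Taylor expansion at a point of `ℍ`, Laurent expansion at `i∞`, …).  If functions
`g d ∈ A` (`d ∣ N`) satisfy exactly the polynomial relations (over `L`, via `ι : L →+* ℂ`) of the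
formal generators `j(q^d)`, then there is a ring hom `embOf : F_L → ℂ((t))` with `c ↦ ι c`,
`j(q^d) ↦ E (g d)`.  Applied to `g d = J(d · a⁻¹τ)`, `a ∈ SL₂(ℤ)`, this gives the family `embJ a`
which is constant on left cosets of `Γ₀(N)`, separates cosets, and is equivariant for every `σ`
whose action on `A` is intertwined by `E` with a ring endomorphism `R` of `ℂ((t))`.
-/
open UpperHalfPlane ModularCurve
open scoped MatrixGroups

noncomputable section

namespace Fermat.Agent.S24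

section Abstract

variable (L : Type) [Field L] [Algebra ℚ L] (N : ℕ) [NeZero N]

abbrev FL : Type := ↥(laurentBaseChange L (modularFunctionFieldFull N))

def genFL (d : Gen N) : FL L N := ⟨jqBar L d.1, jqBar_mem L N d⟩

theorem coe_genFL (d : Gen N) : ((genFL L N d : FL L N) : LaurentSeries L) = jqBar L d.1 := rfl

theorem xGen_eq_genFL :
    xGen L N = genFL L N ⟨1, Nat.one_mem_divisors.mpr (NeZero.ne N)⟩ := rfl

variable {L N}
variable (ι : L →+* ℂ) (A : Subalgebra ℂ (ℍ → ℂ)) (E : A →ₐ[ℂ] LaurentSeries ℂ)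

def polyFun (g : Gen N → A) : MvPolynomial (Gen N) L →+* A :=
  MvPolynomial.eval₂Hom ((algebraMap ℂ A).comp ι) g


theorem polyFun_apply (ι : L →+* ℂ) (A : Subalgebra ℂ (ℍ → ℂ)) (g : Gen N → A) (P : MvPolynomial (Gen N) L) (τ : ℍ) :
    ((polyFun ι A g P : A) : ℍ → ℂ) τ =
      MvPolynomial.eval₂ ι (fun d : Gen N => ((g d : A) : ℍ → ℂ) τ) P := by
  have h : ((Pi.evalRingHom (fun _ : ℍ => ℂ) τ).comp A.val.toRingHom).comp (polyFun ι A g) =
      MvPolynomial.eval₂Hom ι (fun d : Gen N => ((g d : A) : ℍ → ℂ) τ) := by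
    apply MvPolynomial.ringHom_ext
    · intro c
      simp only [polyFun, RingHom.comp_apply, MvPolynomial.eval₂Hom_C]
      rfl
    · intro d
      simp only [polyFun, RingHom.comp_apply, MvPolynomial.coe_eval₂Hom, MvPolynomial.eval₂_X]
      rfl
  exact congrArg (fun f => f P) h


def polyExp (ι : L →+* ℂ) (A : Subalgebra ℂ (ℍ → ℂ)) (E : A →ₐ[ℂ] LaurentSeries ℂ) (g : Gen N → A) : MvPolynomial (Gen N) L →+* LaurentSeries ℂ :=
  E.toRingHom.comp (polyFun ι A g)

theorem polyExp_apply (ι : L →+* ℂ) (A : Subalgebra ℂ (ℍ → ℂ)) (E : A →ₐ[ℂ] LaurentSeries ℂ) (g : Gen N → A) (P : MvPolynomial (Gen N) L) :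
    polyExp ι A E g P = E (polyFun ι A g P) := rfl

theorem polyExp_C (ι : L →+* ℂ) (A : Subalgebra ℂ (ℍ → ℂ)) (E : A →ₐ[ℂ] LaurentSeries ℂ) (g : Gen N → A) (c : L) :
    polyExp ι A E g (MvPolynomial.C c) = algebraMap ℂ (LaurentSeries ℂ) (ι c) := by
  rw [polyExp_apply, polyFun, MvPolynomial.coe_eval₂Hom, MvPolynomial.eval₂_C, RingHom.comp_apply,
    AlgHom.commutes]

theorem polyExp_X (ι : L →+* ℂ) (A : Subalgebra ℂ (ℍ → ℂ)) (E : A →ₐ[ℂ] LaurentSeries ℂ) (g : Gen N → A) (d : Gen N) :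
    polyExp ι A E g (MvPolynomial.X d) = E (g d) := by
  rw [polyExp_apply, polyFun, MvPolynomial.coe_eval₂Hom, MvPolynomial.eval₂_X]


theorem polyExp_eq_zero_iff {ι : L →+* ℂ} {A : Subalgebra ℂ (ℍ → ℂ)} {E : A →ₐ[ℂ] LaurentSeries ℂ} (hE : Function.Injective E) (g : Gen N → A)
    (P : MvPolynomial (Gen N) L) :
    polyExp ι A E g P = 0 ↔
      ∀ τ : ℍ, MvPolynomial.eval₂ ι (fun d : Gen N => ((g d : A) : ℍ → ℂ) τ) P = 0 := by
  have h1 : polyExp ι A E g P = 0 ↔ polyFun ι A g P = 0 := by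
    rw [polyExp_apply]
    constructor
    · intro h
      apply hE
      rw [map_zero]
      exact h
    · intro h
      rw [h, map_zero]
  rw [h1]
  constructor
  · intro h τ
    rw [← polyFun_apply, h]
    rfl
  · intro h
    apply Subtype.ext
    funext τ
    rw [polyFun_apply, h]
    rfl

/-- the dictionary hypothesis: the `g d` satisfy exactly the relations of the formal `j(q^d)`. -/
def IsDict (ι : L →+* ℂ) (g : Gen N → (ℍ → ℂ)) : Prop :=
  ∀ P : MvPolynomial (Gen N) L,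
    MvPolynomial.aeval (fun d : Gen N => jqBar L d.1) P = 0 ↔
      ∀ τ : ℍ, MvPolynomial.eval₂ ι (fun d : Gen N => g d τ) P = 0


theorem exists_emb {ι : L →+* ℂ} {A : Subalgebra ℂ (ℍ → ℂ)} {E : A →ₐ[ℂ] LaurentSeries ℂ} (hE : Function.Injective E) (g : Gen N → A)
    (hdict : IsDict ι (fun d => ((g d : A) : ℍ → ℂ))) :
    ∃ φ : FL L N →+* LaurentSeries ℂ,
      ∀ (P : MvPolynomial (Gen N) L)
        (h : MvPolynomial.aeval (fun d : Gen N => jqBar L d.1) P ∈
          laurentBaseChange L (modularFunctionFieldFull N)),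
        φ ⟨MvPolynomial.aeval (fun d : Gen N => jqBar L d.1) P, h⟩ = polyExp ι A E g P := by
  obtain ⟨φ, hφ⟩ := exists_ringHom_of_ker (K := L) (E := LaurentSeries L)
    (fun d : Gen N => jqBar L d.1) (polyExp ι A E g)
    (fun P => by rw [polyExp_eq_zero_iff hE, hdict P])
  have hle : laurentBaseChange L (modularFunctionFieldFull N) ≤
      IntermediateField.adjoin L (Set.range fun d : Gen N => jqBar L d.1) :=
    (laurentBaseChange_eq_adjoin L N).le
  refine ⟨φ.comp (IntermediateField.inclusion hle).toRingHom, fun P h => ?_⟩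
  rw [← hφ P (hle h)]
  rfl


/-- the embedding attached to generators `g d ∈ A` satisfying the dictionary. -/
def embOf {ι : L →+* ℂ} {A : Subalgebra ℂ (ℍ → ℂ)} {E : A →ₐ[ℂ] LaurentSeries ℂ}
    (hE : Function.Injective E) (g : Gen N → A)
    (hdict : IsDict ι (fun d => ((g d : A) : ℍ → ℂ))) : FL L N →+* LaurentSeries ℂ :=
  Classical.choose (exists_emb hE g hdict)

theorem embOf_aeval {ι : L →+* ℂ} {A : Subalgebra ℂ (ℍ → ℂ)} {E : A →ₐ[ℂ] LaurentSeries ℂ}
    (hE : Function.Injective E) (g : Gen N → A)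
    (hdict : IsDict ι (fun d => ((g d : A) : ℍ → ℂ))) (P : MvPolynomial (Gen N) L)
    (h : MvPolynomial.aeval (fun d : Gen N => jqBar L d.1) P ∈
      laurentBaseChange L (modularFunctionFieldFull N)) :
    embOf hE g hdict ⟨MvPolynomial.aeval (fun d : Gen N => jqBar L d.1) P, h⟩ =
      polyExp ι A E g P :=
  Classical.choose_spec (exists_emb hE g hdict) P h

theorem embOf_algebraMap {ι : L →+* ℂ} {A : Subalgebra ℂ (ℍ → ℂ)} {E : A →ₐ[ℂ] LaurentSeries ℂ}
    (hE : Function.Injective E) (g : Gen N → A)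
    (hdict : IsDict ι (fun d => ((g d : A) : ℍ → ℂ))) (c : L) :
    embOf hE g hdict (algebraMap L (FL L N) c) = algebraMap ℂ (LaurentSeries ℂ) (ι c) := by
  have h1 : MvPolynomial.aeval (fun d : Gen N => jqBar L d.1) (MvPolynomial.C c) =
      algebraMap L (LaurentSeries L) c := by
    rw [MvPolynomial.aeval_C]
  have hmem : MvPolynomial.aeval (fun d : Gen N => jqBar L d.1) (MvPolynomial.C c) ∈
      laurentBaseChange L (modularFunctionFieldFull N) := by
    rw [h1]
    exact (laurentBaseChange L (modularFunctionFieldFull N)).algebraMap_mem c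
  have h2 : (algebraMap L (FL L N) c : FL L N) =
      ⟨MvPolynomial.aeval (fun d : Gen N => jqBar L d.1) (MvPolynomial.C c), hmem⟩ := by
    apply Subtype.ext
    exact h1.symm
  rw [h2, embOf_aeval, polyExp_C]

theorem embOf_gen {ι : L →+* ℂ} {A : Subalgebra ℂ (ℍ → ℂ)} {E : A →ₐ[ℂ] LaurentSeries ℂ}
    (hE : Function.Injective E) (g : Gen N → A)
    (hdict : IsDict ι (fun d => ((g d : A) : ℍ → ℂ))) (d : Gen N) :
    embOf hE g hdict (genFL L N d) = E (g d) := by
  have h1 : MvPolynomial.aeval (fun d : Gen N => jqBar L d.1) (MvPolynomial.X d : MvPolynomial (Gen N) L) =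
      jqBar L d.1 := by
    rw [MvPolynomial.aeval_X]
  have hmem : MvPolynomial.aeval (fun d : Gen N => jqBar L d.1) (MvPolynomial.X d : MvPolynomial (Gen N) L) ∈
      laurentBaseChange L (modularFunctionFieldFull N) := by
    rw [h1]
    exact jqBar_mem L N d
  have h2 : genFL L N d =
      ⟨MvPolynomial.aeval (fun d : Gen N => jqBar L d.1) (MvPolynomial.X d : MvPolynomial (Gen N) L), hmem⟩ := by
    apply Subtype.ext
    exact h1.symm
  rw [h2, embOf_aeval, polyExp_X]

/-- ring homs out of `F_L` are determined by their values on constants and on the generators. -/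
theorem ringHom_ext_FL {M : Type*} [Field M] (φ₁ φ₂ : FL L N →+* M)
    (hK : ∀ c : L, φ₁ (algebraMap L (FL L N) c) = φ₂ (algebraMap L (FL L N) c))
    (hs : ∀ d : Gen N, φ₁ (genFL L N d) = φ₂ (genFL L N d)) : φ₁ = φ₂ := by
  have hge : IntermediateField.adjoin L (Set.range fun d : Gen N => jqBar L d.1) ≤
      laurentBaseChange L (modularFunctionFieldFull N) :=
    (laurentBaseChange_eq_adjoin L N).ge
  have hle : laurentBaseChange L (modularFunctionFieldFull N) ≤
      IntermediateField.adjoin L (Set.range fun d : Gen N => jqBar L d.1) :=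
    (laurentBaseChange_eq_adjoin L N).le
  have key : φ₁.comp (IntermediateField.inclusion hge).toRingHom =
      φ₂.comp (IntermediateField.inclusion hge).toRingHom := by
    apply ringHom_ext_adjoin (K := L) (fun d : Gen N => jqBar L d.1)
    · intro c
      exact hK c
    · intro d h
      exact hs d
  ext ⟨y, hy⟩
  have := congrArg (fun f => f ⟨y, hle hy⟩) key
  exact this

end Abstract

section Family

open CongruenceSubgroup

variable {L : Type} [Field L] [Algebra ℚ L] {N : ℕ} [NeZero N]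
variable {ι : L →+* ℂ} {A : Subalgebra ℂ (ℍ → ℂ)} {E : A →ₐ[ℂ] LaurentSeries ℂ}

omit [NeZero N] in
/-- the dictionary is stable under translation by `SL₂(ℤ)`. -/
theorem isDict_smul (hdict : IsDict ι (fun d : Gen N => Jd d.1)) (a : SL(2, ℤ)) :
    IsDict ι (fun (d : Gen N) (τ : ℍ) => Jd d.1 (a⁻¹ • τ)) := by
  intro P
  rw [hdict P]
  constructor
  · intro h τ
    exact h (a⁻¹ • τ)
  · intro h τ
    have := h (a • τ)
    simp only [inv_smul_smul] at this
    exact this

variable (hE : Function.Injective E) (hdict : IsDict ι (fun d : Gen N => Jd d.1))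
  (hA : ∀ (a : SL(2, ℤ)) (d : Gen N), (fun τ : ℍ => Jd d.1 (a⁻¹ • τ)) ∈ A)

/-- the translated generator `τ ↦ J(d · a⁻¹τ)` as an element of `A`. -/
def genJ (a : SL(2, ℤ)) (d : Gen N) : A := ⟨fun τ => Jd d.1 (a⁻¹ • τ), hA a d⟩

omit [NeZero N] in
theorem genJ_apply (a : SL(2, ℤ)) (d : Gen N) (τ : ℍ) :
    ((genJ hA a d : A) : ℍ → ℂ) τ = Jd d.1 (a⁻¹ • τ) := rfl

/-- the expansion embedding attached to `a ∈ SL₂(ℤ)`: `f ↦ E (f ∘ a⁻¹)`. -/
def embJ (a : SL(2, ℤ)) : FL L N →+* LaurentSeries ℂ :=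
  embOf hE (genJ hA a) (isDict_smul hdict a)

theorem embJ_algebraMap (a : SL(2, ℤ)) (c : L) :
    embJ hE hdict hA a (algebraMap L (FL L N) c) = algebraMap ℂ (LaurentSeries ℂ) (ι c) :=
  embOf_algebraMap hE (genJ hA a) (isDict_smul hdict a) c

theorem embJ_algebraMap' (a : SL(2, ℤ)) (c : L) :
    embJ hE hdict hA a (algebraMap L (FL L N) c) = HahnSeries.C (ι c) := by
  rw [embJ_algebraMap, algebraMap_laurentSeries_eq_single, HahnSeries.C_apply]

theorem embJ_gen (a : SL(2, ℤ)) (d : Gen N) :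
    embJ hE hdict hA a (genFL L N d) = E (genJ hA a d) :=
  embOf_gen hE (genJ hA a) (isDict_smul hdict a) d

theorem embJ_eq_of_genJ_eq (a b : SL(2, ℤ)) (h : ∀ d, genJ hA a d = genJ hA b d) :
    embJ hE hdict hA a = embJ hE hdict hA b := by
  apply ringHom_ext_FL
  · intro c
    rw [embJ_algebraMap, embJ_algebraMap]
  · intro d
    rw [embJ_gen, embJ_gen, h d]

theorem embJ_mul_of_mem_Gamma0 (a γ : SL(2, ℤ)) (hγ : γ ∈ Gamma0 N) :
    embJ hE hdict hA (a * γ) = embJ hE hdict hA a := by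
  apply embJ_eq_of_genJ_eq
  intro d
  apply Subtype.ext
  funext τ
  show Jd d.1 ((a * γ)⁻¹ • τ) = Jd d.1 (a⁻¹ • τ)
  rw [mul_inv_rev, mul_smul]
  exact Jd_smul_of_mem_Gamma0 (Nat.dvd_of_mem_divisors d.2) (inv_mem hγ) _

theorem embJ_eq_iff (a b : SL(2, ℤ)) :
    embJ hE hdict hA a = embJ hE hdict hA b ↔ a⁻¹ * b ∈ Gamma0 N := by
  constructor
  · intro h
    have hN : N ∈ N.divisors := Nat.mem_divisors_self N (NeZero.ne N)
    have h1 := congrArg (fun φ => φ (genFL L N ⟨N, hN⟩)) h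
    simp only [embJ_gen] at h1
    have h2 := hE h1
    have h3 : ∀ τ : ℍ, Jd N (a⁻¹ • τ) = Jd N (b⁻¹ • τ) := by
      intro τ
      have := congrArg (fun f : A => (f : ℍ → ℂ) τ) h2
      exact this
    apply mem_Gamma0_of_Jd_smul
    intro τ
    rw [mul_smul, h3 (b • τ), inv_smul_smul]
  · intro h
    have hb : b = a * (a⁻¹ * b) := by group
    rw [hb, embJ_mul_of_mem_Gamma0 hE hdict hA a _ h]

theorem embJ_xGen (hj : jFun ∈ A) (a : SL(2, ℤ)) :
    embJ hE hdict hA a (xGen L N) = E ⟨jFun, hj⟩ := by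
  have h1 : genJ hA a ⟨1, Nat.one_mem_divisors.mpr (NeZero.ne N)⟩ = ⟨jFun, hj⟩ := by
    apply Subtype.ext
    funext τ
    show Jd 1 (a⁻¹ • τ) = jFun τ
    rw [Jd_one, jFun_smul]
  rw [xGen_eq_genFL, embJ_gen, h1]

theorem embJ_rot (σ : SL(2, ℤ)) (R : LaurentSeries ℂ →+* LaurentSeries ℂ)
    (hRC : ∀ c : ℂ, R (algebraMap ℂ (LaurentSeries ℂ) c) = algebraMap ℂ (LaurentSeries ℂ) c)
    (hR : ∀ (f : A) (hf : (fun τ : ℍ => (f : ℍ → ℂ) (σ⁻¹ • τ)) ∈ A),
      E ⟨fun τ : ℍ => (f : ℍ → ℂ) (σ⁻¹ • τ), hf⟩ = R (E f))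
    (a : SL(2, ℤ)) :
    embJ hE hdict hA (σ * a) = R.comp (embJ hE hdict hA a) := by
  apply ringHom_ext_FL
  · intro c
    rw [RingHom.comp_apply, embJ_algebraMap, embJ_algebraMap, hRC]
  · intro d
    rw [RingHom.comp_apply, embJ_gen, embJ_gen]
    have hmem : (fun τ : ℍ => ((genJ hA a d : A) : ℍ → ℂ) (σ⁻¹ • τ)) ∈ A := by
      have := hA (σ * a) d
      have heq : (fun τ : ℍ => Jd d.1 ((σ * a)⁻¹ • τ)) =
          (fun τ : ℍ => ((genJ hA a d : A) : ℍ → ℂ) (σ⁻¹ • τ)) := by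
        funext τ
        rw [mul_inv_rev, mul_smul]
        rfl
      rwa [heq] at this
    have h1 : genJ hA (σ * a) d =
        ⟨fun τ : ℍ => ((genJ hA a d : A) : ℍ → ℂ) (σ⁻¹ • τ), hmem⟩ := by
      apply Subtype.ext
      funext τ
      show Jd d.1 ((σ * a)⁻¹ • τ) = Jd d.1 (a⁻¹ • (σ⁻¹ • τ))
      rw [mul_inv_rev, mul_smul]
    rw [← hR (genJ hA a d) hmem, h1]

end Family

end Fermat.Agent.S24
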