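import Mathlib
import Fermat.Agent.S24.Real.Defs

set_option autoImplicit false

/-!
# S24, layer (R-b): the Cayley--Taylor expansion is an injective ring hom

For `τ₀ ∈ ℍ` the inverse Cayley transform `w ↦ (τ₀ - conj τ₀ w)/(1 - w)` maps the unit disc
biholomorphically onto `ℍ`, `0 ↦ τ₀`.  The Taylor expansion at `0` of `f ∘ cayleyInv τ₀` gives a
map `taylorAt τ₀` from holomorphic functions on `ℍ` to `ℂ⟦w⟧` which is additive, multiplicative,
injective, computes the order of vanishing at `τ₀`, and intertwines the stabiliser of `τ₀`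
with rotations `w ↦ ζ w`.
-/

open UpperHalfPlane ModularCurve ModularForm EisensteinSeries CongruenceSubgroup
open scoped Manifold MatrixGroups ComplexConjugate Topology

noncomputable section

namespace Fermat.Agent.S24

/-! ### The inverse Cayley transform -/

theorem inDisc_eq_comp (τ₀ : ℍ) (f : ℍ → ℂ) :
    inDisc τ₀ f = (f ∘ ofComplex) ∘ cayleyInv τ₀ := rfl

theorem taylorAt_coeff (τ₀ : ℍ) (f : ℍ → ℂ) (n : ℕ) :
    PowerSeries.coeff n (taylorAt τ₀ f)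
      = iteratedDeriv n (inDisc τ₀ f) 0 / (n.factorial : ℂ) := by
  rw [taylorAt, PowerSeries.coeff_mk]

@[simp] theorem cayleyInv_zero (τ₀ : ℍ) : cayleyInv τ₀ 0 = τ₀ := by
  simp [cayleyInv]

theorem one_sub_ne_zero_of_norm_lt_one {w : ℂ} (hw : ‖w‖ < 1) : (1 : ℂ) - w ≠ 0 := by
  intro h
  have : w = 1 := (sub_eq_zero.mp h).symm
  rw [this] at hw
  simp at hw

/-- the imaginary part of the inverse Cayley transform. -/
theorem cayleyInv_im (τ₀ : ℍ) {w : ℂ} (hw : ‖w‖ < 1) :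
    (cayleyInv τ₀ w).im = τ₀.im * (1 - ‖w‖ ^ 2) / ‖1 - w‖ ^ 2 := by
  have h1 : (1 : ℂ) - w ≠ 0 := one_sub_ne_zero_of_norm_lt_one hw
  have hn : Complex.normSq (1 - w) ≠ 0 := by
    rwa [ne_eq, Complex.normSq_eq_zero]
  rw [cayleyInv, Complex.div_im, ← Complex.normSq_eq_norm_sq, ← Complex.normSq_eq_norm_sq]
  have e1 : Complex.normSq (1 - w) = (1 - w.re) * (1 - w.re) + w.im * w.im := by
    rw [Complex.normSq_apply]; simp
  have e2 : Complex.normSq w = w.re * w.re + w.im * w.im := Complex.normSq_apply w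
  have hτ : (τ₀ : ℂ).im = τ₀.im := rfl
  simp only [Complex.sub_re, Complex.sub_im, Complex.mul_re, Complex.mul_im, Complex.conj_re,
    Complex.conj_im, Complex.one_re, Complex.one_im, hτ]
  rw [e2]
  field_simp
  ring

theorem cayleyInv_im_pos (τ₀ : ℍ) {w : ℂ} (hw : ‖w‖ < 1) : 0 < (cayleyInv τ₀ w).im := by
  rw [cayleyInv_im τ₀ hw]
  have h1 : (1 : ℂ) - w ≠ 0 := one_sub_ne_zero_of_norm_lt_one hw
  have h2 : 0 < ‖1 - w‖ ^ 2 := by positivity
  have h3 : 0 < 1 - ‖w‖ ^ 2 := by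
    have : ‖w‖ ^ 2 < 1 := by
      have h0 : 0 ≤ ‖w‖ := norm_nonneg w
      nlinarith
    linarith
  have h4 := τ₀.im_pos
  positivity

theorem differentiableAt_cayleyInv (τ₀ : ℍ) {w : ℂ} (hw : (1 : ℂ) - w ≠ 0) :
    DifferentiableAt ℂ (cayleyInv τ₀) w := by
  unfold cayleyInv
  fun_prop (disch := assumption)

theorem analyticAt_cayleyInv (τ₀ : ℍ) {w : ℂ} (hw : ‖w‖ < 1) : AnalyticAt ℂ (cayleyInv τ₀) w := by
  have hopen : IsOpen {z : ℂ | (1 : ℂ) - z ≠ 0} := by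
    have : Continuous fun z : ℂ => (1 : ℂ) - z := by fun_prop
    exact isOpen_ne_fun this continuous_const
  have hd : DifferentiableOn ℂ (cayleyInv τ₀) {z : ℂ | (1 : ℂ) - z ≠ 0} :=
    fun z hz => (differentiableAt_cayleyInv τ₀ hz).differentiableWithinAt
  exact (hd.analyticOnNhd hopen) w (one_sub_ne_zero_of_norm_lt_one hw)

theorem deriv_cayleyInv_zero (τ₀ : ℍ) :
    deriv (cayleyInv τ₀) 0 = (τ₀ : ℂ) - conj (τ₀ : ℂ) := by
  have h1 : HasDerivAt (fun w : ℂ => (τ₀ : ℂ) - conj (τ₀ : ℂ) * w) (-(conj (τ₀ : ℂ))) 0 := by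
    have := ((hasDerivAt_id (0 : ℂ)).const_mul (conj (τ₀ : ℂ))).const_sub (τ₀ : ℂ)
    simpa using this
  have h2 : HasDerivAt (fun w : ℂ => (1 : ℂ) - w) (-1) 0 := by
    have := (hasDerivAt_id (0 : ℂ)).const_sub (1 : ℂ)
    simpa using this
  have h3 := h1.div h2 (by simp)
  have h4 : deriv (cayleyInv τ₀) 0 = _ := h3.deriv
  rw [h4]
  simp only [sub_zero, mul_one, mul_zero, one_pow, div_one]
  ring

theorem deriv_cayleyInv_zero_ne_zero (τ₀ : ℍ) : deriv (cayleyInv τ₀) 0 ≠ 0 := by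
  rw [deriv_cayleyInv_zero]
  intro h
  have := congrArg Complex.im h
  simp only [Complex.sub_im, Complex.conj_im, Complex.zero_im, sub_neg_eq_add] at this
  have hpos := τ₀.im_pos
  have hτ : (τ₀ : ℂ).im = τ₀.im := rfl
  rw [hτ] at this
  linarith

/-! ### Analyticity of the pull-back -/

theorem analyticOnNhd_comp_ofComplex {f : ℍ → ℂ} (hf : MDiff f) :
    AnalyticOnNhd ℂ (f ∘ ofComplex) {z : ℂ | 0 < z.im} :=
  (UpperHalfPlane.mdifferentiable_iff.mp hf).analyticOnNhd isOpen_upperHalfPlaneSet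

theorem analyticAt_inDisc (τ₀ : ℍ) {f : ℍ → ℂ} (hf : MDiff f) {w : ℂ} (hw : ‖w‖ < 1) :
    AnalyticAt ℂ (inDisc τ₀ f) w := by
  rw [inDisc_eq_comp]
  exact (analyticOnNhd_comp_ofComplex hf _ (cayleyInv_im_pos τ₀ hw)).comp
    (analyticAt_cayleyInv τ₀ hw)

theorem analyticAt_inDisc_zero (τ₀ : ℍ) {f : ℍ → ℂ} (hf : MDiff f) :
    AnalyticAt ℂ (inDisc τ₀ f) 0 :=
  analyticAt_inDisc τ₀ hf (by simp)

theorem contDiffAt_inDisc_zero (τ₀ : ℍ) {f : ℍ → ℂ} (hf : MDiff f) (n : WithTop ℕ∞) :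
    ContDiffAt ℂ n (inDisc τ₀ f) 0 :=
  (analyticAt_inDisc_zero τ₀ hf).contDiffAt

/-! ### Ring hom properties -/

theorem taylorAt_const (τ₀ : ℍ) (c : ℂ) : taylorAt τ₀ (fun _ => c) = PowerSeries.C c := by
  ext n
  rw [taylorAt_coeff, PowerSeries.coeff_C]
  have : inDisc τ₀ (fun _ => c) = fun _ => c := rfl
  rw [this, iteratedDeriv_const]
  by_cases hn : n = 0
  · subst hn; simp
  · simp [hn]

theorem taylorAt_add (τ₀ : ℍ) {f g : ℍ → ℂ} (hf : MDiff f) (hg : MDiff g) :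
    taylorAt τ₀ (f + g) = taylorAt τ₀ f + taylorAt τ₀ g := by
  ext n
  rw [map_add, taylorAt_coeff, taylorAt_coeff, taylorAt_coeff]
  have : inDisc τ₀ (f + g) = inDisc τ₀ f + inDisc τ₀ g := rfl
  rw [this, iteratedDeriv_add (contDiffAt_inDisc_zero τ₀ hf _)
    (contDiffAt_inDisc_zero τ₀ hg _), add_div]

theorem taylorAt_mul (τ₀ : ℍ) {f g : ℍ → ℂ} (hf : MDiff f) (hg : MDiff g) :
    taylorAt τ₀ (f * g) = taylorAt τ₀ f * taylorAt τ₀ g := by
  ext n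
  rw [PowerSeries.coeff_mul, taylorAt_coeff]
  have : inDisc τ₀ (f * g) = inDisc τ₀ f * inDisc τ₀ g := rfl
  rw [this, iteratedDeriv_mul (contDiffAt_inDisc_zero τ₀ hf _)
    (contDiffAt_inDisc_zero τ₀ hg _), Finset.Nat.sum_antidiagonal_eq_sum_range_succ_mk,
    Finset.sum_div]
  refine Finset.sum_congr rfl fun i hi => ?_
  rw [taylorAt_coeff, taylorAt_coeff]
  have hi' : i ≤ n := Nat.lt_succ_iff.mp (Finset.mem_range.mp hi)
  have hc : (n.choose i : ℂ) = (n.factorial : ℂ) / ((i.factorial : ℂ) * ((n - i).factorial : ℂ)) := by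
    rw [Nat.choose_eq_factorial_div_factorial hi']
    rw [Nat.cast_div (Nat.factorial_mul_factorial_dvd_factorial hi')
      (by exact_mod_cast (Nat.mul_ne_zero i.factorial_ne_zero (n - i).factorial_ne_zero))]
    push_cast
    rfl
  rw [hc]
  have h1 : (n.factorial : ℂ) ≠ 0 := by exact_mod_cast n.factorial_ne_zero
  have h2 : (i.factorial : ℂ) ≠ 0 := by exact_mod_cast i.factorial_ne_zero
  have h3 : ((n - i).factorial : ℂ) ≠ 0 := by exact_mod_cast (n - i).factorial_ne_zero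
  field_simp

/-! ### Order of vanishing and injectivity -/

theorem natCast_le_order_taylorAt_iff (τ₀ : ℍ) (f : ℍ → ℂ) (n : ℕ) :
    (n : ℕ∞) ≤ (taylorAt τ₀ f).order ↔ ∀ i < n, iteratedDeriv i (inDisc τ₀ f) 0 = 0 := by
  constructor
  · intro h i hi
    have h1 : PowerSeries.coeff i (taylorAt τ₀ f) = 0 :=
      PowerSeries.coeff_of_lt_order i (lt_of_lt_of_le (by exact_mod_cast hi) h)
    rw [taylorAt_coeff, div_eq_zero_iff] at h1
    rcases h1 with h1 | h1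
    · exact h1
    · exact absurd h1 (by exact_mod_cast i.factorial_ne_zero)
  · intro h
    refine PowerSeries.nat_le_order _ n fun i hi => ?_
    rw [taylorAt_coeff, h i hi, zero_div]

theorem order_taylorAt_eq_analyticOrderAt_inDisc (τ₀ : ℍ) {f : ℍ → ℂ} (hf : MDiff f) :
    (taylorAt τ₀ f).order = analyticOrderAt (inDisc τ₀ f) 0 := by
  refine ENat.eq_of_forall_natCast_le_iff fun n => ?_
  rw [natCast_le_order_taylorAt_iff,
    natCast_le_analyticOrderAt_iff_iteratedDeriv_eq_zero (analyticAt_inDisc_zero τ₀ hf)]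

theorem analyticOrderAt_inDisc (τ₀ : ℍ) (f : ℍ → ℂ) :
    analyticOrderAt (inDisc τ₀ f) 0 = analyticOrderAt (f ∘ ofComplex) (τ₀ : ℂ) := by
  rw [inDisc_eq_comp, analyticOrderAt_comp_of_deriv_ne_zero
    (analyticAt_cayleyInv τ₀ (by simp)) (deriv_cayleyInv_zero_ne_zero τ₀), cayleyInv_zero]

/-- order of the Taylor series = analytic order of vanishing at `τ₀`. -/
theorem order_taylorAt (τ₀ : ℍ) {f : ℍ → ℂ} (hf : MDiff f) :
    ((taylorAt τ₀ f).order : ℕ∞) = analyticOrderAt (f ∘ ofComplex) (τ₀ : ℂ) := by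
  rw [order_taylorAt_eq_analyticOrderAt_inDisc τ₀ hf, analyticOrderAt_inDisc]

theorem taylorAt_eq_zero_iff (τ₀ : ℍ) {f : ℍ → ℂ} (hf : MDiff f) : taylorAt τ₀ f = 0 ↔ f = 0 := by
  constructor
  · intro h
    have h1 : analyticOrderAt (f ∘ ofComplex) (τ₀ : ℂ) = ⊤ := by
      rw [← order_taylorAt τ₀ hf, h, PowerSeries.order_zero]
    have h2 : (f ∘ ofComplex) =ᶠ[𝓝 (τ₀ : ℂ)] 0 := analyticOrderAt_eq_top.mp h1
    have h3 : Set.EqOn (f ∘ ofComplex) 0 {z : ℂ | 0 < z.im} :=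
      (analyticOnNhd_comp_ofComplex hf).eqOn_zero_of_preconnected_of_eventuallyEq_zero
        (convex_halfSpace_im_gt 0).isPreconnected τ₀.im_pos h2
    funext τ
    have := h3 τ.im_pos
    simpa [ofComplex_apply] using this
  · rintro rfl
    have : (fun _ : ℍ => (0 : ℂ)) = (0 : ℍ → ℂ) := rfl
    rw [← this, taylorAt_const, map_zero]

/-! ### Equivariance under the stabiliser of `τ₀` -/

theorem iteratedDeriv_comp_const_mul_ball {G : ℂ → ℂ}
    (hG : AnalyticOnNhd ℂ G (Metric.ball (0 : ℂ) 1)) (c : ℂ) (hc : ‖c‖ ≤ 1) (n : ℕ) :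
    iteratedDeriv n (fun w => G (c * w)) 0 = c ^ n * iteratedDeriv n G 0 := by
  have hopen : IsOpen (Metric.ball (0 : ℂ) 1) := Metric.isOpen_ball
  have h0 : (0 : ℂ) ∈ Metric.ball (0 : ℂ) 1 := by simp
  have hmaps : Set.MapsTo (c * ·) (Metric.ball (0 : ℂ) 1) (Metric.ball (0 : ℂ) 1) := by
    intro w hw
    rw [mem_ball_zero_iff] at hw ⊢
    rw [norm_mul]
    calc ‖c‖ * ‖w‖ ≤ 1 * ‖w‖ := by gcongr
      _ = ‖w‖ := one_mul _
      _ < 1 := hw
  have hcd : ContDiffOn ℂ n G (Metric.ball (0 : ℂ) 1) := hG.contDiffOn hopen.uniqueDiffOn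
  have key := iteratedDerivWithin_comp_const_smul (n := n) h0 hopen.uniqueDiffOn hcd c hmaps
  rw [iteratedDerivWithin_of_isOpen hopen h0, mul_zero,
    iteratedDerivWithin_of_isOpen hopen h0, smul_eq_mul] at key
  exact key

theorem mobius_cayley_aux (A B C Dd t tb w D Db : ℂ) (hD : D = C * t + Dd) (hDb : Db = C * tb + Dd)
    (h1 : A * t + B = t * D) (h2 : A * tb + B = tb * Db)
    (hw : 1 - w ≠ 0) (hD0 : D ≠ 0) (hrot : 1 - Db / D * w ≠ 0) :
    (A * ((t - tb * w) / (1 - w)) + B) / (C * ((t - tb * w) / (1 - w)) + Dd)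
      = (t - tb * (Db / D * w)) / (1 - Db / D * w) := by
  have e1 : A * ((t - tb * w) / (1 - w)) + B = (t * D - tb * Db * w) / (1 - w) := by
    field_simp
    linear_combination (1) * h1 - w * h2
  have e2 : C * ((t - tb * w) / (1 - w)) + Dd = (D - Db * w) / (1 - w) := by
    field_simp
    rw [hD, hDb]; ring
  have e3 : (t - tb * (Db / D * w)) = (t * D - tb * Db * w) / D := by
    field_simp
  have e4 : (1 - Db / D * w) = (D - Db * w) / D := by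
    field_simp
  have hne : D - Db * w ≠ 0 := by
    intro h
    apply hrot
    rw [e4, h, zero_div]
  rw [e1, e2, e3, e4]
  field_simp

theorem denom_eq_intCast (σ : SL(2, ℤ)) (τ : ℍ) :
    denom (σ : GL (Fin 2) ℝ) τ = ((σ 1 0 : ℤ) : ℂ) * τ + ((σ 1 1 : ℤ) : ℂ) := by
  simp [UpperHalfPlane.denom]

theorem coe_smul_eq_intCast (σ : SL(2, ℤ)) (τ : ℍ) :
    ((σ • τ : ℍ) : ℂ) = (((σ 0 0 : ℤ) : ℂ) * τ + ((σ 0 1 : ℤ) : ℂ))
      / (((σ 1 0 : ℤ) : ℂ) * τ + ((σ 1 1 : ℤ) : ℂ)) := by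
  rw [coe_specialLinearGroup_apply]
  simp

theorem rotFactor_ne_zero (σ : SL(2, ℤ)) (τ₀ : ℍ) : rotFactor σ τ₀ ≠ 0 := by
  unfold rotFactor
  have h := denom_ne_zero (σ : GL (Fin 2) ℝ) τ₀
  exact div_ne_zero ((map_ne_zero _).mpr h) h

theorem norm_rotFactor (σ : SL(2, ℤ)) (τ₀ : ℍ) : ‖rotFactor σ τ₀‖ = 1 := by
  unfold rotFactor
  have h := denom_ne_zero (σ : GL (Fin 2) ℝ) τ₀
  rw [norm_div, RCLike.norm_conj, div_self (norm_ne_zero_iff.mpr h)]

theorem coe_ofComplex_cayleyInv (τ₀ : ℍ) {w : ℂ} (hw : ‖w‖ < 1) :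
    ((ofComplex (cayleyInv τ₀ w) : ℍ) : ℂ) = cayleyInv τ₀ w := by
  rw [ofComplex_apply_of_im_pos (cayleyInv_im_pos τ₀ hw)]

theorem conj_intCast' (n : ℤ) : conj (n : ℂ) = n := Complex.conj_eq_iff_re.mpr rfl

/-- the Möbius action of the stabiliser of `τ₀` is a rotation in the Cayley coordinate. -/
theorem coe_smul_cayleyInv (τ₀ : ℍ) (σ : SL(2, ℤ)) (hσ : σ • τ₀ = τ₀) {w : ℂ} (hw : ‖w‖ < 1) :
    ((σ • ofComplex (cayleyInv τ₀ w) : ℍ) : ℂ) = cayleyInv τ₀ (rotFactor σ τ₀ * w) := by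
  have hD0 : ((σ 1 0 : ℤ) : ℂ) * τ₀ + ((σ 1 1 : ℤ) : ℂ) ≠ 0 := by
    rw [← denom_eq_intCast]; exact denom_ne_zero _ τ₀
  have h1 : ((σ 0 0 : ℤ) : ℂ) * τ₀ + ((σ 0 1 : ℤ) : ℂ)
      = (τ₀ : ℂ) * (((σ 1 0 : ℤ) : ℂ) * τ₀ + ((σ 1 1 : ℤ) : ℂ)) := by
    have := congrArg (fun z : ℍ => (z : ℂ)) hσ
    simp only [coe_smul_eq_intCast] at this
    rwa [div_eq_iff hD0] at this
  have h2 : ((σ 0 0 : ℤ) : ℂ) * conj (τ₀ : ℂ) + ((σ 0 1 : ℤ) : ℂ)
      = conj (τ₀ : ℂ) * (((σ 1 0 : ℤ) : ℂ) * conj (τ₀ : ℂ) + ((σ 1 1 : ℤ) : ℂ)) := by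
    have := congrArg conj h1
    simpa only [map_add, map_mul, conj_intCast'] using this
  have hrf : rotFactor σ τ₀ = (((σ 1 0 : ℤ) : ℂ) * conj (τ₀ : ℂ) + ((σ 1 1 : ℤ) : ℂ))
      / (((σ 1 0 : ℤ) : ℂ) * τ₀ + ((σ 1 1 : ℤ) : ℂ)) := by
    unfold rotFactor
    rw [denom_eq_intCast]
    simp only [map_add, map_mul, conj_intCast']
  have hw1 : (1 : ℂ) - w ≠ 0 := one_sub_ne_zero_of_norm_lt_one hw
  have hrot : (1 : ℂ) - rotFactor σ τ₀ * w ≠ 0 := by
    apply one_sub_ne_zero_of_norm_lt_one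
    rw [norm_mul, norm_rotFactor, one_mul]
    exact hw
  rw [coe_smul_eq_intCast, coe_ofComplex_cayleyInv τ₀ hw]
  unfold cayleyInv
  rw [hrf] at hrot ⊢
  exact mobius_cayley_aux _ _ _ _ _ _ _ _ _ rfl rfl h1 h2 hw1 hD0 hrot

theorem smul_ofComplex_cayleyInv (τ₀ : ℍ) (σ : SL(2, ℤ)) (hσ : σ • τ₀ = τ₀) {w : ℂ}
    (hw : ‖w‖ < 1) :
    σ • ofComplex (cayleyInv τ₀ w) = ofComplex (cayleyInv τ₀ (rotFactor σ τ₀ * w)) := by
  have hw' : ‖rotFactor σ τ₀ * w‖ < 1 := by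
    rw [norm_mul, norm_rotFactor, one_mul]; exact hw
  apply UpperHalfPlane.ext
  rw [coe_smul_cayleyInv τ₀ σ hσ hw, coe_ofComplex_cayleyInv τ₀ hw']

/-- equivariance under the stabiliser of `τ₀`. -/
theorem taylorAt_comp_smul (τ₀ : ℍ) {f : ℍ → ℂ} (hf : MDiff f) (σ : SL(2, ℤ)) (hσ : σ • τ₀ = τ₀) :
    taylorAt τ₀ (fun τ => f (σ • τ)) = PowerSeries.rescale (rotFactor σ τ₀) (taylorAt τ₀ f) := by
  ext n
  rw [PowerSeries.coeff_rescale, taylorAt_coeff, taylorAt_coeff]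
  have hG : AnalyticOnNhd ℂ (inDisc τ₀ f) (Metric.ball (0 : ℂ) 1) := fun w hw =>
    analyticAt_inDisc τ₀ hf (mem_ball_zero_iff.mp hw)
  have heq : inDisc τ₀ (fun τ => f (σ • τ))
      =ᶠ[𝓝 (0 : ℂ)] fun w => inDisc τ₀ f (rotFactor σ τ₀ * w) := by
    filter_upwards [Metric.isOpen_ball.mem_nhds (show (0 : ℂ) ∈ Metric.ball (0 : ℂ) 1 by simp)]
      with w hw
    show f (σ • ofComplex (cayleyInv τ₀ w)) = f (ofComplex (cayleyInv τ₀ (rotFactor σ τ₀ * w)))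
    rw [smul_ofComplex_cayleyInv τ₀ σ hσ (mem_ball_zero_iff.mp hw)]
  rw [heq.iteratedDeriv_eq n,
    iteratedDeriv_comp_const_mul_ball hG _ (norm_rotFactor σ τ₀).le n, mul_div_assoc]

/-! ### The two elliptic points -/

theorem S_smul_I : ModularGroup.S • UpperHalfPlane.I = UpperHalfPlane.I := by
  apply UpperHalfPlane.ext
  rw [coe_smul_eq_intCast]
  simp [ModularGroup.S, UpperHalfPlane.coe_I]

/-- the two special stabilisers (`S` at `i`, `S*T` at `ρ = e^{2πi/3}`). -/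
theorem rotFactor_S_I : rotFactor ModularGroup.S UpperHalfPlane.I = -1 := by
  unfold rotFactor
  rw [denom_eq_intCast]
  simp [ModularGroup.S, UpperHalfPlane.coe_I]

theorem coe_rhoPt :
    (rhoPt : ℂ) = -((1 / 2 : ℝ) : ℂ) + ((Real.sqrt 3 / 2 : ℝ) : ℂ) * Complex.I := rfl

theorem sqrt_three_mul_self : Real.sqrt 3 * Real.sqrt 3 = 3 :=
  Real.mul_self_sqrt (by norm_num)

theorem ST_apply : (ModularGroup.S * ModularGroup.T : SL(2, ℤ)) 0 0 = 0
    ∧ (ModularGroup.S * ModularGroup.T : SL(2, ℤ)) 0 1 = -1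
    ∧ (ModularGroup.S * ModularGroup.T : SL(2, ℤ)) 1 0 = 1
    ∧ (ModularGroup.S * ModularGroup.T : SL(2, ℤ)) 1 1 = 1 := by
  rw [Matrix.SpecialLinearGroup.coe_mul]
  refine ⟨?_, ?_, ?_, ?_⟩ <;>
  simp [ModularGroup.S, ModularGroup.T, Matrix.mul_apply, Fin.sum_univ_two]

/-- `c ρ + d` for `S * T`, explicitly. -/
theorem denom_ST_rhoPt :
    denom ((ModularGroup.S * ModularGroup.T : SL(2, ℤ)) : GL (Fin 2) ℝ) rhoPt
      = ((1 / 2 : ℝ) : ℂ) + ((Real.sqrt 3 / 2 : ℝ) : ℂ) * Complex.I := by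
  obtain ⟨-, -, h10, h11⟩ := ST_apply
  rw [denom_eq_intCast, h10, h11, coe_rhoPt]
  push_cast
  ring

theorem denom_ST_rhoPt_ne_zero :
    ((1 / 2 : ℝ) : ℂ) + ((Real.sqrt 3 / 2 : ℝ) : ℂ) * Complex.I ≠ 0 := by
  intro h
  have := congrArg Complex.re h
  simp at this

theorem ST_smul_rhoPt : (ModularGroup.S * ModularGroup.T) • rhoPt = rhoPt := by
  apply UpperHalfPlane.ext
  obtain ⟨h00, h01, h10, h11⟩ := ST_apply
  have hd := denom_ST_rhoPt
  rw [denom_eq_intCast] at hd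
  rw [coe_smul_eq_intCast, hd, h00, h01, coe_rhoPt]
  have h3 := sqrt_three_mul_self
  rw [div_eq_iff denom_ST_rhoPt_ne_zero]
  apply Complex.ext
  · simp
    nlinarith [h3]
  · simp
    ring

theorem rotFactor_ST_rho_eq :
    rotFactor (ModularGroup.S * ModularGroup.T) rhoPt
      = ((-1 / 2 : ℝ) : ℂ) - ((Real.sqrt 3 / 2 : ℝ) : ℂ) * Complex.I := by
  unfold rotFactor
  rw [denom_ST_rhoPt]
  have h3 := sqrt_three_mul_self
  have hc : conj (((1 / 2 : ℝ) : ℂ) + ((Real.sqrt 3 / 2 : ℝ) : ℂ) * Complex.I)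
      = ((1 / 2 : ℝ) : ℂ) - ((Real.sqrt 3 / 2 : ℝ) : ℂ) * Complex.I := by
    simp only [map_add, map_mul, Complex.conj_ofReal, Complex.conj_I]
    ring
  rw [hc, div_eq_iff denom_ST_rhoPt_ne_zero]
  apply Complex.ext
  · simp
    nlinarith [h3]
  · simp
    nlinarith [h3]

theorem rotFactor_ST_rho : IsPrimitiveRoot (rotFactor (ModularGroup.S * ModularGroup.T) rhoPt) 3 := by
  rw [rotFactor_ST_rho_eq]
  have h3 := sqrt_three_mul_self
  set ζ : ℂ := ((-1 / 2 : ℝ) : ℂ) - ((Real.sqrt 3 / 2 : ℝ) : ℂ) * Complex.I with hζ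
  have hre : ζ.re = -1 / 2 := by simp [hζ]
  have him : ζ.im = -(Real.sqrt 3 / 2) := by simp [hζ]
  have hsq : ζ ^ 2 = ((-1 / 2 : ℝ) : ℂ) + ((Real.sqrt 3 / 2 : ℝ) : ℂ) * Complex.I := by
    apply Complex.ext
    · rw [pow_two, Complex.mul_re, hre, him]
      simp
      nlinarith [h3]
    · rw [pow_two, Complex.mul_im, hre, him]
      simp
      ring
  have hcube : ζ ^ 3 = 1 := by
    rw [pow_succ, hsq]
    apply Complex.ext
    · rw [Complex.mul_re, hre, him]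
      simp
      nlinarith [h3]
    · rw [Complex.mul_im, hre, him]
      simp
      ring
  refine IsPrimitiveRoot.mk_of_lt ζ (by norm_num) hcube fun l hl0 hl3 => ?_
  interval_cases l
  · rw [pow_one]
    intro h
    have := congrArg Complex.re h
    rw [hre] at this
    norm_num at this
  · rw [hsq]
    intro h
    have := congrArg Complex.re h
    simp at this
    norm_num at this

end Fermat.Agent.S24
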