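/-
S24, layer (R), chunk (T) (owner: helper13): the Taylor expansion at a point of `ℍ` in the Cayley
coordinate as an injective `ℂ`-algebra hom from the holomorphic functions on `ℍ` into `ℂ((w))`,
and its equivariance under the stabiliser (rotation of the parameter by `rotFactor`).
-/
import Mathlib
import Fermat.Agent.S24.Rot
import Fermat.Agent.S24.Real.Taylor

set_option autoImplicit false

open UpperHalfPlane ModularForm EisensteinSeries
open scoped Manifold MatrixGroups ComplexConjugate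

noncomputable section

namespace Fermat.Agent.S24

/-- (T1) holomorphic functions on `ℍ` as a `ℂ`-subalgebra of all functions. -/
def mdiffSubalgebra : Subalgebra ℂ (ℍ → ℂ) where
  carrier := {f | MDiff f}
  mul_mem' := fun h1 h2 => h1.mul h2
  add_mem' := fun h1 h2 => h1.add h2
  algebraMap_mem' := fun _ => mdifferentiable_const

theorem mem_mdiffSubalgebra {f : ℍ → ℂ} : f ∈ mdiffSubalgebra ↔ MDiff f := Iff.rfl

theorem taylorL_const (τ₀ : ℍ) (c : ℂ) :
    taylorL τ₀ (fun _ => c) = algebraMap ℂ (LaurentSeries ℂ) c := by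
  rw [taylorL, taylorAt_const, HahnSeries.algebraMap_apply']
  simp

theorem taylorL_add (τ₀ : ℍ) {f g : ℍ → ℂ} (hf : MDiff f) (hg : MDiff g) :
    taylorL τ₀ (f + g) = taylorL τ₀ f + taylorL τ₀ g := by
  rw [taylorL, taylorL, taylorL, taylorAt_add τ₀ hf hg, map_add]

theorem taylorL_mul (τ₀ : ℍ) {f g : ℍ → ℂ} (hf : MDiff f) (hg : MDiff g) :
    taylorL τ₀ (f * g) = taylorL τ₀ f * taylorL τ₀ g := by
  rw [taylorL, taylorL, taylorL, taylorAt_mul τ₀ hf hg, map_mul]

theorem taylorL_eq_zero_iff (τ₀ : ℍ) {f : ℍ → ℂ} (hf : MDiff f) : taylorL τ₀ f = 0 ↔ f = 0 := by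
  rw [taylorL, ← taylorAt_eq_zero_iff τ₀ hf]
  constructor
  · intro h
    exact HahnSeries.ofPowerSeries_injective (by rw [h, map_zero])
  · intro h
    rw [h, map_zero]

/-- (T2) the Taylor expansion at `τ₀` as a `ℂ`-algebra hom into `ℂ((w))`. -/
def taylorAlgHom (τ₀ : ℍ) : mdiffSubalgebra →ₐ[ℂ] LaurentSeries ℂ where
  toFun f := taylorL τ₀ f.1
  map_one' := by
    have h := taylorL_const τ₀ 1
    rw [map_one] at h
    exact h
  map_mul' f g := taylorL_mul τ₀ f.2 g.2
  map_zero' := by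
    have h := taylorL_const τ₀ 0
    rw [map_zero] at h
    exact h
  map_add' f g := taylorL_add τ₀ f.2 g.2
  commutes' c := taylorL_const τ₀ c

@[simp] theorem taylorAlgHom_apply (τ₀ : ℍ) (f : mdiffSubalgebra) :
    taylorAlgHom τ₀ f = taylorL τ₀ f.1 := rfl

/-- (T3) -/
theorem taylorAlgHom_injective (τ₀ : ℍ) : Function.Injective (taylorAlgHom τ₀) := by
  rw [injective_iff_map_eq_zero]
  intro f hf
  rw [taylorAlgHom_apply, taylorL_eq_zero_iff τ₀ f.2] at hf
  exact Subtype.ext hf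

theorem rot_coe_powerSeries (ζ : ℂˣ) (A : PowerSeries ℂ) :
    rot ζ (HahnSeries.ofPowerSeries ℤ ℂ A) =
      HahnSeries.ofPowerSeries ℤ ℂ (PowerSeries.rescale (ζ : ℂ) A) := by
  ext n
  rw [rot_coeff, PowerSeries.coeff_coe, PowerSeries.coeff_coe]
  split_ifs with hn
  · rw [mul_zero]
  · rw [PowerSeries.coeff_rescale]
    congr 1
    have : n = (n.natAbs : ℤ) := by omega
    conv_lhs => rw [this]
    rw [zpow_natCast, Units.val_pow_eq_pow_val]

/-- (T4) equivariance under the stabiliser of `τ₀`. -/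
theorem taylorL_comp_smul (τ₀ : ℍ) {f : ℍ → ℂ} (hf : MDiff f) (σ : SL(2, ℤ))
    (hs : σ • τ₀ = τ₀) :
    taylorL τ₀ (fun τ => f (σ • τ)) =
      rot (Units.mk0 (rotFactor σ τ₀) (rotFactor_ne_zero σ τ₀)) (taylorL τ₀ f) := by
  rw [taylorL, taylorL, taylorAt_comp_smul τ₀ hf σ hs, rot_coe_powerSeries, Units.val_mk0]

end Fermat.Agent.S24
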