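import Mathlib
import Fermat.Agent.S24.Real.EmbAbstract
import Fermat.Agent.S24.Real.TaylorAlg
import Fermat.Agent.S24.Real.QDict

set_option autoImplicit false

/-!
# S24, layer (R-f): the expansion embeddings at a point `τ₀ ∈ ℍ`

`embFinite L N ι τ₀ a : F_L →+* ℂ((w))` is the Taylor expansion at `τ₀` (in the Cayley coordinate
`w`) of `f ∘ a⁻¹`, where `f` is the analytic realisation of an element of `F_L` (via `ι : L →+* ℂ`).
-/

open UpperHalfPlane ModularCurve CongruenceSubgroup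
open scoped MatrixGroups Manifold

noncomputable section

namespace Fermat.Agent.S24

section

variable (L : Type) [Field L] [Algebra ℚ L] (N : ℕ) [NeZero N] (ι : L →+* ℂ)

/-- the `q`-dictionary in the form used by `embJ`. -/
theorem isDict_Jd : IsDict ι (fun d : Gen N => Jd d.1) := fun P => qDictionary L ι N P

/-- `τ ↦ J(d · γτ)` is holomorphic. -/
theorem mdiff_Jd_smul (γ : SL(2, ℤ)) (d : ℕ) : MDiff (fun τ : ℍ => Jd d (γ • τ)) := by
  have h1 : MDiff (fun τ : ℍ => ((γ : GL (Fin 2) ℝ)) • τ) := by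
    apply mdifferentiable_smul
    simp
  exact (Jd_mdiff d).comp h1

/-- the Taylor expansion embedding at `τ₀` attached to `a ∈ SL₂(ℤ)`. -/
def embFinite (τ₀ : ℍ) (a : SL(2, ℤ)) : FL L N →+* LaurentSeries ℂ :=
  embJ (A := mdiffSubalgebra) (E := taylorAlgHom τ₀) (taylorAlgHom_injective τ₀)
    (isDict_Jd L N ι) (fun a d => mdiff_Jd_smul a⁻¹ d.1) a

theorem embFinite_algebraMap (τ₀ : ℍ) (a : SL(2, ℤ)) (c : L) :
    embFinite L N ι τ₀ a (algebraMap L (FL L N) c) = HahnSeries.C (ι c) :=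
  embJ_algebraMap' _ _ _ a c

theorem embFinite_gen (τ₀ : ℍ) (a : SL(2, ℤ)) (d : Gen N) :
    embFinite L N ι τ₀ a (genFL L N d) = taylorL τ₀ (fun τ => Jd d.1 (a⁻¹ • τ)) :=
  embJ_gen _ _ _ a d

theorem embFinite_xGen (τ₀ : ℍ) (a : SL(2, ℤ)) :
    embFinite L N ι τ₀ a (xGen L N) = taylorL τ₀ jFun :=
  embJ_xGen (A := mdiffSubalgebra) (E := taylorAlgHom τ₀) _ _ _ mdiff_jFun a

theorem embFinite_mul_of_mem_Gamma0 (τ₀ : ℍ) (a γ : SL(2, ℤ)) (hγ : γ ∈ Gamma0 N) :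
    embFinite L N ι τ₀ (a * γ) = embFinite L N ι τ₀ a :=
  embJ_mul_of_mem_Gamma0 _ _ _ a γ hγ

theorem embFinite_eq_iff (τ₀ : ℍ) (a b : SL(2, ℤ)) :
    embFinite L N ι τ₀ a = embFinite L N ι τ₀ b ↔ a⁻¹ * b ∈ Gamma0 N :=
  embJ_eq_iff _ _ _ a b

/-- an element `σ` of the stabiliser of `τ₀` acts on the embeddings by the rotation
`w ↦ rotFactor σ⁻¹ τ₀ · w`. -/
theorem embFinite_stab (τ₀ : ℍ) (a σ : SL(2, ℤ)) (hσ : σ • τ₀ = τ₀) (ζ : ℂˣ)
    (hζ : (ζ : ℂ) = rotFactor σ⁻¹ τ₀) (f : FL L N) :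
    embFinite L N ι τ₀ (σ * a) f = rot ζ (embFinite L N ι τ₀ a f) := by
  have hσ' : σ⁻¹ • τ₀ = τ₀ := by
    rw [inv_smul_eq_iff, hσ]
  have hζ' : ζ = Units.mk0 (rotFactor σ⁻¹ τ₀) (rotFactor_ne_zero σ⁻¹ τ₀) :=
    Units.ext hζ
  have key := embJ_rot (A := mdiffSubalgebra) (E := taylorAlgHom τ₀) (taylorAlgHom_injective τ₀)
    (isDict_Jd L N ι) (fun a d => mdiff_Jd_smul a⁻¹ d.1) σ (rot ζ).toRingHom
    (fun c => (rot ζ).commutes c)
    (fun g hg => by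
      show taylorL τ₀ (fun τ : ℍ => (g : ℍ → ℂ) (σ⁻¹ • τ)) = rot ζ (taylorL τ₀ g.1)
      rw [hζ']
      exact taylorL_comp_smul τ₀ g.2 σ⁻¹ hσ') a
  have := congrArg (fun φ => φ f) key
  exact this

end

end Fermat.Agent.S24
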