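import Mathlib
import Fermat.Agent.S24.Real.QDict
import Fermat.Agent.S24.Real.LaurentInfty

set_option autoImplicit false

/-!
# S24, layer (R): by-products of the `q`-dictionary at `i∞`

A function `h` on `ℍ` that is holomorphic, `1`-periodic and `q`-represented (`QRep`) by the formal
Laurent series `u` is meromorphic at `i∞` with `laurentInfty 1 h = coeffMap ι u`.  In particular
`laurentInfty 1 (Jd d) = j(q^d)` and `laurentInfty 1 jFun = j(q)`.
-/

namespace Fermat.Agent.S24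

open UpperHalfPlane ModularCurve Filter Topology
open scoped Manifold

noncomputable section

local notation "𝕢" => Function.Periodic.qParam

variable {L : Type} [Field L]

theorem QRep.laurentInfty_eq {ι : L →+* ℂ} {u : LaurentSeries L} {h : ℍ → ℂ} (H : QRep ι u h)
    (hh : MDiff h) (hper : ∀ τ : ℍ, h (((1 : ℕ) : ℝ) +ᵥ τ) = h τ) :
    IsMeroAtInfty 1 h ∧ laurentInfty 1 h = coeffMap ι u := by
  obtain ⟨m, g, hg, hgh, hgt⟩ := H
  have hs : ∀ τ : ℍ, HasSum (fun n : ℕ => PowerSeries.coeff n (taylor0 g) *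
      𝕢 ((1 : ℕ) : ℝ) (τ : ℂ) ^ n) (𝕢 ((1 : ℕ) : ℝ) (τ : ℂ) ^ m * h τ) := by
    intro τ
    rw [Nat.cast_one, ← hgh τ]
    refine hasSum_taylor0 hg ?_
    rw [mem_ball_zero_iff]
    have := UpperHalfPlane.norm_qParam_lt_one 1 τ
    simpa using this
  obtain ⟨h1, h2⟩ := laurentInfty_eq_of_hasSum (h := 1) hh hper m
    (fun n => PowerSeries.coeff n (taylor0 g)) hs
  refine ⟨h1, ?_⟩
  rw [h2]
  have : PowerSeries.mk (fun n => PowerSeries.coeff n (taylor0 g)) = taylor0 g := by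
    ext n; simp
  rw [this, hgt, ← mul_assoc, HahnSeries.single_mul_single]
  simp

/-- `τ ↦ j(dτ)` is `1`-periodic. -/
theorem Jd_vadd_one (d : ℕ) (τ : ℍ) : Jd d (((1 : ℕ) : ℝ) +ᵥ τ) = Jd d τ := by
  have hT : ModularGroup.T ∈ CongruenceSubgroup.Gamma0 d := by
    rw [CongruenceSubgroup.Gamma0_mem]
    simp [ModularGroup.T]
  have h := Jd_smul_of_mem_Gamma0 (dvd_refl d) hT τ
  rw [UpperHalfPlane.modular_T_smul] at h
  rw [Nat.cast_one]
  exact h

theorem QRep.laurentInfty_Jd (ι : L →+* ℂ) [Algebra ℚ L] (d : ℕ) (hd : 0 < d) :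
    IsMeroAtInfty 1 (Jd d) ∧ laurentInfty 1 (Jd d) = coeffMap ι (jqBar L d) :=
  (QRep.gen ι d hd).laurentInfty_eq (Jd_mdiff d) (Jd_vadd_one d)

/-- `τ ↦ j(dτ)` is meromorphic at `i∞` (in `q = e^{2πiτ}`). -/
theorem isMeroAtInfty_Jd (d : ℕ) (hd : 0 < d) : IsMeroAtInfty 1 (Jd d) :=
  (QRep.laurentInfty_Jd (RingHom.id ℂ) d hd).1

/-- the `q`-expansion of `τ ↦ j(dτ)` is the formal `j(q^d)`. -/
theorem laurentInfty_Jd (d : ℕ) [NeZero d] :
    laurentInfty 1 (Jd d) = coeffMap (algebraMap ℚ ℂ) (qExpand ℚ d jq) := by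
  rw [(QRep.laurentInfty_Jd (RingHom.id ℂ) d (NeZero.pos d)).2, coeffMap_id, jqBar_of_ne_zero]
  rfl

theorem laurentInfty_Jd_eq_jqBar (d : ℕ) (hd : 0 < d) : laurentInfty 1 (Jd d) = jqBar ℂ d := by
  rw [(QRep.laurentInfty_Jd (RingHom.id ℂ) d hd).2, coeffMap_id]

theorem isMeroAtInfty_jFun : IsMeroAtInfty 1 jFun := by
  have := isMeroAtInfty_Jd 1 one_pos
  rwa [Jd_one] at this

/-- the `q`-expansion of the analytic `j` is the formal `j(q)` of the prelude. -/
theorem laurentInfty_jFun : laurentInfty 1 jFun = coeffMap (algebraMap ℚ ℂ) jq := by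
  have h := laurentInfty_Jd 1
  rw [Jd_one] at h
  rw [h]
  congr 1
  ext k
  have := qExpand_coeff_mul (R := ℚ) 1 jq k
  simpa using this

/-- Polynomial expressions in the `j(dτ)` are holomorphic. -/
theorem mdiff_eval₂_Jd (ι : L →+* ℂ) (N : ℕ) (P : MvPolynomial (Gen N) L) :
    MDiff (fun τ : ℍ => MvPolynomial.eval₂ ι (fun d : Gen N => Jd d.1 τ) P) := by
  induction P using MvPolynomial.induction_on with
  | C c =>
    have h1 : (fun τ : ℍ => MvPolynomial.eval₂ ι (fun d : Gen N => Jd d.1 τ) (MvPolynomial.C c)) =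
        fun _ => ι c := by funext τ; simp
    rw [h1]
    exact mdifferentiable_const
  | add p p' hp hp' =>
    have h1 : (fun τ : ℍ => MvPolynomial.eval₂ ι (fun d : Gen N => Jd d.1 τ) (p + p')) =
        (fun τ => MvPolynomial.eval₂ ι (fun d : Gen N => Jd d.1 τ) p) +
        (fun τ => MvPolynomial.eval₂ ι (fun d : Gen N => Jd d.1 τ) p') := by
      funext τ; simp
    rw [h1]
    exact hp.add hp'
  | mul_X p i hp =>
    have h1 : (fun τ : ℍ => MvPolynomial.eval₂ ι (fun d : Gen N => Jd d.1 τ)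
        (p * MvPolynomial.X i)) =
        (fun τ => MvPolynomial.eval₂ ι (fun d : Gen N => Jd d.1 τ) p) * Jd i.1 := by
      funext τ; simp
    rw [h1]
    exact hp.mul (Jd_mdiff i.1)

/-- Polynomial expressions in the `j(dτ)`: meromorphic at `i∞` with the expected `q`-expansion. -/
theorem laurentInfty_eval₂ (ι : L →+* ℂ) [Algebra ℚ L] (N : ℕ) [NeZero N]
    (P : MvPolynomial (Gen N) L) :
    IsMeroAtInfty 1 (fun τ : ℍ => MvPolynomial.eval₂ ι (fun d : Gen N => Jd d.1 τ) P) ∧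
      laurentInfty 1 (fun τ : ℍ => MvPolynomial.eval₂ ι (fun d : Gen N => Jd d.1 τ) P) =
        coeffMap ι (MvPolynomial.aeval (fun d : Gen N => jqBar L d.1) P) := by
  refine (QRep.aeval ι N P).laurentInfty_eq ?_ ?_
  · exact mdiff_eval₂_Jd ι N P
  · intro τ
    simp only [Jd_vadd_one]

theorem coeff_laurentInfty_jFun_neg_one : (laurentInfty 1 jFun).coeff (-1) = 1 := by
  rw [laurentInfty_jFun, coeffMap_coeff, coeff_jq_neg_one, map_one]

theorem laurentInfty_jFun_ne_zero : laurentInfty 1 jFun ≠ 0 := fun h => by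
  have := coeff_laurentInfty_jFun_neg_one
  rw [h] at this
  simp at this

/-- the analytic `j` has a simple pole at `i∞`. -/
theorem order_laurentInfty_jFun : (laurentInfty 1 jFun).order = -1 := by
  apply le_antisymm
  · refine HahnSeries.order_le_of_coeff_ne_zero ?_
    rw [coeff_laurentInfty_jFun_neg_one]
    exact one_ne_zero
  · rw [HahnSeries.le_order_iff_forall laurentInfty_jFun_ne_zero]
    intro k hk
    rw [laurentInfty_jFun, coeffMap_coeff, coeff_jq_of_lt hk, map_zero]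

end

end Fermat.Agent.S24
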