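/-
S24, layer (R), chunk (2b) (owner: helper27): behaviour of the Laurent expansion at `i∞`
(`Real/LaurentInfty.lean`, helper12) under the translation `τ ↦ τ + 1` (rotation of the parameter
by `e^{2πi/h}`) and under change of the period (`q = q_N^N`, prelude `ModularCurve.qExpand`).
-/
import Mathlib
import Fermat.Agent.S24.Rot
import Fermat.Agent.S24.Real.LaurentInfty
import Fermat.Prelude.Def_ModularCurve_X0
import Fermat.Prelude.Thm_UpperHalfPlane_qExpansion_coeff_nat_mul

set_option autoImplicit false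

open UpperHalfPlane Function Filter Complex
open scoped Manifold Real

noncomputable section

namespace Fermat.Agent.S24

local notation "𝕢" => Periodic.qParam

/-! ### Translation `τ ↦ τ + 1` -/

section translation

variable {h : ℕ} {f : ℍ → ℂ}

/-- the function `τ ↦ f (τ + 1)`. -/
def shiftOne (f : ℍ → ℂ) : ℍ → ℂ := fun τ => f ((1 : ℝ) +ᵥ τ)

theorem shiftOne_apply (f : ℍ → ℂ) (τ : ℍ) : shiftOne f τ = f ((1 : ℝ) +ᵥ τ) := rfl

theorem shiftOne_mul (f g : ℍ → ℂ) : shiftOne (f * g) = shiftOne f * shiftOne g := rfl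

theorem mdiff_shiftOne (hf : MDiff f) : MDiff (shiftOne f) := by
  rw [UpperHalfPlane.mdifferentiable_iff] at hf ⊢
  have hd : DifferentiableOn ℂ (fun z : ℂ => (f ∘ ofComplex) (z + 1)) {z : ℂ | 0 < z.im} := by
    intro z hz
    have hz1 : z + 1 ∈ {z : ℂ | 0 < z.im} := by simpa using hz
    have h1 := (hf (z + 1) hz1).differentiableAt (isOpen_upperHalfPlaneSet.mem_nhds hz1)
    exact (h1.comp z ((differentiableAt_id).add_const 1)).differentiableWithinAt
  refine hd.congr fun z hz => ?_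
  have hz1 : 0 < (z + 1).im := by simpa using hz
  simp only [comp_apply, shiftOne, ofComplex_apply_of_im_pos hz, ofComplex_apply_of_im_pos hz1]
  congr 1
  ext
  simp [add_comm]

theorem shiftOne_periodic (hper : ∀ τ : ℍ, f ((h : ℝ) +ᵥ τ) = f τ) (τ : ℍ) :
    shiftOne f ((h : ℝ) +ᵥ τ) = shiftOne f τ := by
  simp only [shiftOne]
  rw [← hper ((1 : ℝ) +ᵥ τ)]
  congr 1
  ext
  simp [add_left_comm]

theorem isBoundedAtImInfty_shiftOne (hf : IsBoundedAtImInfty f) :
    IsBoundedAtImInfty (shiftOne f) := by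
  rw [UpperHalfPlane.isBoundedAtImInfty_iff] at hf ⊢
  obtain ⟨M, A, hMA⟩ := hf
  exact ⟨M, A, fun τ hτ => hMA _ (by simpa using hτ)⟩

theorem IsBddPer.shiftOne (hf : IsBddPer h f) : IsBddPer h (shiftOne f) :=
  ⟨mdiff_shiftOne hf.hol, shiftOne_periodic hf.per, isBoundedAtImInfty_shiftOne hf.bdd⟩

/-- the root of unity `e^{2πi/h}`. -/
def zetaInfty (h : ℕ) : ℂˣ :=
  Units.mk0 (Complex.exp (2 * π * Complex.I / h)) (Complex.exp_ne_zero _)

theorem coe_zetaInfty (h : ℕ) : (zetaInfty h : ℂ) = Complex.exp (2 * π * Complex.I / h) := rfl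

theorem zetaInfty_isPrimitiveRoot (h : ℕ) [NeZero h] : IsPrimitiveRoot (zetaInfty h : ℂ) h := by
  rw [coe_zetaInfty]
  exact Complex.isPrimitiveRoot_exp h (NeZero.ne h)

theorem qParam_one_vadd (h : ℕ) (τ : ℍ) :
    𝕢 (h : ℝ) ((((1 : ℝ) +ᵥ τ : ℍ)) : ℂ) = (zetaInfty h : ℂ) * 𝕢 (h : ℝ) (τ : ℂ) := by
  rw [coe_zetaInfty, UpperHalfPlane.coe_vadd]
  simp only [Periodic.qParam]
  rw [← Complex.exp_add]
  congr 1
  push_cast
  ring

theorem qpow_shiftOne (h m : ℕ) :
    shiftOne (qpow h m) = (fun _ => (zetaInfty h : ℂ) ^ m) * qpow h m := by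
  funext τ
  simp only [shiftOne, qpow, Pi.mul_apply, qParam_one_vadd, mul_pow]

/-- `q`-expansion of a translate. -/
theorem qExpansion_shiftOne [NeZero h] (hf : IsBddPer h f) :
    qExpansion (h : ℝ) (shiftOne f) =
      PowerSeries.rescale (zetaInfty h : ℂ) (qExpansion (h : ℝ) f) := by
  have hhR : (0 : ℝ) < h := Nat.cast_pos.mpr (NeZero.pos h)
  ext n
  rw [PowerSeries.coeff_rescale]
  refine (qExpansion_coeff_unique_fun (h := (h : ℝ)) (g := shiftOne f)
    hf.shiftOne.hol.continuous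
    (c := fun k => (zetaInfty h : ℂ) ^ k * (qExpansion (h : ℝ) f).coeff k) hhR
    hf.shiftOne.analytic (fun τ => ?_) n).symm
  have := ((1 : ℝ) +ᵥ τ).hasSum_qExpansion hhR hf.periodic hf.hol hf.bdd
  refine this.congr_fun fun k => ?_
  rw [qParam_one_vadd, mul_pow, smul_eq_mul]
  ring

theorem rot_single (ζ : ℂˣ) (a : ℤ) (r : ℂ) :
    rot ζ (HahnSeries.single a r : LaurentSeries ℂ) =
      HahnSeries.single a (((ζ ^ a : ℂˣ) : ℂ) * r) := by
  ext n
  rw [rot_coeff, HahnSeries.coeff_single, HahnSeries.coeff_single]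
  split_ifs with hn
  · subst hn; rfl
  · rw [mul_zero]

theorem rot_ofPowerSeries (ζ : ℂˣ) (A : PowerSeries ℂ) :
    rot ζ (HahnSeries.ofPowerSeries ℤ ℂ A) =
      HahnSeries.ofPowerSeries ℤ ℂ (PowerSeries.rescale (ζ : ℂ) A) := by
  ext n
  rw [rot_coeff, PowerSeries.coeff_coe, PowerSeries.coeff_coe]
  split_ifs with hn
  · rw [mul_zero]
  · rw [PowerSeries.coeff_rescale]
    congr 1
    have : n = (n.natAbs : ℤ) := by omega
    conv_lhs => rw [this]
    rw [zpow_natCast, Units.val_pow_eq_pow_val]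

theorem qExpansion_const_fun [NeZero h] (c : ℂ) :
    qExpansion (h : ℝ) (fun _ : ℍ => c) = PowerSeries.C c := by
  have h1 : (fun _ : ℍ => c) = c • (1 : ℍ → ℂ) := by
    funext z; simp
  have h2 : AnalyticAt ℂ (cuspFunction (h : ℝ) (1 : ℍ → ℂ)) 0 := (IsBddPer.const h 1).analytic
  rw [h1, UpperHalfPlane.qExpansion_smul h2 c, UpperHalfPlane.qExpansion_one]
  ext n
  simp [PowerSeries.coeff_C, PowerSeries.coeff_one]

theorem IsMeroAtInfty.shiftOne (hf : IsMeroAtInfty h f) : IsMeroAtInfty h (shiftOne f) := by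
  obtain ⟨m, hm⟩ := hf.exists_isBddPer
  have hfun : qpow h m * Fermat.Agent.S24.shiftOne f =
      (fun _ => (((zetaInfty h) ^ (-(m : ℤ)) : ℂˣ) : ℂ)) *
        Fermat.Agent.S24.shiftOne (qpow h m * f) := by
    rw [shiftOne_mul, qpow_shiftOne, ← mul_assoc, ← mul_assoc]
    congr 1
    funext τ
    simp only [Pi.mul_apply]
    rw [zpow_neg, zpow_natCast, Units.val_inv_eq_inv_val, Units.val_pow_eq_pow_val,
      inv_mul_cancel₀ (pow_ne_zero _ (Units.ne_zero _)), one_mul]
  refine IsMeroAtInfty.of_isBddPer_qpow_mul (mdiff_shiftOne hf.1) (shiftOne_periodic hf.2.1)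
    (m := m) ?_
  rw [hfun]
  exact (IsBddPer.const h _).mul hm.shiftOne

/-- **Translation.**  The expansion of `τ ↦ f (τ + 1)` is obtained by rotating the parameter by
`e^{2πi/h}`. -/
theorem laurentInfty_shiftOne [NeZero h] (hf : IsMeroAtInfty h f) :
    laurentInfty h (shiftOne f) = rot (zetaInfty h) (laurentInfty h f) := by
  obtain ⟨m, hm⟩ := hf.exists_isBddPer
  set ζ := zetaInfty h with hζ
  have hm1 : IsBddPer h (shiftOne (qpow h m * f)) := hm.shiftOne
  have hfun : qpow h m * shiftOne f =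
      (fun _ => ((ζ ^ (-(m : ℤ)) : ℂˣ) : ℂ)) * shiftOne (qpow h m * f) := by
    rw [shiftOne_mul, qpow_shiftOne, ← mul_assoc, ← mul_assoc]
    congr 1
    funext τ
    simp only [Pi.mul_apply]
    rw [← hζ, zpow_neg, zpow_natCast, Units.val_inv_eq_inv_val, Units.val_pow_eq_pow_val,
      inv_mul_cancel₀ (pow_ne_zero _ (Units.ne_zero ζ)), one_mul]
  have hconst := IsBddPer.const h ((ζ ^ (-(m : ℤ)) : ℂˣ) : ℂ)
  have hm2 : IsBddPer h (qpow h m * shiftOne f) := by
    rw [hfun]; exact hconst.mul hm1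
  rw [laurentInfty_eq' hm2 hf.shiftOne, laurentInfty_eq' hm hf]
  unfold laurentOf
  rw [hfun, qExpansion_mul hconst.analytic hm1.analytic, qExpansion_const_fun,
    qExpansion_shiftOne hm, map_mul, map_mul, HahnSeries.ofPowerSeries_C, rot_single,
    rot_ofPowerSeries, mul_one, ← mul_assoc]
  congr 1
  rw [HahnSeries.C_apply, HahnSeries.single_mul_single, add_zero, one_mul]

/-- `laurentInfty_shiftOne` with the translate written out. -/
theorem laurentInfty_vadd_one [NeZero h] (hf : IsMeroAtInfty h f) :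
    laurentInfty h (fun τ : ℍ => f ((1 : ℝ) +ᵥ τ)) = rot (zetaInfty h) (laurentInfty h f) :=
  laurentInfty_shiftOne hf

end translation

/-! ### Change of period -/

section period

variable {f : ℍ → ℂ}

theorem qpow_mul_period (N m : ℕ) [NeZero N] : qpow N (N * m) = qpow 1 m := by
  funext τ
  have hN : (N : ℂ) ≠ 0 := by exact_mod_cast NeZero.ne N
  simp only [qpow, Periodic.qParam]
  rw [← Complex.exp_nat_mul, ← Complex.exp_nat_mul]
  congr 1
  push_cast
  field_simp

theorem periodic_of_periodic_one (N : ℕ) (hper : ∀ τ : ℍ, f (((1 : ℕ) : ℝ) +ᵥ τ) = f τ) (τ : ℍ) :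
    f ((N : ℝ) +ᵥ τ) = f τ := by
  induction N with
  | zero => simp
  | succ n ih =>
    rw [← ih, ← hper ((n : ℝ) +ᵥ τ)]
    congr 1
    ext
    push_cast
    simp [UpperHalfPlane.coe_vadd]
    ring

theorem IsBddPer.of_one (N : ℕ) (hf : IsBddPer 1 f) : IsBddPer N f :=
  ⟨hf.hol, periodic_of_periodic_one N hf.per, hf.bdd⟩

theorem IsMeroAtInfty.of_one (N : ℕ) [NeZero N] (hf : IsMeroAtInfty 1 f) : IsMeroAtInfty N f := by
  obtain ⟨m, hm⟩ := hf.exists_isBddPer
  refine IsMeroAtInfty.of_isBddPer_qpow_mul hf.1 (periodic_of_periodic_one N hf.2.1)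
    (m := N * m) ?_
  rw [qpow_mul_period]
  exact hm.of_one N

/-- coefficients of the `q_N`-expansion of a `1`-periodic function. -/
theorem qExpansion_coeff_period (N : ℕ) [NeZero N] (hf : IsBddPer 1 f) (n : ℕ) :
    (qExpansion (N : ℝ) f).coeff n =
      if N ∣ n then (qExpansion ((1 : ℕ) : ℝ) f).coeff (n / N) else 0 := by
  have hN : 0 < N := Nat.pos_of_ne_zero (NeZero.ne N)
  have := UpperHalfPlane.qExpansion_coeff_nat_mul (h := ((1 : ℕ) : ℝ)) (by norm_num)
    hf.periodic hf.hol hf.bdd hN n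
  rw [Nat.cast_one, mul_one] at this
  rw [this, Nat.cast_one]

theorem qExpand_ofPowerSeries_qExpansion (N : ℕ) [NeZero N] (hf : IsBddPer 1 f) :
    ModularCurve.qExpand ℂ N (HahnSeries.ofPowerSeries ℤ ℂ (qExpansion ((1 : ℕ) : ℝ) f)) =
      HahnSeries.ofPowerSeries ℤ ℂ (qExpansion (N : ℝ) f) := by
  have hN : 0 < N := Nat.pos_of_ne_zero (NeZero.ne N)
  have hNZ : (0 : ℤ) < N := by exact_mod_cast hN
  ext k
  by_cases hk : (N : ℤ) ∣ k
  · obtain ⟨j, rfl⟩ := hk
    rw [ModularCurve.qExpand_coeff_mul, PowerSeries.coeff_coe, PowerSeries.coeff_coe]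
    by_cases hj : j < 0
    · have : (N : ℤ) * j < 0 := mul_neg_of_pos_of_neg hNZ hj
      rw [if_pos hj, if_pos this]
    · have hj' : 0 ≤ j := not_lt.mp hj
      have : ¬ (N : ℤ) * j < 0 := not_lt.mpr (mul_nonneg hNZ.le hj')
      rw [if_neg hj, if_neg this, qExpansion_coeff_period N hf]
      have habs : ((N : ℤ) * j).natAbs = N * j.natAbs := by
        rw [Int.natAbs_mul, Int.natAbs_natCast]
      rw [habs, if_pos (dvd_mul_right N _), Nat.mul_div_cancel_left _ hN]
  · rw [ModularCurve.qExpand_coeff_of_not_dvd N _ hk, PowerSeries.coeff_coe]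
    split_ifs with hk0
    · rfl
    · rw [qExpansion_coeff_period N hf, if_neg]
      intro hdvd
      apply hk
      have hk' : k = (k.natAbs : ℤ) := by omega
      rw [hk']
      exact_mod_cast hdvd

/-- **Change of period.**  For a `1`-periodic function, the expansion in `q_N = e^{2πiτ/N}` is
obtained from the expansion in `q = e^{2πiτ}` by substituting `q = q_N^N`. -/
theorem laurentInfty_period (N : ℕ) [NeZero N] (hf : IsMeroAtInfty 1 f) :
    laurentInfty N f = ModularCurve.qExpand ℂ N (laurentInfty 1 f) := by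
  obtain ⟨m, hm⟩ := hf.exists_isBddPer
  have hmN : IsBddPer N (qpow N (N * m) * f) := by
    rw [qpow_mul_period]; exact hm.of_one N
  rw [laurentInfty_eq' hmN (hf.of_one N), laurentInfty_eq' hm hf]
  unfold laurentOf
  rw [map_mul, ModularCurve.qExpand_single, qExpand_ofPowerSeries_qExpansion N hm,
    qpow_mul_period]
  congr 2
  push_cast
  ring_nf

end period

end Fermat.Agent.S24
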