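import Mathlib
import Fermat.Agent.S24.Real.EmbAbstract
import Fermat.Agent.S24.Real.EmbFinite
import Fermat.Agent.S24.Real.LaurentInftyRot
import Fermat.Agent.S24.Real.JdInfty
import Fermat.Agent.S24.Real.JdGrowth

set_option autoImplicit false

/-!
# S24, layer (R-e): the expansion embeddings at `i∞`

`embInfty L N ι a : F_L →+* ℂ((t))` is the Laurent expansion in `t = q_N = e^{2πiτ/N}` of
`f ∘ a⁻¹`, where `f` is the analytic realisation of an element of `F_L` (via `ι : L →+* ℂ`).
-/

open UpperHalfPlane ModularCurve CongruenceSubgroup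
open scoped MatrixGroups Manifold

noncomputable section

namespace Fermat.Agent.S24

/-- functions on `ℍ` meromorphic at `i∞` of period `N`, as a `ℂ`-subalgebra of all functions. -/
def meroSubalgebra (N : ℕ) : Subalgebra ℂ (ℍ → ℂ) where
  carrier := {f | IsMeroAtInfty N f}
  mul_mem' := fun h1 h2 => h1.mul h2
  add_mem' := fun h1 h2 => h1.add h2
  algebraMap_mem' := fun c => IsMeroAtInfty.const N c

theorem mem_meroSubalgebra {N : ℕ} {f : ℍ → ℂ} : f ∈ meroSubalgebra N ↔ IsMeroAtInfty N f :=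
  Iff.rfl

/-- the Laurent expansion at `i∞` in `q_N` as a `ℂ`-algebra hom. -/
def laurentInftyAlgHom (N : ℕ) [NeZero N] : meroSubalgebra N →ₐ[ℂ] LaurentSeries ℂ where
  toFun f := laurentInfty N f.1
  map_one' := laurentInfty_one
  map_mul' f g := laurentInfty_mul f.2 g.2
  map_zero' := laurentInfty_zero
  map_add' f g := laurentInfty_add f.2 g.2
  commutes' c := by
    show laurentInfty N (fun _ : ℍ => c) = algebraMap ℂ (LaurentSeries ℂ) c
    rw [laurentInfty_const, algebraMap_laurentSeries_eq_single, HahnSeries.C_apply]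

@[simp] theorem laurentInftyAlgHom_apply (N : ℕ) [NeZero N] (f : meroSubalgebra N) :
    laurentInftyAlgHom N f = laurentInfty N f.1 := rfl

theorem laurentInftyAlgHom_injective (N : ℕ) [NeZero N] :
    Function.Injective (laurentInftyAlgHom N) := by
  rw [injective_iff_map_eq_zero]
  intro f hf
  rw [laurentInftyAlgHom_apply, laurentInfty_eq_zero_iff f.2] at hf
  exact Subtype.ext hf

section

variable (L : Type) [Field L] [Algebra ℚ L] (N : ℕ) [NeZero N] (ι : L →+* ℂ)

/-- the Laurent expansion embedding at `i∞` attached to `a ∈ SL₂(ℤ)`. -/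
def embInfty (a : SL(2, ℤ)) : FL L N →+* LaurentSeries ℂ :=
  embJ (A := meroSubalgebra N) (E := laurentInftyAlgHom N) (laurentInftyAlgHom_injective N)
    (isDict_Jd L N ι)
    (fun a d => isMeroAtInfty_Jd_smul (Nat.dvd_of_mem_divisors d.2) a⁻¹) a

theorem embInfty_algebraMap (a : SL(2, ℤ)) (c : L) :
    embInfty L N ι a (algebraMap L (FL L N) c) = HahnSeries.C (ι c) :=
  embJ_algebraMap' _ _ _ a c

theorem embInfty_gen (a : SL(2, ℤ)) (d : Gen N) :
    embInfty L N ι a (genFL L N d) = laurentInfty N (fun τ => Jd d.1 (a⁻¹ • τ)) :=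
  embJ_gen _ _ _ a d

theorem embInfty_xGen (a : SL(2, ℤ)) :
    embInfty L N ι a (xGen L N) = qExpand ℂ N (coeffMap (algebraMap ℚ ℂ) jq) := by
  have h1 := embJ_xGen (A := meroSubalgebra N) (E := laurentInftyAlgHom N)
    (laurentInftyAlgHom_injective N) (isDict_Jd L N ι)
    (fun a d => isMeroAtInfty_Jd_smul (Nat.dvd_of_mem_divisors d.2) a⁻¹)
    (isMeroAtInfty_jFun.of_one N) a
  rw [embInfty, h1, laurentInftyAlgHom_apply, laurentInfty_period N isMeroAtInfty_jFun,
    laurentInfty_jFun]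

theorem embInfty_mul_of_mem_Gamma0 (a γ : SL(2, ℤ)) (hγ : γ ∈ Gamma0 N) :
    embInfty L N ι (a * γ) = embInfty L N ι a :=
  embJ_mul_of_mem_Gamma0 _ _ _ a γ hγ

theorem embInfty_eq_iff (a b : SL(2, ℤ)) :
    embInfty L N ι a = embInfty L N ι b ↔ a⁻¹ * b ∈ Gamma0 N :=
  embJ_eq_iff _ _ _ a b

/-- `T⁻¹` acts on the embeddings at `i∞` by the rotation `t ↦ e^{2πi/N} t`. -/
theorem embInfty_T_inv (a : SL(2, ℤ)) (f : FL L N) :
    embInfty L N ι (ModularGroup.T⁻¹ * a) f = rot (zetaInfty N) (embInfty L N ι a f) := by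
  have key := embJ_rot (A := meroSubalgebra N) (E := laurentInftyAlgHom N)
    (laurentInftyAlgHom_injective N) (isDict_Jd L N ι)
    (fun a d => isMeroAtInfty_Jd_smul (Nat.dvd_of_mem_divisors d.2) a⁻¹)
    ModularGroup.T⁻¹ (rot (zetaInfty N)).toRingHom
    (fun c => (rot (zetaInfty N)).commutes c)
    (fun g hg => by
      show laurentInfty N (fun τ : ℍ => (g : ℍ → ℂ) ((ModularGroup.T⁻¹)⁻¹ • τ)) =
        rot (zetaInfty N) (laurentInfty N g.1)
      rw [← laurentInfty_vadd_one g.2]
      congr 1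
      funext τ
      rw [inv_inv, UpperHalfPlane.modular_T_smul]) a
  have := congrArg (fun φ => φ f) key
  exact this

theorem zetaInfty_isPrimitiveRoot_units : IsPrimitiveRoot (zetaInfty N) N :=
  IsPrimitiveRoot.coe_units_iff.mp (zetaInfty_isPrimitiveRoot N)

end

end Fermat.Agent.S24
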