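import Mathlib
import Fermat.Agent.S24.Real.JdGrowth
import Fermat.Agent.S24.Real.JdInfty

set_option autoImplicit false

/-!
# S24, layer (R): growth at `i∞` of polynomial expressions in the `τ ↦ j(dτ)`, `d ∣ N`

* `IsMeroAtInfty.polarAtInfty` : meromorphic at `i∞` (in `q_h`) implies polar growth (`f Δ^m` bounded);
* `mdiff_eval₂_Jd`, `eval₂_Jd_smul_of_mem_Gamma0`, `polarAtInfty_eval₂_Jd_smul` : a polynomial expression
  `h` in the `j(dτ)`, `d ∣ N`, satisfies the three hypotheses of `exists_monic_poly_J` for `Γ₀(N)`;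
* `exists_monic_poly_J_eval₂` : hence it is a root of a monic polynomial of degree `[SL₂(ℤ) : Γ₀(N)]`
  over `ℂ[j]`.
-/

namespace Fermat.Agent.S24

open UpperHalfPlane ModularForm CongruenceSubgroup Filter Topology Asymptotics
open scoped Manifold MatrixGroups

noncomputable section

local notation "𝕢" => Function.Periodic.qParam

/-- `Δ = O(q)` at `i∞`. -/
theorem discriminant_isBigO_exp :
    (ModularForm.discriminant : ℍ → ℂ) =O[atImInfty] fun τ => Real.exp (-2 * Real.pi * τ.im) := by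
  have := CuspFormClass.exp_decay_atImInfty (h := 1) CuspForm.discriminant one_pos
    one_mem_strictPeriods_SL
  simpa using this

theorem exp_le_norm_qParam (h : ℕ) [NeZero h] (τ : ℍ) :
    Real.exp (-2 * Real.pi * τ.im) ≤ ‖𝕢 (h : ℝ) (τ : ℂ)‖ := by
  rw [Function.Periodic.norm_qParam, Real.exp_le_exp]
  have hh : (1 : ℝ) ≤ h := by exact_mod_cast Nat.one_le_iff_ne_zero.mpr (NeZero.ne h)
  have hpos : 0 < 2 * Real.pi * τ.im := by have := τ.im_pos; positivity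
  have h1 : 2 * Real.pi * τ.im / h ≤ 2 * Real.pi * τ.im := div_le_self hpos.le hh
  have h2 : -2 * Real.pi * (τ : ℂ).im / h = -(2 * Real.pi * τ.im / h) := by
    rw [UpperHalfPlane.coe_im]; ring
  rw [h2]
  linarith

/-- `Δ = O(q_h)` at `i∞`. -/
theorem discriminant_isBigO_qParam (h : ℕ) [NeZero h] :
    (ModularForm.discriminant : ℍ → ℂ) =O[atImInfty] fun τ : ℍ => 𝕢 (h : ℝ) (τ : ℂ) := by
  refine discriminant_isBigO_exp.trans (IsBigO.of_bound 1 (Eventually.of_forall fun τ => ?_))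
  rw [Real.norm_of_nonneg (Real.exp_pos _).le, one_mul]
  exact exp_le_norm_qParam h τ

/-- meromorphic at `i∞` (w.r.t. `q_h`) implies polar growth in the sense of `PolarAtInfty`. -/
theorem IsMeroAtInfty.polarAtInfty {h : ℕ} [NeZero h] {f : ℍ → ℂ} (hf : IsMeroAtInfty h f) :
    PolarAtInfty f := by
  obtain ⟨m, hm⟩ := hf.2.2
  refine ⟨m, ?_⟩
  have h2 : (fun τ : ℍ => ModularForm.discriminant τ ^ m) =O[atImInfty]
      fun τ : ℍ => 𝕢 (h : ℝ) (τ : ℂ) ^ m := (discriminant_isBigO_qParam h).pow m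
  have h3 : (fun τ : ℍ => f τ * ModularForm.discriminant τ ^ m) =O[atImInfty]
      fun τ : ℍ => f τ * 𝕢 (h : ℝ) (τ : ℂ) ^ m := (isBigO_refl f _).mul h2
  have h4 : (fun τ : ℍ => f τ * 𝕢 (h : ℝ) (τ : ℂ) ^ m) =O[atImInfty] (1 : ℍ → ℝ) := by
    have : (fun τ : ℍ => f τ * 𝕢 (h : ℝ) (τ : ℂ) ^ m) =
        fun τ : ℍ => 𝕢 (h : ℝ) (τ : ℂ) ^ m * f τ := by funext τ; ring
    rw [this]
    exact hm
  exact h3.trans h4

/-! ### polynomial expressions in the `j(dτ)`, `d ∣ N` -/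

variable {L : Type} [Field L]

theorem eval₂_Jd_smul_of_mem_Gamma0 (ι : L →+* ℂ) (N : ℕ) (P : MvPolynomial (Gen N) L)
    {γ : SL(2, ℤ)} (hγ : γ ∈ Gamma0 N) (τ : ℍ) :
    MvPolynomial.eval₂ ι (fun d : Gen N => Jd d.1 (γ • τ)) P =
      MvPolynomial.eval₂ ι (fun d : Gen N => Jd d.1 τ) P := by
  congr 1
  funext d
  exact Jd_smul_of_mem_Gamma0 (Nat.dvd_of_mem_divisors d.2) hγ τ

theorem isMeroAtInfty_eval₂_Jd_smul (ι : L →+* ℂ) (N : ℕ) [NeZero N] (P : MvPolynomial (Gen N) L)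
    (γ : SL(2, ℤ)) :
    IsMeroAtInfty N (fun τ : ℍ => MvPolynomial.eval₂ ι (fun d : Gen N => Jd d.1 (γ • τ)) P) := by
  induction P using MvPolynomial.induction_on with
  | C c =>
    have h1 : (fun τ : ℍ => MvPolynomial.eval₂ ι (fun d : Gen N => Jd d.1 (γ • τ))
        (MvPolynomial.C c)) = fun _ => ι c := by funext τ; simp
    rw [h1]
    exact IsMeroAtInfty.const N (ι c)
  | add p p' hp hp' =>
    have h1 : (fun τ : ℍ => MvPolynomial.eval₂ ι (fun d : Gen N => Jd d.1 (γ • τ)) (p + p')) =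
        (fun τ => MvPolynomial.eval₂ ι (fun d : Gen N => Jd d.1 (γ • τ)) p) +
        (fun τ => MvPolynomial.eval₂ ι (fun d : Gen N => Jd d.1 (γ • τ)) p') := by
      funext τ; simp
    rw [h1]
    exact hp.add hp'
  | mul_X p i hp =>
    have h1 : (fun τ : ℍ => MvPolynomial.eval₂ ι (fun d : Gen N => Jd d.1 (γ • τ))
        (p * MvPolynomial.X i)) =
        (fun τ => MvPolynomial.eval₂ ι (fun d : Gen N => Jd d.1 (γ • τ)) p) *
          (fun τ => Jd i.1 (γ • τ)) := by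
      funext τ; simp
    rw [h1]
    exact hp.mul (isMeroAtInfty_Jd_smul (Nat.dvd_of_mem_divisors i.2) γ)

theorem polarAtInfty_eval₂_Jd_smul (ι : L →+* ℂ) (N : ℕ) [NeZero N] (P : MvPolynomial (Gen N) L)
    (γ : SL(2, ℤ)) :
    PolarAtInfty (fun τ : ℍ => MvPolynomial.eval₂ ι (fun d : Gen N => Jd d.1 (γ • τ)) P) :=
  (isMeroAtInfty_eval₂_Jd_smul ι N P γ).polarAtInfty

/-- A polynomial expression in the `j(dτ)`, `d ∣ N`, is a root of a monic polynomial of degree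
`[SL(2,ℤ) : Γ₀(N)]` with coefficients in `ℂ[j]`. -/
theorem exists_monic_poly_J_eval₂ (ι : L →+* ℂ) (N : ℕ) [NeZero N] (P : MvPolynomial (Gen N) L)
    [Fintype (SL(2, ℤ) ⧸ Gamma0 N)] :
    ∃ R : Polynomial (Polynomial ℂ), R.Monic ∧
      R.natDegree = Fintype.card (SL(2, ℤ) ⧸ Gamma0 N) ∧
      ∀ τ : ℍ, (R.map (Polynomial.evalRingHom (jFun τ))).eval
        (MvPolynomial.eval₂ ι (fun d : Gen N => Jd d.1 τ) P) = 0 :=
  exists_monic_poly_J (H := Gamma0 N) (mdiff_eval₂_Jd ι N P)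
    (fun _ ha τ => eval₂_Jd_smul_of_mem_Gamma0 ι N P ha τ)
    (fun g => polarAtInfty_eval₂_Jd_smul ι N P g)

end

end Fermat.Agent.S24
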