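/-
S24, layer (R), chunk (2b) (owner: helper12): the Laurent expansion at `i∞` converges to the
function (as a sum over `ℤ`), uniqueness, and order / boundedness criteria.
-/
import Fermat.Agent.S24.Real.LaurentInfty

set_option autoImplicit false

noncomputable section

namespace Fermat.Agent.S24

open UpperHalfPlane Function
open scoped Manifold

/-- coefficients of `t^(-m) * P(t)` -/
theorem coeff_single_neg_mul_ofPowerSeries (m : ℕ) (P : PowerSeries ℂ) (n : ℤ) :
    (HahnSeries.single (-(m : ℤ)) (1 : ℂ) * HahnSeries.ofPowerSeries ℤ ℂ P).coeff n =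
      if n + m < 0 then 0 else PowerSeries.coeff (n + m).natAbs P := by
  rw [HahnSeries.coeff_single_mul, one_mul, sub_neg_eq_add]
  exact PowerSeries.coeff_coe (f := P) (n + m)

theorem coeff_single_neg_mul_ofPowerSeries_natCast_sub (m : ℕ) (P : PowerSeries ℂ) (k : ℕ) :
    (HahnSeries.single (-(m : ℤ)) (1 : ℂ) * HahnSeries.ofPowerSeries ℤ ℂ P).coeff ((k : ℤ) - m) =
      PowerSeries.coeff k P := by
  rw [coeff_single_neg_mul_ofPowerSeries]
  have h1 : ¬ ((k : ℤ) - m + m < 0) := by omega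
  rw [if_neg h1]
  have h2 : (k : ℤ) - m + m = k := by ring
  rw [h2, Int.natAbs_natCast]

theorem coeff_single_neg_mul_ofPowerSeries_of_lt (m : ℕ) (P : PowerSeries ℂ) {n : ℤ}
    (hn : n < -(m : ℤ)) :
    (HahnSeries.single (-(m : ℤ)) (1 : ℂ) * HahnSeries.ofPowerSeries ℤ ℂ P).coeff n = 0 := by
  rw [coeff_single_neg_mul_ofPowerSeries]
  have h1 : n + m < 0 := by omega
  rw [if_pos h1]

/-- reindexing a sum over `ℕ` as a sum over `ℤ` shifted by `-m` -/
theorem hasSum_int_shift_iff (m : ℕ) (F : ℤ → ℂ) (hF : ∀ n : ℤ, n < -(m : ℤ) → F n = 0) (a : ℂ) :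
    HasSum (fun k : ℕ => F ((k : ℤ) - m)) a ↔ HasSum F a := by
  have hinj : Function.Injective (fun k : ℕ => (k : ℤ) - (m : ℤ)) := by
    intro a b hab
    simp only [sub_left_inj, Nat.cast_inj] at hab
    exact hab
  refine hinj.hasSum_iff (f := F) ?_
  intro n hn
  apply hF
  by_contra hlt
  rw [not_lt] at hlt
  apply hn
  refine ⟨(n + m).toNat, ?_⟩
  simp only
  omega

variable {h : ℕ} [NeZero h] {f : ℍ → ℂ}

/-- the Laurent expansion at `i∞` converges to `f` -/
theorem hasSum_laurentInfty (hf : IsMeroAtInfty h f) (τ : ℍ) :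
    HasSum (fun n : ℤ => (laurentInfty h f).coeff n * Periodic.qParam (h : ℝ) (τ : ℂ) ^ n) (f τ) := by
  have hh : (0 : ℝ) < h := Nat.cast_pos.mpr (NeZero.pos h)
  obtain ⟨m, A⟩ := hf.exists_isBddPer
  rw [laurentInfty_eq' A hf]
  unfold laurentOf
  set P := qExpansion (h : ℝ) (qpow h m * f) with hP
  set q := Periodic.qParam (h : ℝ) (τ : ℂ) with hq
  have hq0 : q ≠ 0 := Periodic.qParam_ne_zero _
  have h1 : HasSum (fun k : ℕ => PowerSeries.coeff k P • q ^ k) ((qpow h m * f) τ) :=
    hasSum_qExpansion hh A.periodic A.hol A.bdd τ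
  have h2 := h1.mul_right (q ^ (-(m : ℤ)))
  have h3 : (qpow h m * f) τ * q ^ (-(m : ℤ)) = f τ := by
    simp only [Pi.mul_apply, qpow_apply, ← hq]
    rw [zpow_neg, zpow_natCast]
    field_simp
  rw [h3] at h2
  rw [← hasSum_int_shift_iff m]
  · have h4 : (fun k : ℕ => (HahnSeries.single (-(m : ℤ)) (1 : ℂ) *
        HahnSeries.ofPowerSeries ℤ ℂ P).coeff ((k : ℤ) - m) * q ^ ((k : ℤ) - m)) =
        fun k : ℕ => PowerSeries.coeff k P • q ^ k * q ^ (-(m : ℤ)) := by
      funext k
      rw [coeff_single_neg_mul_ofPowerSeries_natCast_sub, smul_eq_mul, mul_assoc]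
      congr 1
      rw [sub_eq_add_neg, zpow_add₀ hq0, zpow_natCast]
    rw [h4]
    exact h2
  · intro n hn
    rw [coeff_single_neg_mul_ofPowerSeries_of_lt m P hn, zero_mul]

/-- uniqueness: a convergent Laurent expansion in `q_h` of a holomorphic function is its
`laurentInfty` -/
theorem eq_laurentInfty_of_hasSum (hf1 : MDiff f) (u : LaurentSeries ℂ)
    (hu : ∀ τ : ℍ, HasSum (fun n : ℤ => u.coeff n * Periodic.qParam (h : ℝ) (τ : ℂ) ^ n) (f τ)) :
    IsMeroAtInfty h f ∧ laurentInfty h f = u := by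
  -- periodicity
  have hper : ∀ τ : ℍ, f ((h : ℝ) +ᵥ τ) = f τ := by
    intro τ
    have hq : Periodic.qParam (h : ℝ) (((h : ℝ) +ᵥ τ : ℍ) : ℂ) = Periodic.qParam (h : ℝ) (τ : ℂ) := by
      have := (isBddPer_qpow h 1).per τ
      simpa only [qpow_apply, pow_one] using this
    have h1 := hu ((h : ℝ) +ᵥ τ)
    rw [hq] at h1
    exact h1.unique (hu τ)
  -- the exponent
  set m : ℕ := (-u.order).toNat with hm
  have hlow : ∀ n : ℤ, n < -(m : ℤ) → u.coeff n = 0 := by
    intro n hn
    apply HahnSeries.coeff_eq_zero_of_lt_order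
    omega
  have hs : ∀ τ : ℍ, HasSum (fun k : ℕ => u.coeff ((k : ℤ) - m) * Periodic.qParam (h : ℝ) (τ : ℂ) ^ k)
      (Periodic.qParam (h : ℝ) (τ : ℂ) ^ m * f τ) := by
    intro τ
    set q := Periodic.qParam (h : ℝ) (τ : ℂ) with hq
    have hq0 : q ≠ 0 := Periodic.qParam_ne_zero _
    have h1 := (hu τ).mul_left (q ^ m)
    have h2 := (hasSum_int_shift_iff m (fun n : ℤ => q ^ m * (u.coeff n * q ^ n))
      (fun n hn => by simp only [hlow n hn, zero_mul, mul_zero]) (q ^ m * f τ)).mpr h1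
    have h3 : (fun k : ℕ => q ^ m * (u.coeff ((k : ℤ) - m) * q ^ ((k : ℤ) - m))) =
        fun k : ℕ => u.coeff ((k : ℤ) - m) * q ^ k := by
      funext k
      rw [sub_eq_add_neg, zpow_add₀ hq0, zpow_natCast, zpow_neg, zpow_natCast]
      field_simp
    rw [h3] at h2
    exact h2
  obtain ⟨hmero, hL⟩ := laurentInfty_eq_of_hasSum hf1 hper m (fun k : ℕ => u.coeff ((k : ℤ) - m)) hs
  refine ⟨hmero, ?_⟩
  rw [hL]
  ext n
  rw [coeff_single_neg_mul_ofPowerSeries]
  split_ifs with hn
  · exact (hlow n (by omega)).symm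
  · rw [PowerSeries.coeff_mk]
    congr 1
    omega

/-- the coefficients below `-m` vanish if `q_h^m * f` is bounded -/
theorem coeff_laurentInfty_of_lt (hf : IsMeroAtInfty h f) {m : ℕ}
    (hm : IsBoundedAtImInfty (qpow h m * f)) {n : ℤ} (hn : n < -(m : ℤ)) :
    (laurentInfty h f).coeff n = 0 := by
  rw [laurentInfty_eq hf hm]
  exact coeff_single_neg_mul_ofPowerSeries_of_lt m _ hn

/-- `f` is bounded at `i∞` iff its Laurent expansion has no polar part -/
theorem isBoundedAtImInfty_iff_coeff (hf : IsMeroAtInfty h f) :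
    IsBoundedAtImInfty f ↔ ∀ n : ℤ, n < 0 → (laurentInfty h f).coeff n = 0 := by
  have hh : (0 : ℝ) < h := Nat.cast_pos.mpr (NeZero.pos h)
  constructor
  · intro hb n hn
    have hb' : IsBoundedAtImInfty (qpow h 0 * f) := by rw [qpow_zero, one_mul]; exact hb
    exact coeff_laurentInfty_of_lt hf hb' (by simpa using hn)
  · intro hc
    have h1 : ∀ τ : ℍ, HasSum (fun k : ℕ => (laurentInfty h f).coeff (k : ℤ) •
        Periodic.qParam (h : ℝ) (τ : ℂ) ^ k) (f τ) := by
      intro τ
      have h2 := (hasSum_int_shift_iff 0 (fun n : ℤ => (laurentInfty h f).coeff n *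
        Periodic.qParam (h : ℝ) (τ : ℂ) ^ n)
        (fun n hn => by simp only [hc n (by simpa using hn), zero_mul]) (f τ)).mpr
        (hasSum_laurentInfty hf τ)
      simpa only [Nat.cast_zero, sub_zero, zpow_natCast, smul_eq_mul] using h2
    exact isBoundedAtImInfty_of_hasSum_qExpansion hh h1

/-- `f` vanishes at `i∞` iff its Laurent expansion only has positive exponents -/
theorem isZeroAtImInfty_iff_coeff (hf : IsMeroAtInfty h f) :
    IsZeroAtImInfty f ↔ ∀ n : ℤ, n ≤ 0 → (laurentInfty h f).coeff n = 0 := by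
  have hh : (0 : ℝ) < h := Nat.cast_pos.mpr (NeZero.pos h)
  constructor
  · intro hz n hn
    have hb : IsBoundedAtImInfty f := hz.isBoundedAtImInfty
    rcases lt_or_eq_of_le hn with hn | rfl
    · exact (isBoundedAtImInfty_iff_coeff hf).mp hb n hn
    · have A : IsBddPer h f := ⟨hf.1, hf.2.1, hb⟩
      rw [laurentInfty_of_bounded A]
      have h1 := HahnSeries.ofPowerSeries_apply_coeff (Γ := ℤ) (qExpansion (h : ℝ) f) 0
      simp only [Nat.cast_zero] at h1
      rw [h1, qExpansion_coeff_zero hh A.analytic A.periodic, hz.valueAtInfty_eq_zero]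
  · intro hc
    have hb : IsBoundedAtImInfty f :=
      (isBoundedAtImInfty_iff_coeff hf).mpr (fun n hn => hc n hn.le)
    have A : IsBddPer h f := ⟨hf.1, hf.2.1, hb⟩
    have h0 : cuspFunction (h : ℝ) f 0 = 0 := by
      have h1 := hc 0 le_rfl
      rw [laurentInfty_of_bounded A] at h1
      have h2 := HahnSeries.ofPowerSeries_apply_coeff (Γ := ℤ) (qExpansion (h : ℝ) f) 0
      simp only [Nat.cast_zero] at h2
      rw [h2, qExpansion_coeff] at h1
      simpa using h1
    have h3 : Filter.Tendsto (cuspFunction (h : ℝ) f ∘ fun τ : ℍ => Periodic.qParam (h : ℝ) (τ : ℂ))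
        atImInfty (nhds (cuspFunction (h : ℝ) f 0)) :=
      A.analytic.continuousAt.tendsto.comp (qParam_tendsto_atImInfty hh)
    have h4 : (cuspFunction (h : ℝ) f ∘ fun τ : ℍ => Periodic.qParam (h : ℝ) (τ : ℂ)) = f := by
      funext τ
      exact eq_cuspFunction τ hh.ne' A.periodic
    rw [h4, h0] at h3
    exact h3

end Fermat.Agent.S24
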